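import Mathlib

/-!
# P10 / G4 (global Euler characteristic), Part A: additive functions on representations

`EcAddFun k G` : a real-valued function on `Rep k G`, invariant under isomorphisms and additive on
short exact sequences of finite-dimensional representations (stated elementwise).  Basic API:
sub/quotient/kernel/range representations, `map_ker_add_range`, `six_term`.
-/

set_option autoImplicit false
set_option linter.style.haveILetI false

open CategoryTheory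

namespace Fermat.Agent.TW

noncomputable section

section Constructions

variable {k : Type} [CommRing k] {G : Type} [Group G]

/-- the sub-representation on a stable submodule, as an object of `Rep k G` -/
def ecSub (Y : Rep.{0} k G) (W : Submodule k Y.V) (hW : ∀ g, W ≤ W.comap (Y.ρ g)) : Rep.{0} k G :=
  Rep.of (Y.ρ.subrepresentation W hW)

/-- the inclusion of a sub-representation -/
def ecSubIncl (Y : Rep.{0} k G) (W : Submodule k Y.V) (hW : ∀ g, W ≤ W.comap (Y.ρ g)) :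
    ecSub Y W hW ⟶ Y :=
  Rep.ofHom ⟨W.subtype, fun _ => rfl⟩

/-- the quotient representation by a stable submodule, as an object of `Rep k G` -/
def ecQuot (Y : Rep.{0} k G) (W : Submodule k Y.V) (hW : ∀ g, W ≤ W.comap (Y.ρ g)) : Rep.{0} k G :=
  Rep.of (Y.ρ.quotient W hW)

/-- the projection onto a quotient representation -/
def ecQuotProj (Y : Rep.{0} k G) (W : Submodule k Y.V) (hW : ∀ g, W ≤ W.comap (Y.ρ g)) :
    Y ⟶ ecQuot Y W hW :=
  Rep.ofHom ⟨W.mkQ, fun _ => rfl⟩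

lemma ec_ker_stable {Y Z : Rep.{0} k G} (φ : Y ⟶ Z) (g : G) :
    LinearMap.ker φ.hom.toLinearMap ≤ (LinearMap.ker φ.hom.toLinearMap).comap (Y.ρ g) := by
  intro y hy
  change φ.hom (Y.ρ g y) = 0
  rw [Rep.hom_comm_apply]
  have : φ.hom y = 0 := hy
  rw [this, map_zero]

lemma ec_range_stable {Y Z : Rep.{0} k G} (φ : Y ⟶ Z) (g : G) :
    LinearMap.range φ.hom.toLinearMap ≤ (LinearMap.range φ.hom.toLinearMap).comap (Z.ρ g) := by
  rintro _ ⟨y, rfl⟩
  exact ⟨Y.ρ g y, Rep.hom_comm_apply φ g y⟩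

/-- the kernel of a morphism, as a representation -/
def ecKer {Y Z : Rep.{0} k G} (φ : Y ⟶ Z) : Rep.{0} k G :=
  ecSub Y (LinearMap.ker φ.hom.toLinearMap) (ec_ker_stable φ)

/-- the range of a morphism, as a representation -/
def ecRange {Y Z : Rep.{0} k G} (φ : Y ⟶ Z) : Rep.{0} k G :=
  ecSub Z (LinearMap.range φ.hom.toLinearMap) (ec_range_stable φ)

/-- a morphism, corestricted to its range -/
def ecToRange {Y Z : Rep.{0} k G} (φ : Y ⟶ Z) : Y ⟶ ecRange φ :=
  Rep.ofHom ⟨φ.hom.toLinearMap.rangeRestrict, fun g => by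
    ext y
    exact Rep.hom_comm_apply φ g y⟩

theorem ec_isIso_of_bijective {A B : Rep.{0} k G} (f : A ⟶ B)
    (hf : Function.Bijective f.hom) : IsIso f := by
  have : IsIso ((forget (Rep k G)).map f) := (isIso_iff_bijective _).2 hf
  exact isIso_of_reflects_iso f (forget (Rep k G))

end Constructions

variable {k : Type} [Field k] {G : Type} [Group G]

variable (k G) in
/-- An additive function on the finite-dimensional representations of `G` over `k`. -/
structure EcAddFun where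
  /-- the function -/
  f : Rep.{0} k G → ℝ
  /-- invariance under isomorphisms -/
  iso : ∀ X Y : Rep.{0} k G, Nonempty (X ≅ Y) → f X = f Y
  /-- additivity on short exact sequences -/
  add : ∀ (X Y Z : Rep.{0} k G) (i : X ⟶ Y) (q : Y ⟶ Z), Module.Finite k Y.V →
    Function.Injective i.hom → Function.Surjective q.hom →
    (∀ y : Y.V, q.hom y = 0 ↔ ∃ x : X.V, i.hom x = y) → f Y = f X + f Z

namespace EcAddFun

variable (F : EcAddFun k G)

lemma map_of_subsingleton (X : Rep.{0} k G) [Subsingleton X.V] : F.f X = 0 := by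
  have h := F.add X X X (𝟙 X) (𝟙 X) inferInstance (fun a b _ => Subsingleton.elim a b)
    (fun a => ⟨a, rfl⟩) (fun y => ⟨fun _ => ⟨y, rfl⟩, fun _ => Subsingleton.elim _ _⟩)
  linarith

lemma map_sub_add_quot (Y : Rep.{0} k G) [Module.Finite k Y.V] (W : Submodule k Y.V)
    (hW : ∀ g, W ≤ W.comap (Y.ρ g)) :
    F.f Y = F.f (ecSub Y W hW) + F.f (ecQuot Y W hW) := by
  refine F.add _ _ _ (ecSubIncl Y W hW) (ecQuotProj Y W hW) inferInstance
    (fun a b h => Subtype.ext h) W.mkQ_surjective (fun y => ?_)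
  change W.mkQ y = 0 ↔ _
  rw [Submodule.mkQ_apply, Submodule.Quotient.mk_eq_zero]
  exact ⟨fun h => ⟨⟨y, h⟩, rfl⟩, fun ⟨x, hx⟩ => hx ▸ x.2⟩

lemma map_ker_add_range {Y Z : Rep.{0} k G} [Module.Finite k Y.V] (φ : Y ⟶ Z) :
    F.f Y = F.f (ecKer φ) + F.f (ecRange φ) := by
  refine F.add _ _ _ (ecSubIncl Y _ (ec_ker_stable φ)) (ecToRange φ) inferInstance
    (fun a b h => Subtype.ext h) ?_ (fun y => ?_)
  · rintro ⟨_, y, rfl⟩
    exact ⟨y, rfl⟩
  · constructor
    · intro h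
      have h' : φ.hom y = 0 := congrArg Subtype.val h
      exact ⟨⟨y, h'⟩, rfl⟩
    · rintro ⟨x, rfl⟩
      exact Subtype.ext x.2

lemma map_ecSub_congr (Y : Rep.{0} k G) {W W' : Submodule k Y.V} (h : W = W')
    (hW : ∀ g, W ≤ W.comap (Y.ρ g)) (hW' : ∀ g, W' ≤ W'.comap (Y.ρ g)) :
    F.f (ecSub Y W hW) = F.f (ecSub Y W' hW') := by
  subst h
  rfl

lemma map_range_eq_ker {X Y Z : Rep.{0} k G} (φ : X ⟶ Y) (ψ : Y ⟶ Z)
    (h : ∀ y : Y.V, ψ.hom y = 0 ↔ ∃ x : X.V, φ.hom x = y) :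
    F.f (ecRange φ) = F.f (ecKer ψ) := by
  refine F.map_ecSub_congr Y ?_ _ _
  ext y
  exact (h y).symm

lemma map_ker_of_injective {Y Z : Rep.{0} k G} (φ : Y ⟶ Z) (h : Function.Injective φ.hom) :
    F.f (ecKer φ) = 0 := by
  haveI : Subsingleton (ecKer φ).V := by
    refine ⟨fun a b => Subtype.ext ?_⟩
    have ha : φ.hom a.1 = 0 := a.2
    have hb : φ.hom b.1 = 0 := b.2
    exact h (ha.trans hb.symm)
  exact F.map_of_subsingleton _

lemma map_range_of_surjective {Y Z : Rep.{0} k G} (φ : Y ⟶ Z) (h : Function.Surjective φ.hom) :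
    F.f (ecRange φ) = F.f Z := by
  refine F.iso _ _ ⟨?_⟩
  let e : ecRange φ ⟶ Z := ecSubIncl Z _ (ec_range_stable φ)
  have hb : Function.Bijective e.hom :=
    ⟨fun a b hab => Subtype.ext hab, fun z => ⟨⟨z, h z⟩, rfl⟩⟩
  haveI : IsIso e := ec_isIso_of_bijective e hb
  exact asIso e

end EcAddFun

end

end Fermat.Agent.TW

namespace Fermat.Agent.TW

noncomputable section

variable {k : Type} [Field k] {G : Type} [Group G]

namespace EcAddFun

variable (F : EcAddFun k G)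

/-- alternating sum of an additive function along a six-term exact sequence -/
theorem six_term {Y₁ Y₂ Y₃ Y₄ Y₅ Y₆ : Rep.{0} k G} [Module.Finite k Y₁.V] [Module.Finite k Y₂.V]
    [Module.Finite k Y₃.V] [Module.Finite k Y₄.V] [Module.Finite k Y₅.V] [Module.Finite k Y₆.V]
    (φ₁ : Y₁ ⟶ Y₂) (φ₂ : Y₂ ⟶ Y₃) (φ₃ : Y₃ ⟶ Y₄) (φ₄ : Y₄ ⟶ Y₅) (φ₅ : Y₅ ⟶ Y₆)
    (h₁ : Function.Injective φ₁.hom)
    (h₂ : ∀ y : Y₂.V, φ₂.hom y = 0 ↔ ∃ x : Y₁.V, φ₁.hom x = y)
    (h₃ : ∀ y : Y₃.V, φ₃.hom y = 0 ↔ ∃ x : Y₂.V, φ₂.hom x = y)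
    (h₄ : ∀ y : Y₄.V, φ₄.hom y = 0 ↔ ∃ x : Y₃.V, φ₃.hom x = y)
    (h₅ : ∀ y : Y₅.V, φ₅.hom y = 0 ↔ ∃ x : Y₄.V, φ₄.hom x = y)
    (h₆ : Function.Surjective φ₅.hom) :
    F.f Y₁ + F.f Y₃ + F.f Y₅ = F.f Y₂ + F.f Y₄ + F.f Y₆ := by
  have e₁ := F.map_ker_add_range φ₁
  have e₂ := F.map_ker_add_range φ₂
  have e₃ := F.map_ker_add_range φ₃
  have e₄ := F.map_ker_add_range φ₄
  have e₅ := F.map_ker_add_range φ₅
  have k₁ := F.map_ker_of_injective φ₁ h₁
  have r₅ := F.map_range_of_surjective φ₅ h₆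
  have x₂ := F.map_range_eq_ker φ₁ φ₂ h₂
  have x₃ := F.map_range_eq_ker φ₂ φ₃ h₃
  have x₄ := F.map_range_eq_ker φ₃ φ₄ h₄
  have x₅ := F.map_range_eq_ker φ₄ φ₅ h₅
  linarith

end EcAddFun

end

end Fermat.Agent.TW
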