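import Mathlib
import Fermat.Agent.Lib.TW.Euler.AddFun

/-!
# P10 / G4, Part A: `p`-torsion and `p`-cotorsion of integral representations, the lattice lemma

For `X : Rep R G` (`R` any commutative ring, think `R = ℤ`) we define `ecTor p X = X[p]` and
`ecCot p X = X / p X` as representations over `ZMod p`.  The snake lemma for multiplication by `p`
gives, for every additive function `F` on `Rep (ZMod p) G`, the additivity of
`ecH p F X = F (X / p X) - F (X[p])` on short exact sequences (`ecH_add`); it vanishes on finite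
modules (`ecH_eq_zero_of_finite`).  Consequence, the **lattice lemma** `ecCot_eq_of_finite_quot`:
if `X` has no `p`-torsion and `X' ⊆ X` has finite index then `F (X / p X) = F (X' / p X')`.
-/

set_option autoImplicit false
set_option linter.style.haveILetI false
set_option linter.unusedSectionVars false

open CategoryTheory

namespace Fermat.Agent.TW

noncomputable section

variable {R : Type} [CommRing R] {G : Type} [Group G] (p : ℕ)

/-- a `ℤ`-linear representation on a group killed by `p`, as a representation over `ZMod p` -/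
def ecZModRep {M : Type} [AddCommGroup M] [Module R M] (hM : ∀ x : M, p • x = 0) (ρ : Representation R G M) :
    Rep.{0} (ZMod p) G :=
  letI : Module (ZMod p) M := AddCommGroup.zmodModule hM
  Rep.of (X := M)
    { toFun := fun g => (ρ g).toAddMonoidHom.toZModLinearMap p
      map_one' := by ext x; simp
      map_mul' := fun g h => by ext x; simp }

lemma ecZModRep_ρ_apply {M : Type} [AddCommGroup M] [Module R M] (hM : ∀ x : M, p • x = 0)
    (ρ : Representation R G M) (g : G) (x : M) :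
    (ecZModRep p hM ρ).ρ g x = ρ g x := rfl

/-- an equivariant additive map between groups killed by `p`, as a morphism over `ZMod p` -/
def ecZModHom {M M' : Type} [AddCommGroup M] [AddCommGroup M'] [Module R M] [Module R M'] (hM : ∀ x : M, p • x = 0)
    (hM' : ∀ x : M', p • x = 0) (ρ : Representation R G M) (ρ' : Representation R G M')
    (φ : M →+ M') (hφ : ∀ g x, φ (ρ g x) = ρ' g (φ x)) :
    ecZModRep p hM ρ ⟶ ecZModRep p hM' ρ' :=
  letI : Module (ZMod p) M := AddCommGroup.zmodModule hM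
  letI : Module (ZMod p) M' := AddCommGroup.zmodModule hM'
  Rep.ofHom ⟨φ.toZModLinearMap p, fun g => by ext x; exact hφ g x⟩

lemma ecZModHom_apply {M M' : Type} [AddCommGroup M] [AddCommGroup M'] [Module R M] [Module R M'] (hM : ∀ x : M, p • x = 0)
    (hM' : ∀ x : M', p • x = 0) (ρ : Representation R G M) (ρ' : Representation R G M')
    (φ : M →+ M') (hφ : ∀ g x, φ (ρ g x) = ρ' g (φ x)) (x : M) :
    (ecZModHom p hM hM' ρ ρ' φ hφ).hom x = φ x := rfl

/-! ### `p`-torsion and `p`-cotorsion of an integral representation -/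

/-- multiplication by `p` -/
def ecPMul (X : Rep.{0} R G) : X.V →ₗ[R] X.V := LinearMap.lsmul R X.V (p : R)

@[simp] lemma ecPMul_apply (X : Rep.{0} R G) (x : X.V) : ecPMul p X x = p • x := by
  change (p : R) • x = p • x
  exact Nat.cast_smul_eq_nsmul R p x

lemma ecPMul_comm (X : Rep.{0} R G) (g : G) (x : X.V) : ecPMul p X (X.ρ g x) = X.ρ g (ecPMul p X x) := by
  rw [ecPMul_apply, ecPMul_apply, map_nsmul]

lemma ecPMul_hom {X Y : Rep.{0} R G} (φ : X ⟶ Y) (x : X.V) :
    ecPMul p Y (φ.hom x) = φ.hom (ecPMul p X x) := by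
  rw [ecPMul_apply, ecPMul_apply, map_nsmul]

lemma ec_tor_stable (X : Rep.{0} R G) (g : G) :
    LinearMap.ker (ecPMul p X) ≤ (LinearMap.ker (ecPMul p X)).comap (X.ρ g) := by
  intro x hx
  change ecPMul p X (X.ρ g x) = 0
  rw [ecPMul_comm, LinearMap.mem_ker.1 hx, map_zero]

lemma ec_cot_stable (X : Rep.{0} R G) (g : G) :
    LinearMap.range (ecPMul p X) ≤ (LinearMap.range (ecPMul p X)).comap (X.ρ g) := by
  rintro _ ⟨x, rfl⟩
  exact ⟨X.ρ g x, ecPMul_comm p X g x⟩

lemma ec_tor_killed (X : Rep.{0} R G) (x : LinearMap.ker (ecPMul p X)) : p • x = 0 := by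
  apply Subtype.ext
  have := LinearMap.mem_ker.1 x.2
  rw [ecPMul_apply] at this
  simpa using this

lemma ec_cot_killed (X : Rep.{0} R G) (x : X.V ⧸ LinearMap.range (ecPMul p X)) : p • x = 0 := by
  obtain ⟨x, rfl⟩ := Submodule.mkQ_surjective _ x
  rw [← map_nsmul, Submodule.mkQ_apply, Submodule.Quotient.mk_eq_zero]
  exact ⟨x, ecPMul_apply p X x⟩

/-- the `p`-torsion `X[p]`, as a representation over `ZMod p` -/
def ecTor (X : Rep.{0} R G) : Rep.{0} (ZMod p) G :=
  ecZModRep p (ec_tor_killed p X) (X.ρ.subrepresentation _ (ec_tor_stable p X))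

/-- the `p`-cotorsion `X / p X`, as a representation over `ZMod p` -/
def ecCot (X : Rep.{0} R G) : Rep.{0} (ZMod p) G :=
  ecZModRep p (ec_cot_killed p X) (X.ρ.quotient _ (ec_cot_stable p X))

/-- the inclusion `X[p] → X` -/
def ecTorVal (X : Rep.{0} R G) : (ecTor p X).V →+ X.V :=
  (LinearMap.ker (ecPMul p X)).subtype.toAddMonoidHom

/-- the projection `X → X / p X` -/
def ecCotMk (X : Rep.{0} R G) : X.V →+ (ecCot p X).V :=
  (LinearMap.range (ecPMul p X)).mkQ.toAddMonoidHom

lemma ecTorVal_injective (X : Rep.{0} R G) : Function.Injective (ecTorVal p X) :=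
  Subtype.val_injective

lemma ecTorVal_smul (X : Rep.{0} R G) (x : (ecTor p X).V) : p • ecTorVal p X x = 0 := by
  have h := LinearMap.mem_ker.1 (show ecTorVal p X x ∈ LinearMap.ker (ecPMul p X) from
    (show LinearMap.ker (ecPMul p X) from x).2)
  rwa [ecPMul_apply] at h

lemma exists_ecTorVal_eq (X : Rep.{0} R G) (y : X.V) (hy : p • y = 0) :
    ∃ x : (ecTor p X).V, ecTorVal p X x = y :=
  ⟨(⟨y, LinearMap.mem_ker.2 (by rw [ecPMul_apply, hy])⟩ : LinearMap.ker (ecPMul p X)), rfl⟩

lemma ecTorVal_ρ (X : Rep.{0} R G) (g : G) (x : (ecTor p X).V) :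
    ecTorVal p X ((ecTor p X).ρ g x) = X.ρ g (ecTorVal p X x) := rfl

lemma ecCotMk_surjective (X : Rep.{0} R G) : Function.Surjective (ecCotMk p X) :=
  Submodule.mkQ_surjective _

lemma ecCotMk_eq_zero_iff (X : Rep.{0} R G) (x : X.V) :
    ecCotMk p X x = 0 ↔ ∃ y : X.V, p • y = x := by
  change (LinearMap.range (ecPMul p X)).mkQ x = 0 ↔ _
  rw [Submodule.mkQ_apply, Submodule.Quotient.mk_eq_zero, LinearMap.mem_range]
  simp only [ecPMul_apply]

lemma ecCotMk_ρ (X : Rep.{0} R G) (g : G) (x : X.V) :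
    ecCotMk p X (X.ρ g x) = (ecCot p X).ρ g (ecCotMk p X x) := rfl

/-- functoriality of `X[p]` -/
def ecTorMap {X Y : Rep.{0} R G} (φ : X ⟶ Y) : ecTor p X ⟶ ecTor p Y :=
  ecZModHom p _ _ _ _
    ((φ.hom.toLinearMap.restrict (p := LinearMap.ker (ecPMul p X)) (q := LinearMap.ker (ecPMul p Y))
      (fun x hx => by
        change ecPMul p Y (φ.hom x) = 0
        rw [ecPMul_hom, LinearMap.mem_ker.1 hx, map_zero])).toAddMonoidHom)
    (fun g x => Subtype.ext (Rep.hom_comm_apply φ g x.1))

lemma ecTorVal_ecTorMap {X Y : Rep.{0} R G} (φ : X ⟶ Y) (x : (ecTor p X).V) :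
    ecTorVal p Y ((ecTorMap p φ).hom x) = φ.hom (ecTorVal p X x) := rfl

/-- functoriality of `X / p X` -/
def ecCotMap {X Y : Rep.{0} R G} (φ : X ⟶ Y) : ecCot p X ⟶ ecCot p Y :=
  ecZModHom p _ _ _ _
    ((Submodule.mapQ (LinearMap.range (ecPMul p X)) (LinearMap.range (ecPMul p Y))
      φ.hom.toLinearMap (by
        rintro _ ⟨x, rfl⟩
        exact ⟨φ.hom x, ecPMul_hom p φ x⟩)).toAddMonoidHom)
    (fun g x => by
      obtain ⟨x, rfl⟩ := Submodule.mkQ_surjective _ x
      exact congrArg (Submodule.mkQ _) (Rep.hom_comm_apply φ g x))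

lemma ecCotMap_ecCotMk {X Y : Rep.{0} R G} (φ : X ⟶ Y) (x : X.V) :
    (ecCotMap p φ).hom (ecCotMk p X x) = ecCotMk p Y (φ.hom x) := rfl

/-! ### The snake lemma for multiplication by `p` -/

section Snake

variable {X' X X'' : Rep.{0} R G} (i : X' ⟶ X) (q : X ⟶ X'')
  (hi : Function.Injective i.hom) (hq : Function.Surjective q.hom)
  (hex : ∀ x : X.V, q.hom x = 0 ↔ ∃ x' : X'.V, i.hom x' = x)

include hex in
lemma ec_exact_iq : Function.Exact i.hom.toLinearMap q.hom.toLinearMap := fun x => hex x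

/-- the connecting map `X''[p] → X' / p X'`, as a linear map -/
def ecDeltaLin : LinearMap.ker (ecPMul p X'') →ₗ[R] X'.V ⧸ LinearMap.range (ecPMul p X') :=
  SnakeLemma.δ' (ecPMul p X') (ecPMul p X) (ecPMul p X'') i.hom.toLinearMap q.hom.toLinearMap
    (ec_exact_iq i q hex) i.hom.toLinearMap q.hom.toLinearMap (ec_exact_iq i q hex)
    (by ext x; exact (ecPMul_hom p i x).symm) (by ext x; exact (ecPMul_hom p q x).symm)
    (LinearMap.ker (ecPMul p X'')).subtype (LinearMap.exact_subtype_ker_map _)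
    (LinearMap.range (ecPMul p X')).mkQ (LinearMap.exact_map_mkQ_range _) hq hi

lemma ecDeltaLin_eq (x : LinearMap.ker (ecPMul p X'')) (y : X.V) (hy : q.hom y = x.1) (z : X'.V)
    (hz : i.hom z = p • y) :
    ecDeltaLin p i q hi hq hex x = (LinearMap.range (ecPMul p X')).mkQ z :=
  SnakeLemma.δ'_eq (ecPMul p X') (ecPMul p X) (ecPMul p X'') i.hom.toLinearMap q.hom.toLinearMap
    (ec_exact_iq i q hex) i.hom.toLinearMap q.hom.toLinearMap (ec_exact_iq i q hex)
    (by ext x; exact (ecPMul_hom p i x).symm) (by ext x; exact (ecPMul_hom p q x).symm)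
    (LinearMap.ker (ecPMul p X'')).subtype (LinearMap.exact_subtype_ker_map _)
    (LinearMap.range (ecPMul p X')).mkQ (LinearMap.exact_map_mkQ_range _) hq hi x y hy z
    (hz.trans (ecPMul_apply p X y).symm)

/-- the connecting morphism `X''[p] ⟶ X' / p X'` -/
def ecDelta : ecTor p X'' ⟶ ecCot p X' :=
  ecZModHom p _ _ _ _ (ecDeltaLin p i q hi hq hex).toAddMonoidHom (fun g x => by
    obtain ⟨y, hy⟩ := hq x.1
    have hz : q.hom (p • y) = 0 := by
      rw [map_nsmul, hy]
      have := LinearMap.mem_ker.1 x.2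
      rwa [ecPMul_apply] at this
    obtain ⟨z, hz⟩ := (hex _).1 hz
    change ecDeltaLin p i q hi hq hex _ = (X'.ρ.quotient _ (ec_cot_stable p X')) g
      (ecDeltaLin p i q hi hq hex x)
    rw [ecDeltaLin_eq p i q hi hq hex x y hy z hz,
      ecDeltaLin_eq p i q hi hq hex _ (X.ρ g y) (by rw [Rep.hom_comm_apply, hy]; rfl) (X'.ρ g z)
        (by rw [Rep.hom_comm_apply, hz, map_nsmul])]
    rfl)

lemma ecDelta_eq (x : (ecTor p X'').V) (y : X.V) (hy : q.hom y = ecTorVal p X'' x) (z : X'.V)
    (hz : i.hom z = p • y) :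
    (ecDelta p i q hi hq hex).hom x = ecCotMk p X' z :=
  ecDeltaLin_eq p i q hi hq hex x y hy z hz

include hi in
lemma ecTorMap_injective : Function.Injective (ecTorMap p i).hom := by
  intro a b hab
  apply ecTorVal_injective p X'
  apply hi
  have := congrArg (ecTorVal p X) hab
  rwa [ecTorVal_ecTorMap, ecTorVal_ecTorMap] at this

include hi hex in
lemma ecTorMap_exact (y : (ecTor p X).V) :
    (ecTorMap p q).hom y = 0 ↔ ∃ x : (ecTor p X').V, (ecTorMap p i).hom x = y := by
  constructor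
  · intro h
    have h1 : q.hom (ecTorVal p X y) = 0 := by
      rw [← ecTorVal_ecTorMap, h, map_zero]
    obtain ⟨x', hx'⟩ := (hex _).1 h1
    have h2 : p • x' = 0 := by
      apply hi
      rw [map_nsmul, hx', ecTorVal_smul, map_zero]
    obtain ⟨x, rfl⟩ := exists_ecTorVal_eq p X' x' h2
    refine ⟨x, ecTorVal_injective p X ?_⟩
    rw [ecTorVal_ecTorMap, hx']
  · rintro ⟨x, rfl⟩
    apply ecTorVal_injective p X''
    rw [ecTorVal_ecTorMap, ecTorVal_ecTorMap, map_zero]
    exact (hex _).2 ⟨_, rfl⟩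

include hi hq hex in
lemma ecDelta_exact_left (x : (ecTor p X'').V) :
    (ecDelta p i q hi hq hex).hom x = 0 ↔ ∃ y : (ecTor p X).V, (ecTorMap p q).hom y = x := by
  obtain ⟨y, hy⟩ := hq (ecTorVal p X'' x)
  have hz : q.hom (p • y) = 0 := by rw [map_nsmul, hy, ecTorVal_smul]
  obtain ⟨z, hz⟩ := (hex _).1 hz
  rw [ecDelta_eq p i q hi hq hex x y hy z hz]
  constructor
  · intro h
    obtain ⟨z', rfl⟩ := (ecCotMk_eq_zero_iff p X' z).1 h
    have h1 : p • (y - i.hom z') = 0 := by
      rw [smul_sub, ← hz, map_nsmul, sub_self]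
    obtain ⟨y', hy'⟩ := exists_ecTorVal_eq p X _ h1
    refine ⟨y', ecTorVal_injective p X'' ?_⟩
    rw [ecTorVal_ecTorMap, hy', map_sub, hy, (hex _).2 ⟨z', rfl⟩, sub_zero]
  · rintro ⟨y', rfl⟩
    rw [ecTorVal_ecTorMap] at hy
    obtain ⟨w, hw⟩ := (hex (y - ecTorVal p X y')).1 (by rw [map_sub, hy, sub_self])
    rw [ecCotMk_eq_zero_iff]
    refine ⟨w, hi ?_⟩
    rw [map_nsmul, hw, smul_sub, ecTorVal_smul, sub_zero, hz]

include hi hq hex in
lemma ecDelta_exact_right (c : (ecCot p X').V) :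
    (ecCotMap p i).hom c = 0 ↔ ∃ x : (ecTor p X'').V, (ecDelta p i q hi hq hex).hom x = c := by
  obtain ⟨z, rfl⟩ := ecCotMk_surjective p X' c
  rw [ecCotMap_ecCotMk, ecCotMk_eq_zero_iff]
  constructor
  · rintro ⟨y, hy⟩
    have h1 : p • q.hom y = 0 := by
      rw [← map_nsmul, hy]
      exact (hex _).2 ⟨z, rfl⟩
    obtain ⟨x, hx⟩ := exists_ecTorVal_eq p X'' _ h1
    exact ⟨x, ecDelta_eq p i q hi hq hex x y hx.symm z hy.symm⟩
  · rintro ⟨x, hx⟩
    obtain ⟨y, hy⟩ := hq (ecTorVal p X'' x)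
    have hz' : q.hom (p • y) = 0 := by rw [map_nsmul, hy, ecTorVal_smul]
    obtain ⟨z', hz'⟩ := (hex _).1 hz'
    rw [ecDelta_eq p i q hi hq hex x y hy z' hz'] at hx
    have h2 : ecCotMk p X' (z' - z) = 0 := by rw [map_sub, hx, sub_self]
    obtain ⟨w, hw⟩ := (ecCotMk_eq_zero_iff p X' _).1 h2
    refine ⟨y - i.hom w, ?_⟩
    rw [smul_sub, ← map_nsmul, hw, map_sub, hz', sub_sub_cancel]

include hq hex in
lemma ecCotMap_exact (c : (ecCot p X).V) :
    (ecCotMap p q).hom c = 0 ↔ ∃ a : (ecCot p X').V, (ecCotMap p i).hom a = c := by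
  obtain ⟨x, rfl⟩ := ecCotMk_surjective p X c
  rw [ecCotMap_ecCotMk, ecCotMk_eq_zero_iff]
  constructor
  · rintro ⟨y'', hy''⟩
    obtain ⟨y, rfl⟩ := hq y''
    obtain ⟨x', hx'⟩ := (hex (x - p • y)).1 (by rw [map_sub, map_nsmul, hy'', sub_self])
    refine ⟨ecCotMk p X' x', ?_⟩
    rw [ecCotMap_ecCotMk, hx', map_sub, sub_eq_self]
    exact (ecCotMk_eq_zero_iff p X _).2 ⟨y, rfl⟩
  · rintro ⟨a, ha⟩
    obtain ⟨x', rfl⟩ := ecCotMk_surjective p X' a
    rw [ecCotMap_ecCotMk] at ha
    obtain ⟨w, hw⟩ := (ecCotMk_eq_zero_iff p X _).1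
      (show ecCotMk p X (i.hom x' - x) = 0 by rw [map_sub, ha, sub_self])
    refine ⟨q.hom (-w), ?_⟩
    rw [← map_nsmul, smul_neg, hw, neg_sub, map_sub, (hex _).2 ⟨x', rfl⟩, sub_zero]

include hq in
lemma ecCotMap_surjective : Function.Surjective (ecCotMap p q).hom := by
  intro c
  obtain ⟨x'', rfl⟩ := ecCotMk_surjective p X'' c
  obtain ⟨x, rfl⟩ := hq x''
  exact ⟨ecCotMk p X x, ecCotMap_ecCotMk p q x⟩

end Snake

/-! ### The invariant `h_F(X) = F(X / p X) - F(X[p])` -/

section Count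

variable [Fact p.Prime] (F : EcAddFun (ZMod p) G)

/-- `h_F(X) = F(X / p X) - F(X[p])` -/
def ecH (X : Rep.{0} R G) : ℝ := F.f (ecCot p X) - F.f (ecTor p X)

/-- `h_F` is additive on short exact sequences (snake lemma for multiplication by `p`) -/
theorem ecH_add {X' X X'' : Rep.{0} R G} (i : X' ⟶ X) (q : X ⟶ X'')
    (hi : Function.Injective i.hom) (hq : Function.Surjective q.hom)
    (hex : ∀ x : X.V, q.hom x = 0 ↔ ∃ x' : X'.V, i.hom x' = x)
    [Finite (ecTor p X').V] [Finite (ecTor p X).V] [Finite (ecTor p X'').V]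
    [Finite (ecCot p X').V] [Finite (ecCot p X).V] [Finite (ecCot p X'').V] :
    ecH p F X = ecH p F X' + ecH p F X'' := by
  have h := F.six_term (ecTorMap p i) (ecTorMap p q) (ecDelta p i q hi hq hex) (ecCotMap p i)
    (ecCotMap p q) (ecTorMap_injective p i hi) (ecTorMap_exact p i q hi hex)
    (ecDelta_exact_left p i q hi hq hex) (ecDelta_exact_right p i q hi hq hex)
    (ecCotMap_exact p i q hq hex) (ecCotMap_surjective p q hq)
  unfold ecH
  linarith

lemma ec_finite_tor (X : Rep.{0} R G) [Finite X.V] : Finite (ecTor p X).V :=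
  show Finite ↥(LinearMap.ker (ecPMul p X)) from inferInstance

lemma ec_finite_cot (X : Rep.{0} R G) [Finite X.V] : Finite (ecCot p X).V :=
  show Finite (X.V ⧸ LinearMap.range (ecPMul p X)) from
    Finite.of_surjective _ (LinearMap.range (ecPMul p X)).mkQ_surjective

/-- the canonical morphism `X[p] ⟶ X / p X` -/
def ecTorToCot (X : Rep.{0} R G) : ecTor p X ⟶ ecCot p X :=
  ecZModHom p _ _ _ _ ((ecCotMk p X).comp (ecTorVal p X)) (fun _ _ => rfl)

lemma ecTorToCot_apply (X : Rep.{0} R G) (x : (ecTor p X).V) :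
    (ecTorToCot p X).hom x = ecCotMk p X (ecTorVal p X x) := rfl

lemma ecH_eq_zero_of_killed (X : Rep.{0} R G) (hX : ∀ x : X.V, p • x = 0) : ecH p F X = 0 := by
  have hb : Function.Bijective (ecTorToCot p X).hom := by
    constructor
    · intro a b hab
      rw [ecTorToCot_apply, ecTorToCot_apply, ← sub_eq_zero, ← map_sub, ← map_sub,
        ecCotMk_eq_zero_iff] at hab
      obtain ⟨y, hy⟩ := hab
      rw [hX y] at hy
      exact sub_eq_zero.1 (ecTorVal_injective p X (by rw [← hy, map_zero]))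
    · intro c
      obtain ⟨x, rfl⟩ := ecCotMk_surjective p X c
      obtain ⟨a, rfl⟩ := exists_ecTorVal_eq p X x (hX x)
      exact ⟨a, rfl⟩
  haveI : IsIso (ecTorToCot p X) := ec_isIso_of_bijective _ hb
  have := F.iso _ _ ⟨asIso (ecTorToCot p X)⟩
  unfold ecH
  linarith

lemma ecH_eq_zero_of_surjective (X : Rep.{0} R G) [Finite X.V]
    (hX : Function.Surjective (ecPMul p X)) : ecH p F X = 0 := by
  have hinj : Function.Injective (ecPMul p X) := Finite.injective_iff_surjective.2 hX
  haveI : Subsingleton (ecTor p X).V := by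
    refine ⟨fun a b => ecTorVal_injective p X (hinj ?_)⟩
    rw [ecPMul_apply, ecPMul_apply, ecTorVal_smul, ecTorVal_smul]
  haveI : Subsingleton (ecCot p X).V := by
    refine ⟨fun a b => ?_⟩
    obtain ⟨x, rfl⟩ := ecCotMk_surjective p X a
    obtain ⟨y, rfl⟩ := ecCotMk_surjective p X b
    rw [← sub_eq_zero, ← map_sub, ecCotMk_eq_zero_iff]
    obtain ⟨z, hz⟩ := hX (x - y)
    exact ⟨z, by rw [← ecPMul_apply, hz]⟩
  unfold ecH
  rw [F.map_of_subsingleton, F.map_of_subsingleton, sub_zero]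

/-- `h_F` vanishes on finite modules -/
theorem ecH_eq_zero_of_finite (X : Rep.{0} R G) [Finite X.V] : ecH p F X = 0 := by
  suffices H : ∀ n : ℕ, ∀ X : Rep.{0} R G, Finite X.V → Nat.card X.V = n → ecH p F X = 0 from
    H _ X inferInstance rfl
  intro n
  induction n using Nat.strong_induction_on with
  | _ n ih =>
    intro X hfin hn
    by_cases h1 : LinearMap.range (ecPMul p X) = ⊤
    · exact ecH_eq_zero_of_surjective p F X (LinearMap.range_eq_top.1 h1)
    by_cases h2 : LinearMap.range (ecPMul p X) = ⊥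
    · refine ecH_eq_zero_of_killed p F X (fun x => ?_)
      have : ecPMul p X x ∈ LinearMap.range (ecPMul p X) := ⟨x, rfl⟩
      rw [h2, Submodule.mem_bot, ecPMul_apply] at this
      exact this
    · set W := LinearMap.range (ecPMul p X) with hW
      have hst := ec_cot_stable p X
      haveI : Finite (ecSub X W hst).V := show Finite ↥W from inferInstance
      haveI : Finite (ecQuot X W hst).V := show Finite (X.V ⧸ W) from
        Finite.of_surjective _ W.mkQ_surjective
      haveI := ec_finite_tor p X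
      haveI := ec_finite_cot p X
      haveI := ec_finite_tor p (ecSub X W hst)
      haveI := ec_finite_cot p (ecSub X W hst)
      haveI := ec_finite_tor p (ecQuot X W hst)
      haveI := ec_finite_cot p (ecQuot X W hst)
      have hadd := ecH_add p F (ecSubIncl X W hst) (ecQuotProj X W hst)
        (fun a b h => Subtype.ext h) W.mkQ_surjective (fun y => by
          change W.mkQ y = 0 ↔ _
          rw [Submodule.mkQ_apply, Submodule.Quotient.mk_eq_zero]
          exact ⟨fun h => ⟨⟨y, h⟩, rfl⟩, fun ⟨x, hx⟩ => hx ▸ x.2⟩)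
      have c1 : Nat.card (ecSub X W hst).V < n := by
        rw [← hn]
        change Nat.card ↥W < Nat.card X.V
        obtain ⟨x, hx⟩ : ∃ x : X.V, x ∉ W := by
          by_contra hcon
          push Not at hcon
          exact h1 (eq_top_iff.2 fun x _ => hcon x)
        exact Finite.card_subtype_lt (p := fun y => y ∈ W) hx
      have c2 : Nat.card (ecQuot X W hst).V < n := by
        rw [← hn]
        change Nat.card (X.V ⧸ W) < Nat.card X.V
        obtain ⟨x, hxW, hx0⟩ : ∃ x : X.V, x ∈ W ∧ x ≠ 0 := by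
          by_contra hcon
          push Not at hcon
          exact h2 (eq_bot_iff.2 fun x hx => (Submodule.mem_bot _).2 (hcon x hx))
        haveI : Finite (X.V ⧸ W) := Finite.of_surjective _ W.mkQ_surjective
        haveI := Fintype.ofFinite X.V
        haveI := Fintype.ofFinite (X.V ⧸ W)
        rw [Nat.card_eq_fintype_card, Nat.card_eq_fintype_card]
        refine Fintype.card_lt_of_surjective_not_injective _ W.mkQ_surjective (fun hinj => hx0 ?_)
        apply hinj
        rw [map_zero, Submodule.mkQ_apply, Submodule.Quotient.mk_eq_zero]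
        exact hxW
      rw [hadd, ih _ c1 _ inferInstance rfl, ih _ c2 _ inferInstance rfl, add_zero]

lemma ec_subsingleton_tor (X : Rep.{0} R G) (hX : ∀ x : X.V, p • x = 0 → x = 0) :
    Subsingleton (ecTor p X).V :=
  ⟨fun a b => ecTorVal_injective p X
    ((hX _ (ecTorVal_smul p X a)).trans (hX _ (ecTorVal_smul p X b)).symm)⟩

/-- **Lattice lemma**: if `X' ⊆ X` has finite index and `X` has no `p`-torsion, then `X / p X` and
`X' / p X'` have the same value under every additive function. -/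
theorem ecCot_eq_of_finite_quot {X' X X'' : Rep.{0} R G} (i : X' ⟶ X) (q : X ⟶ X'')
    (hi : Function.Injective i.hom) (hq : Function.Surjective q.hom)
    (hex : ∀ x : X.V, q.hom x = 0 ↔ ∃ x' : X'.V, i.hom x' = x)
    (hX : ∀ x : X.V, p • x = 0 → x = 0) [Finite X''.V]
    [Finite (ecCot p X).V] [Finite (ecCot p X').V] :
    F.f (ecCot p X) = F.f (ecCot p X') := by
  haveI := ec_subsingleton_tor p X hX
  haveI := ec_subsingleton_tor p X' (fun x hx => by
    apply hi
    rw [map_zero]
    apply hX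
    rw [← map_nsmul, hx, map_zero])
  haveI := ec_finite_tor p X''
  haveI := ec_finite_cot p X''
  have h := ecH_add p F i q hi hq hex
  rw [ecH_eq_zero_of_finite p F X'', add_zero] at h
  unfold ecH at h
  rw [F.map_of_subsingleton (ecTor p X), F.map_of_subsingleton (ecTor p X')] at h
  linarith

end Count

end

end Fermat.Agent.TW
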