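import Mathlib

/-!
# P10 / G4 (global Euler characteristic): the number of vectors fixed by a subgroup
-/

set_option autoImplicit false

namespace Fermat.Agent.TW

noncomputable section

/-- `|M^D|`, the number of vectors fixed by a subgroup -/
def ecCardInv {k G : Type} [CommRing k] [Group G] (M : Rep.{0} k G) (D : Subgroup G) : ℕ :=
  Nat.card {x : M.V // ∀ g ∈ D, M.ρ g x = x}

end

end Fermat.Agent.TW
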