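import Mathlib

/-!
# P10 / G4 (global Euler characteristic): counting in exact sequences of finite abelian groups
-/

set_option autoImplicit false

namespace Fermat.Agent.TW

section

variable {X Y Z : Type*} [AddCommGroup X] [AddCommGroup Y] [AddCommGroup Z]

/-- `|Y| = |ker g| · |im g|` -/
theorem ec_card_eq_ker_mul_range (g : Y →+ Z) :
    Nat.card Y = Nat.card g.ker * Nat.card g.range := by
  rw [AddSubgroup.card_eq_card_quotient_mul_card_addSubgroup g.ker,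
    Nat.card_congr (QuotientAddGroup.quotientKerEquivRange g).toEquiv, mul_comm]

/-- for `X → Y → Z` exact at `Y`: `|Y| = |im f| · |im g|` -/
theorem ec_card_of_exact (f : X →+ Y) (g : Y →+ Z) (h : ∀ y, g y = 0 ↔ ∃ x, f x = y) :
    Nat.card Y = Nat.card f.range * Nat.card g.range := by
  have : g.ker = f.range := by
    ext y
    rw [AddMonoidHom.mem_ker, AddMonoidHom.mem_range]
    exact h y
  rw [ec_card_eq_ker_mul_range g, this]

theorem ec_card_range_of_injective (f : X →+ Y) (h : Function.Injective f) :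
    Nat.card f.range = Nat.card X :=
  (Nat.card_congr (AddMonoidHom.ofInjective h).toEquiv).symm

theorem ec_card_range_of_surjective (f : X →+ Y) (h : Function.Surjective f) :
    Nat.card f.range = Nat.card Y := by
  rw [AddMonoidHom.range_eq_top.2 h, AddSubgroup.card_top]

end

/-- the alternating product of the cardinalities in a nine-term exact sequence
`0 → X₁ → X₂ → ⋯ → X₉ → 0` -/
theorem ec_card_nine {X₁ X₂ X₃ X₄ X₅ X₆ X₇ X₈ X₉ : Type*} [AddCommGroup X₁] [AddCommGroup X₂]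
    [AddCommGroup X₃] [AddCommGroup X₄] [AddCommGroup X₅] [AddCommGroup X₆] [AddCommGroup X₇]
    [AddCommGroup X₈] [AddCommGroup X₉]
    (f₁ : X₁ →+ X₂) (f₂ : X₂ →+ X₃) (f₃ : X₃ →+ X₄) (f₄ : X₄ →+ X₅) (f₅ : X₅ →+ X₆)
    (f₆ : X₆ →+ X₇) (f₇ : X₇ →+ X₈) (f₈ : X₈ →+ X₉)
    (h₁ : Function.Injective f₁)
    (h₂ : ∀ y, f₂ y = 0 ↔ ∃ x, f₁ x = y) (h₃ : ∀ y, f₃ y = 0 ↔ ∃ x, f₂ x = y)
    (h₄ : ∀ y, f₄ y = 0 ↔ ∃ x, f₃ x = y) (h₅ : ∀ y, f₅ y = 0 ↔ ∃ x, f₄ x = y)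
    (h₆ : ∀ y, f₆ y = 0 ↔ ∃ x, f₅ x = y) (h₇ : ∀ y, f₇ y = 0 ↔ ∃ x, f₆ x = y)
    (h₈ : ∀ y, f₈ y = 0 ↔ ∃ x, f₇ x = y) (h₉ : Function.Surjective f₈) :
    Nat.card X₁ * Nat.card X₃ * Nat.card X₅ * Nat.card X₇ * Nat.card X₉ =
      Nat.card X₂ * Nat.card X₄ * Nat.card X₆ * Nat.card X₈ := by
  rw [← ec_card_range_of_injective f₁ h₁, ← ec_card_range_of_surjective f₈ h₉,
    ec_card_of_exact f₁ f₂ h₂, ec_card_of_exact f₂ f₃ h₃, ec_card_of_exact f₃ f₄ h₄,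
    ec_card_of_exact f₄ f₅ h₅, ec_card_of_exact f₅ f₆ h₆, ec_card_of_exact f₆ f₇ h₇,
    ec_card_of_exact f₇ f₈ h₈]
  ring

/-- finiteness propagates along an exact sequence `X → Y → Z` -/
theorem ec_finite_of_exact {X Y Z : Type*} [AddCommGroup X] [AddCommGroup Y] [AddCommGroup Z]
    (f : X →+ Y) (g : Y →+ Z) [Finite X] [Finite Z] (h : ∀ y, g y = 0 → ∃ x, f x = y) :
    Finite Y := by
  have hsurj : Function.Surjective
      (fun x : {x : X // g (f x) = 0} => (⟨f x.1, x.2⟩ : g.ker)) := by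
    rintro ⟨y, hy⟩
    obtain ⟨x, rfl⟩ := h y hy
    exact ⟨⟨x, hy⟩, rfl⟩
  haveI : Finite g.ker := Finite.of_surjective _ hsurj
  exact (g.finite_iff_finite_ker_range).2 ⟨inferInstance, inferInstance⟩

end Fermat.Agent.TW
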