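import Fermat.Agent.Lib.CFT.Duality.D2
import Fermat.Agent.Lib.CFT.Duality.Sylow
import Fermat.Agent.Lib.TW.Euler.Count

/-!
# P10 / G4 (global Euler characteristic), Part B: `ExtLim A_S E r` for the `S`-units `E`

For the class field theory data `d : PTData p S L₀ h₀` and a finite `p`-torsion cartesian tower module
`A` over the levels above `L₀`:

* `ec_extLim_E_three` : `Ext³(A_S, E) = 0` (for `S` nonempty);
* `ec_mapRight_jCsum_two_surjective` : `Ext²(A_S, ⊕ J_q) → Ext²(A_S, C)` is onto;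
* `ec_card_extLim_E_two` : `|Ext²(A_S, E)| · |H⁰_S(A)| = |Ш¹_S(A)| · ∏_q |H⁰(D_q, A)|`;
* `ec_nine_EJC` : the nine term exact sequence of `0 → E → ⊕ J_q → C → Cl → 0`, in cardinalities;
* `ec_nine_left` : the nine term exact sequence in the first variable, in cardinalities.
-/

set_option autoImplicit false
set_option linter.unusedSectionVars false
set_option linter.unusedVariables false
set_option linter.style.haveILetI false

open CategoryTheory CategoryTheory.Abelian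

namespace Fermat.Agent.TW

open Fermat.Agent.CFT Fermat.Agent.CFT.Duality Fermat.Agent.CFT.Duality.TowerModule
open Fermat.Agent.CFT.Duality.PTData

noncomputable section

/-! ### Restriction to subgroups is injective on `H⁰` -/

/-- restriction to a subgroup is injective on `Ext⁰` -/
theorem ec_extPull_subtype_zero_injective {k : Type} [CommRing k] {G : Type} [Group G]
    (H : Subgroup G) (X Y : Rep.{0} k G) :
    Function.Injective
      (extPull H.subtype (𝟙 (Rep.res H.subtype X)) (𝟙 (Rep.res H.subtype Y)) 0) := by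
  rw [injective_iff_map_eq_zero]
  intro ξ hξ
  obtain ⟨φ, rfl⟩ := (Ext.mk₀_bijective X Y).2 ξ
  rw [extPull_apply, Ext.mapExactFunctor_mk₀, Ext.mk₀_comp_mk₀, Ext.mk₀_comp_mk₀,
    Ext.mk₀_eq_zero_iff] at hξ
  rw [Ext.mk₀_eq_zero_iff]
  ext x
  have := congrArg (fun f => f.hom x) hξ
  exact this

theorem ec_resSubExt_zero_injective {k : Type} [CommRing k] {T : Tower}
    (D : T.SubgroupFamily) (B : TowerModule k T) (i : T.ι) :
    Function.Injective (resSubExt D B 0 i) :=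
  ec_extPull_subtype_zero_injective (D.D i) ((triv k T).C i) (B.C i)

/-- restriction to a subgroup family is injective on `H⁰` in the limit -/
theorem ec_locLimFilter_zero_injective {k : Type} [CommRing k] {T : Tower} (P : T.ι → Prop)
    (hne : ∃ i, P i) (hdir : ∀ i j, P i → P j → ∃ l, P l ∧ i ≤ l ∧ j ≤ l)
    (D : T.SubgroupFamily) (B : TowerModule k T) :
    Function.Injective (locLimFilter P hne hdir D B 0) := by
  rw [injective_iff_map_eq_zero]
  intro x hx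
  induction x using ExtLim.induction_on with
  | h j ξ =>
    have h1 := locLimFilter_of P hne hdir D B 0 j ξ
    rw [h1] at hx
    obtain ⟨l, hjl, hl⟩ := ExtLim.of_eq_zero _ _ 0 hx
    have h2 := resSubExt_extTrans D B 0 (i := j.1) (j := l.1) hjl ξ
    have h3 : resSubExt D B 0 l.1 (extTrans (triv k T) B 0 hjl ξ) = 0 := h2.trans hl
    have h4 : extTrans (triv k T) B 0 hjl ξ = 0 :=
      ec_resSubExt_zero_injective D B l.1 (h3.trans (map_zero _).symm)
    rw [← ExtLim.of_trans (triv k (T.filter P hne hdir)) (B.filter P hne hdir) 0 hjl ξ]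
    exact (congrArg _ h4).trans (map_zero _)

/-- a levelwise injective morphism induces an injective map on `Ext⁰` in the limit -/
theorem ec_mapRight_zero_injective {k : Type} [CommRing k] {T : Tower} (A : TowerModule k T)
    [A.IsCartesian] {B B' : TowerModule k T} (f : B.Hom B')
    (hf : ∀ j, Function.Injective (f.f j).hom) :
    Function.Injective (ExtLim.mapRight A f 0) := by
  rw [injective_iff_map_eq_zero]
  intro x hx
  induction x using ExtLim.induction_on with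
  | h j ξ =>
    rw [ExtLim.mapRight_of] at hx
    obtain ⟨l, hjl, hl⟩ := ExtLim.of_eq_zero A B' 0 hx
    have hl' := extTrans_comp_family A (ExtFamily.ofHom f) (add_zero 0) hjl ξ
    rw [show (ExtFamily.ofHom f).c j = Ext.mk₀ (f.f j) from rfl] at hl'
    rw [hl'] at hl
    rw [← ExtLim.of_trans A B 0 hjl ξ]
    obtain ⟨a, ha⟩ := (Ext.mk₀_bijective _ _).2 (extTrans A B 0 hjl ξ)
    rw [← ha] at hl ⊢
    change (Ext.mk₀ a).comp (Ext.mk₀ (f.f l)) (add_zero 0) = 0 at hl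
    rw [Ext.mk₀_comp_mk₀, Ext.mk₀_eq_zero_iff] at hl
    have ha0 : a = 0 := by
      ext x
      apply hf l
      have := congrArg (fun φ => φ.hom x) hl
      exact this.trans (map_zero _).symm
    rw [ha0, Ext.mk₀_zero, map_zero]

/-- a levelwise surjective morphism induces an injective map on `Ext⁰` in the limit
(first variable) -/
theorem ec_mapLeft_zero_injective {k : Type} [CommRing k] {T : Tower} {A A' : TowerModule k T}
    [A.IsCartesian] [A'.IsCartesian] (B : TowerModule k T) (f : A'.Hom A)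
    (hf : ∀ j, Function.Surjective (f.f j).hom) :
    Function.Injective (ExtLim.mapLeft B f 0) := by
  rw [injective_iff_map_eq_zero]
  intro x hx
  induction x using ExtLim.induction_on with
  | h j ξ =>
    rw [ExtLim.mapLeft_of] at hx
    obtain ⟨l, hjl, hl⟩ := ExtLim.of_eq_zero A' B 0 hx
    have hl' := extTrans_family_comp B (ExtFamily.ofHom f) (zero_add 0) hjl ξ
    rw [show (ExtFamily.ofHom f).c j = Ext.mk₀ (f.f j) from rfl] at hl'
    rw [hl'] at hl
    rw [← ExtLim.of_trans A B 0 hjl ξ]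
    obtain ⟨a, ha⟩ := (Ext.mk₀_bijective _ _).2 (extTrans A B 0 hjl ξ)
    rw [← ha] at hl ⊢
    change (Ext.mk₀ (f.f l)).comp (Ext.mk₀ a) (zero_add 0) = 0 at hl
    rw [Ext.mk₀_comp_mk₀, Ext.mk₀_eq_zero_iff] at hl
    have ha0 : a = 0 := by
      ext y
      obtain ⟨x, rfl⟩ := hf l y
      have := congrArg (fun φ => φ.hom x) hl
      exact this
    rw [ha0, Ext.mk₀_zero, map_zero]

/-- restriction of a short exact sequence to a set of levels -/
def ecShortExactFilter {k : Type} [CommRing k] {T : Tower} (P : T.ι → Prop) (hne : ∃ i, P i)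
    (hdir : ∀ i j, P i → P j → ∃ l, P l ∧ i ≤ l ∧ j ≤ l) {B₁ B₂ B₃ : TowerModule k T}
    (Sx : ShortExact B₁ B₂ B₃) :
    ShortExact (B₁.filter P hne hdir) (B₂.filter P hne hdir) (B₃.filter P hne hdir) where
  f := Sx.f.filter P hne hdir
  g := Sx.g.filter P hne hdir
  zero j := Sx.zero j.1
  exact j := Sx.exact j.1

variable {p : ℕ} [Fact p.Prime] {S : Finset Nat.Primes} {L₀ : Level} {h₀ : L₀.IsS S}
  (d : PTData p S L₀ h₀) (A : TowerModule ℤ (levelTower L₀)) [A.IsCartesian]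
  (hfin : ∀ j, Finite (A.C j)) (hA : ∀ j (x : A.C j), p • x = 0)

instance ec_isCartesian_AqS (q : Nat.Primes) : (AqS S h₀ q A).IsCartesian :=
  filter_isCartesian (T := towerLoc q L₀) (isSPred S L₀) (isSPred_nonempty h₀)
    (isSPred_directed S L₀) (A.resSub (decompFamily q L₀))

/-! ### Vanishing of `Ext³` -/

include hfin hA in
/-- `Ext³(A_S, J_q) = 0` -/
theorem ec_extLim_J_three (q : ↥S) (x : ExtLim (AS S h₀ A) (d.J q) 3) : x = 0 := by
  have h := (d.cfLoc q).extLim_three_eq_zero (AqS S h₀ q.1 A) (fun j => hfin j.1)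
    (fun j x => hA j.1 x) (d.jSh q A 3 x)
  exact (d.jSh q A 3).injective (h.trans (map_zero _).symm)

include hfin hA in
/-- `Ext³(A_S, ⊕ J_q) = 0` -/
theorem ec_extLim_Jsum_three (x : ExtLim (AS S h₀ A) d.Jsum 3) : x = 0 := by
  apply (ExtLim.piEquiv d.J (AS S h₀ A) 3).injective
  funext q
  exact (ec_extLim_J_three d A hfin hA q _).trans (ec_extLim_J_three d A hfin hA q _).symm

include hfin hA in
/-- `Ext³(A_S, C) = 0` -/
theorem ec_extLim_C_three (x : ExtLim (AS S h₀ A) d.C 3) : x = 0 :=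
  d.cf.extLim_three_eq_zero (AS S h₀ A) (fun j => hfin j.1) (fun j x => hA j.1 x) x

/-! ### `Ext²(A_S, ⊕ J_q) → Ext²(A_S, C)` is onto -/

include hfin hA in
/-- `Ext²(A_S, J_{q₀}) → Ext²(A_S, C)` is onto -/
theorem ec_mapRight_jC_two_surjective (q₀ : ↥S) :
    Function.Surjective (ExtLim.mapRight (AS S h₀ A) (d.jC q₀) 2) := by
  intro z
  set χ := d.cf.limFormation.alpha (AS S h₀ A) 2 0 rfl z with hχ
  have hinj := ec_locLimFilter_zero_injective (isSPred S L₀) (isSPred_nonempty h₀)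
    (isSPred_directed S L₀) (decompFamily q₀.1 L₀) A
  obtain ⟨ψ, hψ⟩ := charDual_surjective _ hinj χ
  obtain ⟨η, hη⟩ := (d.alpha2_local_bijective A hfin hA q₀).2 ψ
  refine ⟨(d.jSh q₀ A 2).symm η, ?_⟩
  apply (d.alpha2_global_bijective A hfin hA).1
  apply AddMonoidHom.ext
  intro x
  rw [d.alpha_jSh q₀ A hA 2 0 rfl, AddEquiv.apply_symm_apply, hη, ← hχ, ← hψ]
  rfl

include hfin hA in
/-- `Ext²(A_S, ⊕ J_q) → Ext²(A_S, C)` is onto (`S` nonempty) -/
theorem ec_mapRight_jCsum_two_surjective (q₀ : ↥S) :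
    Function.Surjective (ExtLim.mapRight (AS S h₀ A) d.jCsum 2) := by
  intro z
  obtain ⟨y, hy⟩ := ec_mapRight_jC_two_surjective d A hfin hA q₀ z
  refine ⟨ExtLim.mapRight (AS S h₀ A) (piIncl d.J q₀) 2 y, ?_⟩
  rw [← ExtLim.mapRight_comp,
    show (piIncl d.J q₀).comp d.jCsum = d.jC q₀ from piIncl_comp_sum d.J d.jC q₀, hy]

/-! ### Exactness of `Ext^r(A_S, E) → Ext^r(A_S, ⊕ J_q) → Ext^r(A_S, C)` -/

lemma ec_AS_torsion (hA : ∀ j (x : A.C j), p • x = 0) (j : (towerS S L₀ h₀).ι)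
    (a : (AS S h₀ A).C j) : p • a = 0 := hA j.1 a

include hA in
/-- exactness at `Ext^r(A_S, ⊕ J_q)` -/
theorem ec_mapRight_jCsum_eq_zero_iff (r : ℕ) (y : ExtLim (AS S h₀ A) d.Jsum r) :
    ExtLim.mapRight (AS S h₀ A) d.jCsum r y = 0 ↔
      ∃ z, ExtLim.mapRight (AS S h₀ A) d.eJsum r z = y := by
  have hA' := ec_AS_torsion (S := S) (h₀ := h₀) A hA
  constructor
  · intro hy
    rw [← d.sesEJ_g_comp_jmodEC, ExtLim.mapRight_comp] at hy
    have h1 : ExtLim.mapRight (AS S h₀ A) d.sesEJ.g r y = 0 := by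
      apply (d.mapRight_jmodEC_bijective (AS S h₀ A) hA' r).1
      rw [hy, map_zero]
    exact d.sesEJ.covariant_exact₂ (AS S h₀ A) r y h1
  · rintro ⟨z, rfl⟩
    rw [← d.sesEJ_g_comp_jmodEC, ExtLim.mapRight_comp]
    have h1 := d.sesEJ.mapRight_g_mapRight_f (AS S h₀ A) r z
    change ExtLim.mapRight (AS S h₀ A) d.sesEJ.g r (ExtLim.mapRight (AS S h₀ A) d.eJsum r z) = 0
      at h1
    rw [h1, map_zero]

/-- `z` dies in `Ext^r(A_S, ⊕ J_q)` iff it dies in all `Ext^r(A_S, J_q)` -/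
theorem ec_mapRight_eJsum_eq_zero_iff (r : ℕ) (z : ExtLim (AS S h₀ A) d.E r) :
    ExtLim.mapRight (AS S h₀ A) d.eJsum r z = 0 ↔
      ∀ q, ExtLim.mapRight (AS S h₀ A) (d.eJ q) r z = 0 := by
  constructor
  · intro hz q
    rw [d.mapRight_eJ_eq (AS S h₀ A) q r z, hz, map_zero]
  · intro hz
    apply (ExtLim.piEquiv d.J (AS S h₀ A) r).injective
    funext q
    rw [ExtLim.piEquiv_apply, ← d.mapRight_eJ_eq (AS S h₀ A) q r z, hz q, map_zero]
    rfl

include hfin hA in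
/-- `Ext³(A_S, E) = 0` (`S` nonempty) -/
theorem ec_extLim_E_three (q₀ : ↥S) (x : ExtLim (AS S h₀ A) d.E 3) : x = 0 := by
  have hA' := ec_AS_torsion (S := S) (h₀ := h₀) A hA
  have h1 : ExtLim.mapRight (AS S h₀ A) d.sesEJ.f 3 x = 0 :=
    ec_extLim_Jsum_three d A hfin hA _
  obtain ⟨x₃, rfl⟩ := d.sesEJ.covariant_exact₁ (AS S h₀ A) (rfl : 2 + 1 = 3) x h1
  obtain ⟨y, hy⟩ := ec_mapRight_jCsum_two_surjective d A hfin hA q₀
    (d.jmodECEquiv (AS S h₀ A) hA' 2 x₃)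
  rw [← d.sesEJ_g_comp_jmodEC, ExtLim.mapRight_comp, ← jmodECEquiv_apply d (AS S h₀ A) hA' 2] at hy
  rw [← (d.jmodECEquiv (AS S h₀ A) hA' 2).injective hy]
  exact d.sesEJ.compRight_δ_mapRight_g (AS S h₀ A) rfl y

/-! ### Cardinalities in degree `2` -/

include hfin in
lemma ec_finite_hlim_zero_AS : Finite (HLim (AS S h₀ A) 0) :=
  haveI : Finite ((AS S h₀ A).C (botS S L₀ h₀)) := hfin _
  finite_hlim_zero (AS S h₀ A) (b := botS S L₀ h₀) botS_le

include hfin in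
lemma ec_finite_hlim_zero_AqS (q : Nat.Primes) : Finite (HLim (AqS S h₀ q A) 0) :=
  haveI : Finite ((AqS S h₀ q A).C (botLocS S q L₀ h₀)) := hfin _
  finite_hlim_zero (AqS S h₀ q A) (b := botLocS S q L₀ h₀) (botLocS_le q)

include hfin hA in
/-- `|Ext²(A_S, C)| = |H⁰_S(A)|` -/
theorem ec_card_extLim_C_two :
    Finite (ExtLim (AS S h₀ A) d.C 2) ∧
      Nat.card (ExtLim (AS S h₀ A) d.C 2) = Nat.card (HLim (AS S h₀ A) 0) := by
  haveI := ec_finite_hlim_zero_AS (S := S) (h₀ := h₀) A hfin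
  have htors : ∀ x : HLim (AS S h₀ A) 0, p • x = 0 := fun x =>
    ExtLim.nsmul_eq_zero_of_torsion_right (triv ℤ (towerS S L₀ h₀)) (AS S h₀ A) 0 p
      (ec_AS_torsion (S := S) (h₀ := h₀) A hA) x
  let e := Equiv.ofBijective _ (d.alpha2_global_bijective A hfin hA)
  haveI := finite_char p htors
  refine ⟨Finite.of_equiv _ e.symm, ?_⟩
  rw [Nat.card_congr e, card_addMonoidHom_addCircle p htors]

include hfin hA in
/-- `|Ext²(A_S, J_q)| = |H⁰(D_q, A)|` -/
theorem ec_card_extLim_J_two (q : ↥S) :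
    Finite (ExtLim (AS S h₀ A) (d.J q) 2) ∧
      Nat.card (ExtLim (AS S h₀ A) (d.J q) 2) = Nat.card (HLim (AqS S h₀ q.1 A) 0) := by
  haveI := ec_finite_hlim_zero_AqS (S := S) (h₀ := h₀) A hfin q.1
  have htors : ∀ x : HLim (AqS S h₀ q.1 A) 0, p • x = 0 := fun x =>
    ExtLim.nsmul_eq_zero_of_torsion_right (triv ℤ (towerLocS S q.1 L₀ h₀)) (AqS S h₀ q.1 A) 0 p
      (fun j a => hA j.1 a) x
  let e := (d.jSh q A 2).toEquiv.trans (Equiv.ofBijective _ (d.alpha2_local_bijective A hfin hA q))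
  haveI := finite_char p htors
  refine ⟨Finite.of_equiv _ e.symm, ?_⟩
  rw [Nat.card_congr e, card_addMonoidHom_addCircle p htors]

include hfin hA in
/-- `|Ext²(A_S, ⊕ J_q)| = ∏_q |H⁰(D_q, A)|` -/
theorem ec_card_extLim_Jsum_two :
    Finite (ExtLim (AS S h₀ A) d.Jsum 2) ∧
      Nat.card (ExtLim (AS S h₀ A) d.Jsum 2) = ∏ q : ↥S, Nat.card (HLim (AqS S h₀ q.1 A) 0) := by
  haveI : ∀ q : ↥S, Finite (ExtLim (AS S h₀ A) (d.J q) 2) := fun q =>
    (ec_card_extLim_J_two d A hfin hA q).1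
  let e := (ExtLim.piEquiv d.J (AS S h₀ A) 2).toEquiv
  refine ⟨Finite.of_equiv _ e.symm, ?_⟩
  rw [Nat.card_congr e, Nat.card_pi]
  exact Finset.prod_congr rfl (fun q _ => (ec_card_extLim_J_two d A hfin hA q).2)

include hfin hA in
/-- **`|Ext²(A_S, E)| · |H⁰_S(A)| = |Ш¹_S(A)| · ∏_q |H⁰(D_q, A)|`** -/
theorem ec_card_extLim_E_two (q₀ : ↥S) :
    Finite (ExtLim (AS S h₀ A) d.E 2) ∧
    Nat.card (ExtLim (AS S h₀ A) d.E 2) * Nat.card (HLim (AS S h₀ A) 0) =
      Nat.card (ShaLim (isSPred S L₀) (isSPred_nonempty h₀) (isSPred_directed S L₀)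
        (fun q : ↥S => decompFamily q.1 L₀) A 1) *
        ∏ q : ↥S, Nat.card (HLim (AqS S h₀ q.1 A) 0) := by
  obtain ⟨hK, hS1, hcard⟩ := d.card_kerEJ_eq_card_shaLim_one A hA
    (d.alpha1_global_bijective A hfin hA) (d.finite_hlim_one_global A hfin hA)
    (fun q => d.alpha1_local_surjective A hfin hA q)
  set f := ExtLim.mapRight (AS S h₀ A) d.eJsum 2 with hf
  set g := ExtLim.mapRight (AS S h₀ A) d.jCsum 2 with hg
  have hker : f.ker = ⨅ q : ↥S, (ExtLim.mapRight (AS S h₀ A) (d.eJ q) 2).ker := by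
    ext z
    simp only [AddMonoidHom.mem_ker, AddSubgroup.mem_iInf]
    exact ec_mapRight_eJsum_eq_zero_iff d A 2 z
  obtain ⟨hJfin, hJ⟩ := ec_card_extLim_Jsum_two d A hfin hA
  obtain ⟨hCfin, hC⟩ := ec_card_extLim_C_two d A hfin hA
  have h1 := ec_card_of_exact f g (fun y => ec_mapRight_jCsum_eq_zero_iff d A hA 2 y)
  rw [ec_card_range_of_surjective g (ec_mapRight_jCsum_two_surjective d A hfin hA q₀)] at h1
  have h2 := ec_card_eq_ker_mul_range f
  have hKf : Finite f.ker := by rw [hker]; exact hK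
  refine ⟨?_, ?_⟩
  · exact (f.finite_iff_finite_ker_range).2 ⟨hKf, inferInstance⟩
  · rw [h2, hker, hcard, ← hJ, h1, hC]
    ring

/-! ### The nine term sequence of `0 → E → ⊕ J_q → C` -/

include hA in
/-- exactness at `Ext^r(A_S, C)` -/
theorem ec_δCE_eq_zero_iff (r : ℕ) (x : ExtLim (AS S h₀ A) d.C r) :
    d.δCE (AS S h₀ A) (ec_AS_torsion (S := S) (h₀ := h₀) A hA) r x = 0 ↔
      ∃ y, ExtLim.mapRight (AS S h₀ A) d.jCsum r y = x := by
  rw [d.δCE_eq_zero_iff (AS S h₀ A) (ec_AS_torsion (S := S) (h₀ := h₀) A hA) r x]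
  constructor
  · rintro ⟨y, rfl⟩
    refine ⟨(ExtLim.piEquiv d.J (AS S h₀ A) r).symm y, ?_⟩
    rw [d.mapRight_jCsum_eq (AS S h₀ A) r]
    refine Finset.sum_congr rfl (fun q _ => ?_)
    rw [← ExtLim.piEquiv_apply, AddEquiv.apply_symm_apply]
  · rintro ⟨y, rfl⟩
    exact ⟨fun q => ExtLim.mapRight (AS S h₀ A) (piProj d.J q) r y,
      d.mapRight_jCsum_eq (AS S h₀ A) r y⟩

include hA in
/-- exactness at `Ext^{r+1}(A_S, E)` -/
theorem ec_mapRight_eJsum_succ_eq_zero_iff (r : ℕ) (z : ExtLim (AS S h₀ A) d.E (r + 1)) :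
    ExtLim.mapRight (AS S h₀ A) d.eJsum (r + 1) z = 0 ↔
      ∃ x, d.δCE (AS S h₀ A) (ec_AS_torsion (S := S) (h₀ := h₀) A hA) r x = z := by
  rw [ec_mapRight_eJsum_eq_zero_iff d A (r + 1) z]
  exact (d.exists_δCE_eq_iff (AS S h₀ A) (ec_AS_torsion (S := S) (h₀ := h₀) A hA) r z).symm

include hfin hA in
/-- **the nine term exact sequence** of `0 → E → ⊕ J_q → C (→ Cl → 0)`, in cardinalities -/
theorem ec_nine_EJC (q₀ : ↥S) :
    Nat.card (ExtLim (AS S h₀ A) d.E 0) * Nat.card (ExtLim (AS S h₀ A) d.C 0) *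
        Nat.card (ExtLim (AS S h₀ A) d.Jsum 1) * Nat.card (ExtLim (AS S h₀ A) d.E 2) *
        Nat.card (ExtLim (AS S h₀ A) d.C 2) =
      Nat.card (ExtLim (AS S h₀ A) d.Jsum 0) * Nat.card (ExtLim (AS S h₀ A) d.E 1) *
        Nat.card (ExtLim (AS S h₀ A) d.C 1) * Nat.card (ExtLim (AS S h₀ A) d.Jsum 2) := by
  have hA' := ec_AS_torsion (S := S) (h₀ := h₀) A hA
  exact ec_card_nine
    (ExtLim.mapRight (AS S h₀ A) d.eJsum 0) (ExtLim.mapRight (AS S h₀ A) d.jCsum 0)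
    (d.δCE (AS S h₀ A) hA' 0)
    (ExtLim.mapRight (AS S h₀ A) d.eJsum 1) (ExtLim.mapRight (AS S h₀ A) d.jCsum 1)
    (d.δCE (AS S h₀ A) hA' 1)
    (ExtLim.mapRight (AS S h₀ A) d.eJsum 2) (ExtLim.mapRight (AS S h₀ A) d.jCsum 2)
    (ec_mapRight_zero_injective (AS S h₀ A) d.eJsum d.eJsum_injective)
    (fun y => ec_mapRight_jCsum_eq_zero_iff d A hA 0 y)
    (fun y => ec_δCE_eq_zero_iff d A hA 0 y)
    (fun y => ec_mapRight_eJsum_succ_eq_zero_iff d A hA 0 y)
    (fun y => ec_mapRight_jCsum_eq_zero_iff d A hA 1 y)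
    (fun y => ec_δCE_eq_zero_iff d A hA 1 y)
    (fun y => ec_mapRight_eJsum_succ_eq_zero_iff d A hA 1 y)
    (fun y => ec_mapRight_jCsum_eq_zero_iff d A hA 2 y)
    (ec_mapRight_jCsum_two_surjective d A hfin hA q₀)

/-! ### The nine term sequence in the first variable -/

variable {A₁ A₂ A₃ : TowerModule ℤ (levelTower L₀)} [A₁.IsCartesian] [A₂.IsCartesian]
  [A₃.IsCartesian]

/-- restriction of a short exact sequence to the `S`-levels -/
def ecShortExactAS (S : Finset Nat.Primes) (h₀ : L₀.IsS S) (Sx : ShortExact A₁ A₂ A₃) :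
    ShortExact (AS S h₀ A₁) (AS S h₀ A₂) (AS S h₀ A₃) :=
  ecShortExactFilter (isSPred S L₀) (isSPred_nonempty h₀) (isSPred_directed S L₀) Sx

/-- **the nine term exact sequence** of `Ext^r(-, E)` for a short exact sequence
`0 → A₁ → A₂ → A₃ → 0` of finite `p`-torsion cartesian modules, in cardinalities -/
theorem ec_nine_left (Sx : ShortExact A₁ A₂ A₃) (q₀ : ↥S) (hfin₃ : ∀ j, Finite (A₃.C j))
    (hA₃ : ∀ j (x : A₃.C j), p • x = 0) :
    Nat.card (ExtLim (AS S h₀ A₃) d.E 0) * Nat.card (ExtLim (AS S h₀ A₁) d.E 0) *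
        Nat.card (ExtLim (AS S h₀ A₂) d.E 1) * Nat.card (ExtLim (AS S h₀ A₃) d.E 2) *
        Nat.card (ExtLim (AS S h₀ A₁) d.E 2) =
      Nat.card (ExtLim (AS S h₀ A₂) d.E 0) * Nat.card (ExtLim (AS S h₀ A₃) d.E 1) *
        Nat.card (ExtLim (AS S h₀ A₁) d.E 1) * Nat.card (ExtLim (AS S h₀ A₂) d.E 2) := by
  have hg : ∀ j, Function.Surjective ((ecShortExactAS S h₀ Sx).g.f j).hom := fun j =>
    (shortExact_functions ((ecShortExactAS S h₀ Sx).exact j)).2.1
  have e1 : ∀ (n : ℕ) (y : ExtLim (AS S h₀ A₂) d.E n),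
      ExtLim.mapLeft d.E (ecShortExactAS S h₀ Sx).f n y = 0 ↔
        ∃ x, ExtLim.mapLeft d.E (ecShortExactAS S h₀ Sx).g n x = y := fun n y =>
    ⟨(ecShortExactAS S h₀ Sx).contravariant_exact₂ d.E n y, by
      rintro ⟨x, rfl⟩; exact (ecShortExactAS S h₀ Sx).mapLeft_f_mapLeft_g d.E n x⟩
  have e2 : ∀ (n m : ℕ) (h : 1 + n = m) (y : ExtLim (AS S h₀ A₁) d.E n),
      ExtLim.compLeft d.E (ecShortExactAS S h₀ Sx).δ n m h y = 0 ↔
        ∃ x, ExtLim.mapLeft d.E (ecShortExactAS S h₀ Sx).f n x = y := fun n m h y =>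
    ⟨(ecShortExactAS S h₀ Sx).contravariant_exact₁ d.E h y, by
      rintro ⟨x, rfl⟩; exact (ecShortExactAS S h₀ Sx).compLeft_δ_mapLeft_f d.E h x⟩
  have e3 : ∀ (n m : ℕ) (h : 1 + n = m) (y : ExtLim (AS S h₀ A₃) d.E m),
      ExtLim.mapLeft d.E (ecShortExactAS S h₀ Sx).g m y = 0 ↔
        ∃ x, ExtLim.compLeft d.E (ecShortExactAS S h₀ Sx).δ n m h x = y := fun n m h y =>
    ⟨(ecShortExactAS S h₀ Sx).contravariant_exact₃ d.E h y, by
      rintro ⟨x, rfl⟩; exact (ecShortExactAS S h₀ Sx).mapLeft_g_compLeft_δ d.E h x⟩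
  have e4 : Function.Surjective (ExtLim.mapLeft d.E (ecShortExactAS S h₀ Sx).f 2) := fun y =>
    (ecShortExactAS S h₀ Sx).contravariant_exact₁ d.E (rfl : 1 + 2 = 3) y
      (ec_extLim_E_three d A₃ hfin₃ hA₃ q₀ _)
  have e0 := ec_mapLeft_zero_injective d.E (ecShortExactAS S h₀ Sx).g hg
  exact ec_card_nine
    (ExtLim.mapLeft d.E (ecShortExactAS S h₀ Sx).g 0)
    (ExtLim.mapLeft d.E (ecShortExactAS S h₀ Sx).f 0)
    (ExtLim.compLeft d.E (ecShortExactAS S h₀ Sx).δ 0 1 rfl)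
    (ExtLim.mapLeft d.E (ecShortExactAS S h₀ Sx).g 1)
    (ExtLim.mapLeft d.E (ecShortExactAS S h₀ Sx).f 1)
    (ExtLim.compLeft d.E (ecShortExactAS S h₀ Sx).δ 1 2 rfl)
    (ExtLim.mapLeft d.E (ecShortExactAS S h₀ Sx).g 2)
    (ExtLim.mapLeft d.E (ecShortExactAS S h₀ Sx).f 2)
    e0 (e1 0) (e2 0 1 rfl) (e3 0 1 rfl) (e1 1) (e2 1 2 rfl) (e3 1 2 rfl) (e1 2) e4

end

end Fermat.Agent.TW
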