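import Mathlib

/-!
# P10 / G4 (global Euler characteristic): invariants of subgroups, numbers of places
-/

set_option autoImplicit false

namespace Fermat.Agent.TW

noncomputable section

/-- the number of places of `L₀^W` above the place with decomposition group `D ≤ G = Gal(L₀/ℚ)`:
the number of `W`-orbits on `G / D` -/
def ecNumPlaces {G : Type} [Group G] (W D : Subgroup G) : ℕ :=
  Nat.card (MulAction.orbitRel.Quotient W (G ⧸ D))

/-- the `W`-invariants of a representation, `W ≤ G` -/
abbrev ecInv {R : Type} [CommRing R] {G : Type} [Group G] (Y : Rep.{0} R G) (W : Subgroup G) :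
    Submodule R Y.V :=
  Representation.invariants (Y.ρ.comp W.subtype)

end

end Fermat.Agent.TW
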