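import Fermat.Agent.Lib.CFT.Duality.D2Inputs
import Fermat.Agent.Lib.TW.Euler.Inv

/-!
# P10 / G4 (global Euler characteristic): the arithmetic inputs beyond `PTData`

`EulerInput d` : what the proof of Tate's global Euler characteristic formula needs from the class
field theory data `d : PTData p S L₀ h₀` in addition to the fields of `PTData`:

* `fg`   : the `S`-units of `L₀` are finitely generated;
* `rank` : Dirichlet's `S`-unit theorem for all subfields `L₀^W` of `L₀`
           (`rank E(L₀)^W + 1 = #{places of L₀^W above ∞ and above S}`, the places above `v` being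
           counted as the `W`-orbits on `G / D_v`);
* `h90`  : Hilbert 90 for the semi-local multiplicative groups `J_q(L)`.
-/

set_option autoImplicit false

open CategoryTheory

namespace Fermat.Agent.TW

open Fermat.Agent.CFT Fermat.Agent.CFT.Duality Fermat.Agent.CFT.Duality.TowerModule

noncomputable section

variable {p : ℕ} [Fact p.Prime] {S : Finset Nat.Primes} {L₀ : Level} {h₀ : L₀.IsS S}

/-- the image of complex conjugation in `Gal(L₀ / ℚ)` -/
def ecCbar (L₀ : Level) : L₀.G := L₀.proj complexConjugation

/-- **The arithmetic inputs of the global Euler characteristic formula** beyond `PTData`. -/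
structure EulerInput (d : PTData p S L₀ h₀) : Prop where
  /-- the `S`-units of `L₀` are finitely generated -/
  fg : Module.Finite ℤ (d.E.C (botS S L₀ h₀)).V
  /-- Dirichlet's `S`-unit theorem for the subfields of `L₀` -/
  rank : ∀ W : Subgroup L₀.G,
    Module.finrank ℤ (ecInv (d.E.C (botS S L₀ h₀)) W) + 1 =
      ecNumPlaces W (Subgroup.zpowers (ecCbar L₀)) + ∑ q : ↥S, ecNumPlaces W (decomp q.1 L₀)
  /-- Hilbert 90 for the semi-local multiplicative groups -/
  h90 : ∀ (q : ↥S) (L : (towerS S L₀ h₀).ι) (W : Subgroup ((towerS S L₀ h₀).G L))
    (x : groupCohomology ((d.J q).atSub L W) 1), p • x = 0 → x = 0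

end

end Fermat.Agent.TW
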