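/-
G4 (Euler characteristic): the tower module `A_M` attached to a representation `M` of
`Gal(L₀/ℚ)` over `F_p`, the numbers `e_r(M) = |Ext^r(A_M|_S, E)|` and the defect
`χ(M) = log e₁ - log e₀ - log e₂ - log |M^{c = 1}|` of Tate's global Euler characteristic formula.
(Definitions shared by Parts C and D.)
-/
import Fermat.Agent.Lib.TW.Euler.ExtE
import Fermat.Agent.Lib.TW.Euler.Input
import Fermat.Agent.Lib.TW.Euler.CardInv
import Fermat.Agent.Lib.CFT.Duality.IntCoeff
import Fermat.Agent.Lib.CFT.Duality.DualTwistTower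

set_option autoImplicit false
set_option linter.unusedSectionVars false

open CategoryTheory

namespace Fermat.Agent.TW

open Fermat.Agent.CFT Fermat.Agent.CFT.Duality Fermat.Agent.CFT.Duality.TowerModule
open Fermat.Agent.CFT.Duality.PTData

noncomputable section

variable {p : ℕ} [Fact p.Prime] {S : Finset Nat.Primes} {L₀ : Level} {h₀ : L₀.IsS S}

/-- the cartesian tower module over the levels above `L₀` attached to a representation of
`Gal(L₀/ℚ)` over `F_p` -/
def ecAM (L₀ : Level) (M : Rep.{0} (ZMod p) L₀.G) : TowerModule ℤ (levelTower L₀) :=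
  inflFrom (T := levelTower L₀) (baseLevel L₀) (baseLevel_le L₀) (intRep M)

instance ecAM_isCartesian (M : Rep.{0} (ZMod p) L₀.G) : (ecAM L₀ M).IsCartesian := by
  unfold ecAM
  infer_instance

/-- `e_r(M) = |Ext^r(A_M|_S, E)|` -/
def ecE (d : PTData p S L₀ h₀) (M : Rep.{0} (ZMod p) L₀.G) (r : ℕ) : ℕ :=
  Nat.card (ExtLim (AS S h₀ (ecAM L₀ M)) d.E r)

/-- the defect of the Euler characteristic formula:
`χ(M) = log e₁ - log e₀ - log e₂ - log |M^{c = 1}|` -/
def ecChi (d : PTData p S L₀ h₀) (M : Rep.{0} (ZMod p) L₀.G) : ℝ :=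
  Real.log (ecE d M 1) - Real.log (ecE d M 0) - Real.log (ecE d M 2) -
    Real.log (Nat.card {x : M.V // M.ρ (ecCbar L₀) x = x})

end

end Fermat.Agent.TW
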