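/-
G4 (Euler characteristic), base case, steps (C1) and (C2): for a subgroup `U` of `Gal(L₀/ℚ)` and a
representation `N` of `U` over `F_p`, `A_{coind N}|_S ≅ coindUp N` (Shapiro), hence
`Ext^r(A_{coind N}|_S, B) ≃ Ext^r_{T|U}(N, B|U)`; for `U` commutative of order prime to `p` and `B` with
descent and Hilbert 90: `|Ext^r(A_{coind N}|_S, B)| = |Hom_U(N, B_bot[p])|` resp. `|Hom_U(N, B_bot / p)|`.
-/
import Fermat.Agent.Lib.TW.Euler.Chi
import Fermat.Agent.Lib.TW.Euler.EKSCount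

set_option autoImplicit false
set_option linter.unusedSectionVars false
set_option linter.unusedVariables false
set_option linter.style.haveILetI false

open CategoryTheory CategoryTheory.Abelian

namespace Fermat.Agent.TW

open Fermat.Agent.CFT Fermat.Agent.CFT.Duality Fermat.Agent.CFT.Duality.TowerModule
open Fermat.Agent.CFT.Duality.PTData

noncomputable section

variable {p : ℕ} [Fact p.Prime] {S : Finset Nat.Primes} {L₀ : Level} {h₀ : L₀.IsS S}

section Shapiro

variable (S h₀) (U : Subgroup ((towerS S L₀ h₀).G (botS S L₀ h₀)))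

/-- the subgroup `U`, as the bottom group of the sub-tower `T|U` -/
abbrev ecV : Subgroup ((towerS S L₀ h₀).G (botS S L₀ h₀)) :=
  (towerS S L₀ h₀).pre (le_refl (botS S L₀ h₀)) U

lemma ecV_eq : ecV S h₀ U = U := by
  ext g
  change (towerS S L₀ h₀).π (le_refl (botS S L₀ h₀)) g ∈ U ↔ g ∈ U
  rw [(towerS S L₀ h₀).π_refl]

/-- the bottom level of the sub-tower -/
abbrev ecSubBot : ((towerS S L₀ h₀).sub (botS S L₀ h₀) U).ι :=
  ⟨botS S L₀ h₀, le_refl (botS S L₀ h₀)⟩

lemma ecSubBot_le (i : ((towerS S L₀ h₀).sub (botS S L₀ h₀) U).ι) : ecSubBot S h₀ U ≤ i := i.2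

variable (N : Rep.{0} (ZMod p) (ecV S h₀ U))

/-- the module `N` over the sub-tower -/
abbrev ecXN : TowerModule ℤ ((towerS S L₀ h₀).sub (botS S L₀ h₀) U) :=
  inflFrom (T := (towerS S L₀ h₀).sub (botS S L₀ h₀) U) (ecSubBot S h₀ U) (ecSubBot_le S h₀ U)
    (intRep N)

/-- the coinduced module -/
abbrev ecMN : Rep.{0} (ZMod p) L₀.G := Rep.coind (ecV S h₀ U).subtype N

/-- `f ↦ f ∘ π`, as an additive map `coind_V^G N → coind_{U_i}^{G_i} N` -/
def ecShapFun (i : (towerS S L₀ h₀).ι) :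
    (ecMN S h₀ U N).V →+
      (((ecXN S h₀ U N).coindUp (botS S L₀ h₀) (fun L => botS_le L) U).C i).V where
  toFun f := ⟨fun g => f.1 ((towerS S L₀ h₀).π (botS_le i) g), fun u g => by
    have hv : (towerS S L₀ h₀).π (botS_le i) u.1 ∈ ecV S h₀ U := by
      change (towerS S L₀ h₀).π (le_refl (botS S L₀ h₀))
        ((towerS S L₀ h₀).π (botS_le i) u.1) ∈ U
      rw [(towerS S L₀ h₀).π_refl]
      exact u.2
    have h1 := f.2 ⟨(towerS S L₀ h₀).π (botS_le i) u.1, hv⟩ ((towerS S L₀ h₀).π (botS_le i) g)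
    change f.1 ((towerS S L₀ h₀).π (botS_le i) (u.1 * g)) = _
    rw [map_mul]
    exact h1⟩
  map_zero' := rfl
  map_add' _ _ := rfl

/-- `A_{coind N}|_S ≅ coindUp (N)` as tower modules -/
def ecShapHom : (AS S h₀ (ecAM L₀ (ecMN S h₀ U N))).Hom
    ((ecXN S h₀ U N).coindUp (botS S L₀ h₀) (fun L => botS_le L) U) where
  f i := ecMkHom ((AS S h₀ (ecAM L₀ (ecMN S h₀ U N))).C i)
    (((ecXN S h₀ U N).coindUp (botS S L₀ h₀) (fun L => botS_le L) U).C i)
    (ecIntLin (iV := ((AS S h₀ (ecAM L₀ (ecMN S h₀ U N))).C i).hV2)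
      (iW := (((ecXN S h₀ U N).coindUp (botS S L₀ h₀) (fun L => botS_le L) U).C i).hV2)
      (ecShapFun S h₀ U N i))
    (fun g' f => by
      apply Subtype.ext
      funext g
      change (f : (ecMN S h₀ U N).V).1 ((towerS S L₀ h₀).π (botS_le i) g *
        (towerS S L₀ h₀).π (botS_le i) g') =
        (f : (ecMN S h₀ U N).V).1 ((towerS S L₀ h₀).π (botS_le i) (g * g'))
      rw [map_mul])
  comm {i j} h := by
    refine ec_hom_ext_apply _ _ (fun f => ?_)
    apply Subtype.ext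
    funext g
    change (f : (ecMN S h₀ U N).V).1 ((towerS S L₀ h₀).π (botS_le j) g) =
      (f : (ecMN S h₀ U N).V).1 ((towerS S L₀ h₀).π (botS_le i) ((towerS S L₀ h₀).π h g))
    rw [(towerS S L₀ h₀).π_comp]

lemma ecShapHom_apply (i : (towerS S L₀ h₀).ι) (f : (ecMN S h₀ U N).V)
    (g : (towerS S L₀ h₀).G i) :
    (((ecShapHom S h₀ U N).f i).hom f).1 g = f.1 ((towerS S L₀ h₀).π (botS_le i) g) := rfl

lemma ecShapHom_bijective (i : (towerS S L₀ h₀).ι) :
    Function.Bijective ((ecShapHom S h₀ U N).f i).hom := by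
  constructor
  · intro (f : (ecMN S h₀ U N).V) (f' : (ecMN S h₀ U N).V) hff'
    apply Subtype.ext
    funext x
    obtain ⟨g, rfl⟩ := (towerS S L₀ h₀).π_surjective (botS_le i) x
    have := congrArg (fun F => F.1 g) hff'
    exact this
  · intro F
    -- the key property of `F`
    have hF : ∀ (w g : (towerS S L₀ h₀).G i)
        (hw : (towerS S L₀ h₀).π (botS_le i) w ∈ ecV S h₀ U),
        F.1 (w * g) = N.ρ ⟨(towerS S L₀ h₀).π (botS_le i) w, hw⟩ (F.1 g) := by
      intro w g hw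
      have hw' : w ∈ (towerS S L₀ h₀).pre (botS_le i) U := by
        change (towerS S L₀ h₀).π (botS_le i) w ∈ U
        rw [← ecV_eq S h₀ U]
        exact hw
      exact F.2 ⟨w, hw'⟩ g
    have hsec : ∀ x : (towerS S L₀ h₀).G (botS S L₀ h₀),
        (towerS S L₀ h₀).π (botS_le i)
          (Classical.choose ((towerS S L₀ h₀).π_surjective (botS_le i) x)) = x :=
      fun x => Classical.choose_spec ((towerS S L₀ h₀).π_surjective (botS_le i) x)
    set s : (towerS S L₀ h₀).G (botS S L₀ h₀) → (towerS S L₀ h₀).G i :=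
      fun x => Classical.choose ((towerS S L₀ h₀).π_surjective (botS_le i) x) with hs
    refine ⟨⟨fun x => F.1 (s x), fun v (x : (towerS S L₀ h₀).G (botS S L₀ h₀)) => ?_⟩, ?_⟩
    · change F.1 (s (v.1 * x)) = N.ρ v (F.1 (s x))
      have hw : (towerS S L₀ h₀).π (botS_le i) (s (v.1 * x) * (s x)⁻¹) = v.1 := by
        rw [map_mul, map_inv, hsec, hsec, mul_inv_cancel_right]
      have hw' : (towerS S L₀ h₀).π (botS_le i) (s (v.1 * x) * (s x)⁻¹) ∈ ecV S h₀ U := by
        rw [hw]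
        exact v.2
      have h1 := hF (s (v.1 * x) * (s x)⁻¹) (s x) hw'
      rw [inv_mul_cancel_right] at h1
      rw [h1]
      congr 2
      exact Subtype.ext hw
    · apply Subtype.ext
      funext g
      change F.1 (s ((towerS S L₀ h₀).π (botS_le i) g)) = F.1 g
      have hw : (towerS S L₀ h₀).π (botS_le i)
          (s ((towerS S L₀ h₀).π (botS_le i) g) * g⁻¹) = 1 := by
        rw [map_mul, map_inv, hsec, mul_inv_cancel]
      have hw' : (towerS S L₀ h₀).π (botS_le i)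
          (s ((towerS S L₀ h₀).π (botS_le i) g) * g⁻¹) ∈ ecV S h₀ U := by
        rw [hw]
        exact Subgroup.one_mem _
      have h1 := hF (s ((towerS S L₀ h₀).π (botS_le i) g) * g⁻¹) g hw'
      rw [inv_mul_cancel_right] at h1
      rw [h1]
      have h2 : (⟨(towerS S L₀ h₀).π (botS_le i)
          (s ((towerS S L₀ h₀).π (botS_le i) g) * g⁻¹), hw'⟩ : ecV S h₀ U) = 1 :=
        Subtype.ext hw
      rw [h2, map_one]
      rfl

instance ecShapHom_isIso (i : (towerS S L₀ h₀).ι) : IsIso ((ecShapHom S h₀ U N).f i) :=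
  rep_isIso_of_bij _ (ecShapHom_bijective S h₀ U N i)

/-- **(C1)**: `Ext^r(A_{coind N}|_S, B) ≃ Ext^r_{T|U}(N, B|U)` -/
def ecShapEquiv (B : TowerModule ℤ (towerS S L₀ h₀)) (r : ℕ) :
    ExtLim (AS S h₀ (ecAM L₀ (ecMN S h₀ U N))) B r ≃+
      ExtLim (ecXN S h₀ U N) (B.sub (botS S L₀ h₀) U) r :=
  (ExtLim.congrLeft (Hom.toIso (ecShapHom S h₀ U N)) B r).symm.trans
    (shapiroLLim (botS S L₀ h₀) (fun L => botS_le L) U (ecXN S h₀ U N) B r)

end Shapiro

/-- equivariant additive maps between representations over `ZMod p` are morphisms -/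
def ecHomEquiv {U' : Type} [Group U'] (N' Z : Rep.{0} (ZMod p) U') :
    {φ : (intRep N').V →+ Z.V // ∀ u n, φ ((intRep N').ρ u n) = Z.ρ u (φ n)} ≃ (N' ⟶ Z) where
  toFun φ := ecMkHom N' Z (AddMonoidHom.toZModLinearMap p (M := N'.V) (M₁ := Z.V) φ.1) φ.2
  invFun h := ⟨h.hom.toLinearMap.toAddMonoidHom, fun u n => Rep.hom_comm_apply h u n⟩
  left_inv φ := by
    apply Subtype.ext
    apply AddMonoidHom.ext
    intro n
    rfl
  right_inv h := ec_hom_ext_apply _ _ (fun n => rfl)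

section EKSApply

variable (S h₀) (U : Subgroup ((towerS S L₀ h₀).G (botS S L₀ h₀)))
  (N : Rep.{0} (ZMod p) (ecV S h₀ U)) [Finite N.V]
  (hcyc : ∀ x y : ecV S h₀ U, x * y = y * x) (hV : ¬ p ∣ Nat.card (ecV S h₀ U))
  (B : TowerModule ℤ (towerS S L₀ h₀)) (hB : B.HasDescent)
  (h90 : ∀ (j : (towerS S L₀ h₀).ι) (W : Subgroup ((towerS S L₀ h₀).G j))
    (x : groupCohomology (B.atSub j W) 1), p • x = 0 → x = 0)

include hcyc hV hB in
/-- **(C2)**, degree `0`: `|Ext⁰(A_{coind N}|_S, B)| = |Hom_V(N, B_bot[p])|` -/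
theorem ec_card_extLim_coind_zero :
    Nat.card (ExtLim (AS S h₀ (ecAM L₀ (ecMN S h₀ U N))) B 0) =
      Nat.card (N ⟶ ecTor p (Rep.res (ecV S h₀ U).subtype (B.C (botS S L₀ h₀)))) := by
  letI : Fintype (ecV S h₀ U) := Fintype.ofFinite _
  have hcop : (Fintype.card (ecV S h₀ U)).Coprime p := by
    rw [← Nat.card_eq_fintype_card]
    exact ((Nat.Prime.coprime_iff_not_dvd (Fact.out : p.Prime)).2 hV).symm
  have hN : ∀ n : (intRep N).V, p • n = 0 := fun (n : N.V) => by
    have h : (p : ZMod p) • n = 0 := by rw [ZMod.natCast_self, zero_smul]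
    rwa [Nat.cast_smul_eq_nsmul] at h
  haveI : Finite (intRep N).V := inferInstanceAs (Finite N.V)
  rw [Nat.card_congr (ecShapEquiv S h₀ U N B 0).toEquiv]
  have h1 := ec_card_extLim_inflFrom_zero p (T := (towerS S L₀ h₀).sub (botS S L₀ h₀) U)
    (ecSubBot S h₀ U) (ecSubBot_le S h₀ U) (B.sub (botS S L₀ h₀) U) hcyc hcop
    (sub_hasDescent B (botS S L₀ h₀) U hB) (intRep N) hN
  rw [h1]
  exact Nat.card_congr (ecHomEquiv N _)

include hcyc hV hB h90 in
/-- **(C2)**, degree `1`: `|Ext¹(A_{coind N}|_S, B)| = |Hom_V(N, B_bot / p)|` -/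
theorem ec_card_extLim_coind_one :
    Nat.card (ExtLim (AS S h₀ (ecAM L₀ (ecMN S h₀ U N))) B 1) =
      Nat.card (N ⟶ ecCot p (Rep.res (ecV S h₀ U).subtype (B.C (botS S L₀ h₀)))) := by
  letI : Fintype (ecV S h₀ U) := Fintype.ofFinite _
  have hcop : (Fintype.card (ecV S h₀ U)).Coprime p := by
    rw [← Nat.card_eq_fintype_card]
    exact ((Nat.Prime.coprime_iff_not_dvd (Fact.out : p.Prime)).2 hV).symm
  have hN : ∀ n : (intRep N).V, p • n = 0 := fun (n : N.V) => by
    have h : (p : ZMod p) • n = 0 := by rw [ZMod.natCast_self, zero_smul]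
    rwa [Nat.cast_smul_eq_nsmul] at h
  haveI : Finite (intRep N).V := inferInstanceAs (Finite N.V)
  rw [Nat.card_congr (ecShapEquiv S h₀ U N B 1).toEquiv]
  have h1 := ec_card_extLim_inflFrom_one p (T := (towerS S L₀ h₀).sub (botS S L₀ h₀) U)
    (ecSubBot S h₀ U) (ecSubBot_le S h₀ U) (B.sub (botS S L₀ h₀) U)
    (PClassFormation.sub_noPTorsion (botS S L₀ h₀) U 1 h90) hcyc hcop
    (sub_hasDescent B (botS S L₀ h₀) U hB) (intRep N) hN
  rw [h1]
  exact Nat.card_congr (ecHomEquiv N _)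

end EKSApply

end

end Fermat.Agent.TW
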