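import Fermat.Agent.Lib.TW.Euler.TorCot
import Fermat.Agent.Lib.TW.Euler.Inv

/-!
# P10 / G4 leaf (A'): integral representations of a finite cyclic group are determined, up to
"additive functions", by the ranks of their fixed points

`ecH_eq_of_finrank_invariants_eq` : for a finite cyclic group `C`, an additive function `F` on
`F_p[C]`-modules and finitely generated `ℤ[C]`-modules `Y`, `Y'` such that `Y^D`, `Y'^D` have the
same rank for all subgroups `D ≤ C`:  `ecH p F Y = ecH p F Y'`
(`ecH p F Y = F(Y / p Y) - F(Y[p])`).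

The development is done over a Noetherian domain `R` of characteristic `0` with fraction field `K`
such that finitely generated torsion modules are finite (`EcaTorsFin R`) and the cyclotomic
polynomials are irreducible over `K`; this avoids all `ℤ`-module instance diamonds.  Steps:
* `eca_finrank_inv_add` : ranks of `D`-invariants are additive on short exact sequences;
* `ecaTF` : the torsion-free quotient (same `ecH`, same ranks of invariants);
* `eca_ker_ev` : for a torsion-free module, `e` minimal with `ker(g^e - 1) ≠ 0` and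
  `0 ≠ y ∈ ker(g^e - 1)`, the annihilator of `y` in `R[X]` is `(Φ_e)`;
* `ecaCycEquiv` : cyclic submodules with the same annihilator are isomorphic;
* induction on the rank (`eca_main`).
-/

set_option autoImplicit false
set_option linter.unusedSectionVars false
set_option linter.style.haveILetI false

open CategoryTheory Polynomial

namespace Fermat.Agent.TW

noncomputable section

/-- "finitely generated torsion modules are finite" (true for `R = ℤ`) -/
def EcaTorsFin (R : Type) [CommRing R] : Prop :=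
  ∀ (M : Type) [AddCommGroup M] [Module R M] [Module.Finite R M], Module.IsTorsion R M → Finite M

section Gen

variable {R : Type} [CommRing R] [IsDomain R] [IsNoetherianRing R] {G : Type} [Group G]
  (p : ℕ) [hp : Fact p.Prime]

/-- the exact sequence of a stable submodule -/
lemma eca_sub_quot_exact (Y : Rep.{0} R G) (W : Submodule R Y.V)
    (hW : ∀ g, W ≤ W.comap (Y.ρ g)) (y : Y.V) :
    (ecQuotProj Y W hW).hom y = 0 ↔ ∃ x : (ecSub Y W hW).V, (ecSubIncl Y W hW).hom x = y := by
  change W.mkQ y = 0 ↔ _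
  rw [Submodule.mkQ_apply, Submodule.Quotient.mk_eq_zero]
  exact ⟨fun h => ⟨⟨y, h⟩, rfl⟩, fun ⟨x, hx⟩ => hx ▸ x.2⟩

lemma eca_finite_of_killed (htf : EcaTorsFin R) (hpR : (p : R) ≠ 0) {M : Type} [AddCommGroup M]
    [Module R M] [Module.Finite R M] (h : ∀ x : M, p • x = 0) : Finite M := by
  apply htf M
  intro x
  refine ⟨⟨(p : R), mem_nonZeroDivisors_of_ne_zero hpR⟩, ?_⟩
  rw [Submonoid.mk_smul, Nat.cast_smul_eq_nsmul]
  exact h x

lemma eca_finite_cot (htf : EcaTorsFin R) (hpR : (p : R) ≠ 0) (X : Rep.{0} R G)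
    [Module.Finite R X.V] : Finite (ecCot p X).V := by
  change Finite (X.V ⧸ LinearMap.range (ecPMul p X))
  exact eca_finite_of_killed p htf hpR (ec_cot_killed p X)

lemma eca_finite_tor (htf : EcaTorsFin R) (hpR : (p : R) ≠ 0) (X : Rep.{0} R G)
    [Module.Finite R X.V] : Finite (ecTor p X).V := by
  change Finite (LinearMap.ker (ecPMul p X))
  exact eca_finite_of_killed p htf hpR (ec_tor_killed p X)

instance eca_finite_ecSub (Y : Rep.{0} R G) [Module.Finite R Y.V] (W : Submodule R Y.V)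
    (hW : ∀ g, W ≤ W.comap (Y.ρ g)) : Module.Finite R (ecSub Y W hW).V := by
  change Module.Finite R W
  infer_instance

instance eca_finite_ecQuot (Y : Rep.{0} R G) [Module.Finite R Y.V] (W : Submodule R Y.V)
    (hW : ∀ g, W ≤ W.comap (Y.ρ g)) : Module.Finite R (ecQuot Y W hW).V := by
  change Module.Finite R (Y.V ⧸ W)
  infer_instance

variable (F : EcAddFun (ZMod p) G)

/-- additivity of `ecH` for a stable submodule -/
theorem eca_ecH_sub_add_quot (htf : EcaTorsFin R) (hpR : (p : R) ≠ 0) (Y : Rep.{0} R G)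
    [Module.Finite R Y.V] (W : Submodule R Y.V) (hW : ∀ g, W ≤ W.comap (Y.ρ g)) :
    ecH p F Y = ecH p F (ecSub Y W hW) + ecH p F (ecQuot Y W hW) := by
  haveI := eca_finite_tor p htf hpR Y
  haveI := eca_finite_cot p htf hpR Y
  haveI := eca_finite_tor p htf hpR (ecSub Y W hW)
  haveI := eca_finite_cot p htf hpR (ecSub Y W hW)
  haveI := eca_finite_tor p htf hpR (ecQuot Y W hW)
  haveI := eca_finite_cot p htf hpR (ecQuot Y W hW)
  exact ecH_add p F (ecSubIncl Y W hW) (ecQuotProj Y W hW) (fun a b h => Subtype.ext h)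
    W.mkQ_surjective (eca_sub_quot_exact Y W hW)

/-- `ecH` is invariant under bijective morphisms -/
theorem eca_ecH_eq_of_bijective (htf : EcaTorsFin R) (hpR : (p : R) ≠ 0) {Y Y' : Rep.{0} R G}
    [Module.Finite R Y.V] [Module.Finite R Y'.V] (f : Y ⟶ Y') (hf : Function.Bijective f.hom) :
    ecH p F Y = ecH p F Y' := by
  haveI := eca_finite_tor p htf hpR Y
  haveI := eca_finite_cot p htf hpR Y
  haveI := eca_finite_tor p htf hpR Y'
  haveI := eca_finite_cot p htf hpR Y'
  -- the zero representation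
  let Z : Rep.{0} R G := ecQuot Y' ⊤ (fun g => le_top)
  haveI : Subsingleton Z.V := by
    change Subsingleton (Y'.V ⧸ (⊤ : Submodule R Y'.V))
    infer_instance
  haveI : Finite Z.V := Finite.of_subsingleton
  haveI := ec_finite_tor p Z
  haveI := ec_finite_cot p Z
  have h := ecH_add p F f (ecQuotProj Y' ⊤ (fun g => le_top)) hf.1
    (Submodule.mkQ_surjective _) (fun y => ⟨fun _ => hf.2 y, fun _ => Subsingleton.elim _ _⟩)
  rw [h, ecH_eq_zero_of_finite p F Z, add_zero]

end Gen

section Rank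

variable {R : Type} [CommRing R] [IsDomain R] [IsNoetherianRing R]

/-- rank-nullity over a Noetherian domain -/
lemma eca_finrank_range_add_finrank_ker {M M₁ : Type} [AddCommGroup M] [Module R M]
    [Module.Finite R M] [AddCommGroup M₁] [Module R M₁] (f : M →ₗ[R] M₁) :
    Module.finrank R (LinearMap.range f) + Module.finrank R (LinearMap.ker f) =
      Module.finrank R M := by
  rw [← f.quotKerEquivRange.finrank_eq]
  exact Submodule.finrank_quotient_add_finrank _

/-- sandwich lemma for ranks -/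
lemma eca_finrank_eq_of_smul_le {M : Type} [AddCommGroup M] [Module R M] [Module.Finite R M]
    (N B : Submodule R M) (hNB : N ≤ B) (c : R) (hc : c ≠ 0) (h : ∀ b ∈ B, c • b ∈ N) :
    Module.finrank R N = Module.finrank R B := by
  refine le_antisymm (Submodule.finrank_mono hNB) ?_
  let f : B →ₗ[R] N :=
    { toFun := fun b => ⟨c • b.1, h b.1 b.2⟩
      map_add' := fun a b => Subtype.ext (by simp [smul_add])
      map_smul' := fun r a => Subtype.ext (by simp [smul_comm c r]) }
  have h1 := eca_finrank_range_add_finrank_ker f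
  have h2 : Module.finrank R (LinearMap.ker f) = 0 := by
    rw [Module.finrank_eq_zero_iff_isTorsion]
    intro x
    refine ⟨⟨c, mem_nonZeroDivisors_of_ne_zero hc⟩, ?_⟩
    rw [Submonoid.mk_smul]
    apply Subtype.ext
    apply Subtype.ext
    have := congrArg Subtype.val (LinearMap.mem_ker.1 x.2)
    exact this
  have h3 : Module.finrank R (LinearMap.range f) ≤ Module.finrank R N := Submodule.finrank_le _
  omega

variable [CharZero R] {G : Type} [Group G] [Finite G]

/-- **ranks of invariants are additive** on the exact sequence of a stable submodule -/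
theorem eca_finrank_inv_add (Y : Rep.{0} R G) [Module.Finite R Y.V] (W : Submodule R Y.V)
    (hW : ∀ g, W ≤ W.comap (Y.ρ g)) (D : Subgroup G) :
    Module.finrank R (ecInv Y D) =
      Module.finrank R (ecInv (ecSub Y W hW) D) + Module.finrank R (ecInv (ecQuot Y W hW) D) := by
  classical
  haveI : Fintype D := Fintype.ofFinite D
  set A : Submodule R Y.V := ecInv Y D with hA
  -- (a) rank-nullity for the restriction of the projection
  have ha : Module.finrank R A = Module.finrank R (A.map W.mkQ) +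
      Module.finrank R (A ⊓ W : Submodule R Y.V) := by
    have h1 := eca_finrank_range_add_finrank_ker (W.mkQ.domRestrict A)
    rw [LinearMap.range_domRestrict] at h1
    have h2 : Module.finrank R (LinearMap.ker (W.mkQ.domRestrict A)) =
        Module.finrank R (A ⊓ W : Submodule R Y.V) := by
      have hmem : ∀ x : LinearMap.ker (W.mkQ.domRestrict A), x.1.1 ∈ A ⊓ W := by
        intro x
        refine ⟨x.1.2, ?_⟩
        have := LinearMap.mem_ker.1 x.2
        rw [LinearMap.domRestrict_apply, Submodule.mkQ_apply, Submodule.Quotient.mk_eq_zero] at this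
        exact this
      let φ : LinearMap.ker (W.mkQ.domRestrict A) →ₗ[R] (A ⊓ W : Submodule R Y.V) :=
        { toFun := fun x => ⟨x.1.1, hmem x⟩
          map_add' := fun _ _ => rfl
          map_smul' := fun _ _ => rfl }
      refine LinearEquiv.finrank_eq (LinearEquiv.ofBijective φ ⟨?_, ?_⟩)
      · intro x y hxy
        apply Subtype.ext
        apply Subtype.ext
        exact congrArg (fun z : (A ⊓ W : Submodule R Y.V) => z.1) hxy
      · rintro ⟨y, hyA, hyW⟩
        refine ⟨⟨⟨y, hyA⟩, ?_⟩, rfl⟩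
        rw [LinearMap.mem_ker, LinearMap.domRestrict_apply, Submodule.mkQ_apply,
          Submodule.Quotient.mk_eq_zero]
        exact hyW
    omega
  -- (b) the invariants of the submodule
  have hb : Module.finrank R (ecInv (ecSub Y W hW) D) =
      Module.finrank R (A ⊓ W : Submodule R Y.V) := by
    have h1 : (ecInv (ecSub Y W hW) D).map W.subtype = A ⊓ W := by
      ext y
      constructor
      · rintro ⟨w, hw, rfl⟩
        refine ⟨?_, w.2⟩
        rw [hA]
        intro d
        exact congrArg Subtype.val (hw d)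
      · rintro ⟨hyA, hyW⟩
        refine ⟨⟨y, hyW⟩, ?_, rfl⟩
        intro d
        apply Subtype.ext
        exact hyA d
    rw [← h1]
    exact (LinearEquiv.finrank_eq
      (Submodule.equivMapOfInjective W.subtype W.injective_subtype _))
  -- (c) the image of the invariants in the invariants of the quotient
  have hc : Module.finrank R (A.map W.mkQ) = Module.finrank R (ecInv (ecQuot Y W hW) D) := by
    have hcard : ((Fintype.card D : ℕ) : R) ≠ 0 := by
      exact_mod_cast Fintype.card_ne_zero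
    refine eca_finrank_eq_of_smul_le (M := Y.V ⧸ W) _ _ ?_ _ hcard ?_
    · rintro _ ⟨y, hy, rfl⟩ d
      have : Y.ρ d y = y := hy d
      change W.mkQ (Y.ρ d y) = W.mkQ y
      rw [this]
    · intro b hb
      obtain ⟨y, rfl⟩ := W.mkQ_surjective b
      refine ⟨∑ d : D, Y.ρ d y, ?_, ?_⟩
      · intro d'
        change Y.ρ d' (∑ d : D, Y.ρ d y) = _
        rw [map_sum]
        refine (Fintype.sum_equiv (Equiv.mulLeft d') _ _ (fun d => ?_))
        change Y.ρ d' (Y.ρ d y) = Y.ρ (d' * d : D) y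
        rw [Subgroup.coe_mul, map_mul]
        rfl
      · rw [map_sum]
        have : ∀ d : D, W.mkQ (Y.ρ d y) = W.mkQ y := fun d => hb d
        rw [Finset.sum_congr rfl (fun d _ => this d), Finset.sum_const, Finset.card_univ,
          Nat.cast_smul_eq_nsmul]
  omega

end Rank

section Tors

variable {R : Type} [CommRing R] [IsDomain R] [IsNoetherianRing R] [CharZero R] {G : Type}
  [Group G] [Finite G] (p : ℕ) [hp : Fact p.Prime] (F : EcAddFun (ZMod p) G)

/-- the torsion submodule -/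
def ecaTors (Y : Rep.{0} R G) : Submodule R Y.V := Submodule.torsion R Y.V

lemma mem_ecaTors {Y : Rep.{0} R G} {y : Y.V} : y ∈ ecaTors Y ↔ ∃ a : R, a ≠ 0 ∧ a • y = 0 := by
  unfold ecaTors
  rw [Submodule.mem_torsion_iff]
  constructor
  · rintro ⟨a, ha⟩
    exact ⟨a.1, nonZeroDivisors.ne_zero a.2, ha⟩
  · rintro ⟨a, ha, h⟩
    exact ⟨⟨a, mem_nonZeroDivisors_of_ne_zero ha⟩, h⟩

lemma ecaTors_stable (Y : Rep.{0} R G) (g : G) : ecaTors Y ≤ (ecaTors Y).comap (Y.ρ g) := by
  intro y hy
  rw [Submodule.mem_comap]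
  rw [mem_ecaTors] at hy ⊢
  obtain ⟨a, ha, h⟩ := hy
  exact ⟨a, ha, by rw [← map_smul, h, map_zero]⟩

/-- the torsion-free quotient -/
def ecaTF (Y : Rep.{0} R G) : Rep.{0} R G := ecQuot Y (ecaTors Y) (ecaTors_stable Y)

instance ecaTF_finite (Y : Rep.{0} R G) [Module.Finite R Y.V] : Module.Finite R (ecaTF Y).V :=
  eca_finite_ecQuot Y _ _

lemma ecaTF_torsionFree (Y : Rep.{0} R G) (a : R) (x : (ecaTF Y).V) (ha : a ≠ 0)
    (h : a • x = 0) : x = 0 := by
  have key : ∀ x : Y.V ⧸ ecaTors Y, a • x = 0 → x = 0 := by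
    intro x h
    obtain ⟨y, rfl⟩ := (ecaTors Y).mkQ_surjective x
    rw [← map_smul, Submodule.mkQ_apply, Submodule.Quotient.mk_eq_zero, mem_ecaTors] at h
    obtain ⟨b, hb, h⟩ := h
    rw [Submodule.mkQ_apply, Submodule.Quotient.mk_eq_zero, mem_ecaTors]
    exact ⟨b * a, mul_ne_zero hb ha, by rw [mul_smul, h]⟩
  exact key x h

lemma eca_ecH_ecaTF (htf : EcaTorsFin R) (hpR : (p : R) ≠ 0) (Y : Rep.{0} R G)
    [Module.Finite R Y.V] : ecH p F (ecaTF Y) = ecH p F Y := by
  have h := eca_ecH_sub_add_quot p F htf hpR Y (ecaTors Y) (ecaTors_stable Y)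
  haveI : Finite (ecSub Y (ecaTors Y) (ecaTors_stable Y)).V := by
    change Finite (ecaTors Y)
    apply htf
    intro x
    obtain ⟨a, ha, h⟩ := mem_ecaTors.1 x.2
    exact ⟨⟨a, mem_nonZeroDivisors_of_ne_zero ha⟩, Subtype.ext h⟩
  rw [ecH_eq_zero_of_finite p F (ecSub Y (ecaTors Y) (ecaTors_stable Y)), zero_add] at h
  exact h.symm

lemma eca_finrank_inv_ecaTF (Y : Rep.{0} R G) [Module.Finite R Y.V] (D : Subgroup G) :
    Module.finrank R (ecInv (ecaTF Y) D) = Module.finrank R (ecInv Y D) := by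
  have h := eca_finrank_inv_add Y (ecaTors Y) (ecaTors_stable Y) D
  have h0 : Module.finrank R (ecInv (ecSub Y (ecaTors Y) (ecaTors_stable Y)) D) = 0 := by
    rw [Module.finrank_eq_zero_iff_isTorsion]
    intro x
    obtain ⟨a, ha, h⟩ := mem_ecaTors.1 x.1.2
    exact ⟨⟨a, mem_nonZeroDivisors_of_ne_zero ha⟩, Subtype.ext (Subtype.ext h)⟩
  rw [h0, zero_add] at h
  exact h.symm

end Tors

section Cyc

variable {R : Type} [CommRing R] [IsDomain R] {M : Type} [AddCommGroup M] [Module R M]
  (T : Module.End R M)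

/-- evaluation of polynomials in `T` at a vector -/
def ecaEv (y : M) : R[X] →ₗ[R] M := (LinearMap.applyₗ y).comp (aeval T).toLinearMap

lemma ecaEv_apply (y : M) (P : R[X]) : ecaEv T y P = aeval T P y := rfl

lemma ecaEv_mul (y : M) (P Q : R[X]) : ecaEv T y (P * Q) = aeval T P (ecaEv T y Q) := by
  rw [ecaEv_apply, ecaEv_apply, map_mul, Module.End.mul_apply]

/-- the cyclic submodule generated by `y` -/
abbrev ecaCyc (y : M) : Submodule R M := LinearMap.range (ecaEv T y)

lemma self_mem_ecaCyc (y : M) : y ∈ ecaCyc T y :=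
  ⟨1, by rw [ecaEv_apply, map_one, Module.End.one_apply]⟩

lemma ecaCyc_stable_pow (y : M) (j : ℕ) : ecaCyc T y ≤ (ecaCyc T y).comap (T ^ j) := by
  rintro _ ⟨P, rfl⟩
  refine ⟨X ^ j * P, ?_⟩
  rw [ecaEv_mul, map_pow, aeval_X]

variable {M' : Type} [AddCommGroup M'] [Module R M'] (T' : Module.End R M')

/-- cyclic submodules with the same annihilator are isomorphic -/
def ecaCycEquiv (y : M) (y' : M') (h : ∀ P, ecaEv T y P = 0 ↔ ecaEv T' y' P = 0) :
    ecaCyc T y ≃ₗ[R] ecaCyc T' y' :=
  ((ecaEv T y).quotKerEquivRange.symm.trans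
    (Submodule.quotEquivOfEq _ _ (by
      ext P
      rw [LinearMap.mem_ker, LinearMap.mem_ker]
      exact h P))).trans (ecaEv T' y').quotKerEquivRange

lemma ecaCycEquiv_apply (y : M) (y' : M') (h : ∀ P, ecaEv T y P = 0 ↔ ecaEv T' y' P = 0)
    (P : R[X]) (hP : ecaEv T y P ∈ ecaCyc T y) :
    ((ecaCycEquiv T T' y y' h ⟨ecaEv T y P, hP⟩ : ecaCyc T' y') : M') = ecaEv T' y' P := by
  unfold ecaCycEquiv
  rw [LinearEquiv.trans_apply, LinearEquiv.trans_apply,
    LinearMap.quotKerEquivRange_symm_apply_image, Submodule.mkQ_apply,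
    Submodule.quotEquivOfEq_mk, LinearMap.quotKerEquivRange_apply_mk]

lemma ecaCycEquiv_pow (y : M) (y' : M') (h : ∀ P, ecaEv T y P = 0 ↔ ecaEv T' y' P = 0)
    (j : ℕ) (z : ecaCyc T y) :
    ((ecaCycEquiv T T' y y' h ⟨(T ^ j) z.1, ecaCyc_stable_pow T y j z.2⟩ : ecaCyc T' y') : M') =
      (T' ^ j) (ecaCycEquiv T T' y y' h z : ecaCyc T' y').1 := by
  have h3 : ∀ (w : M) (hw : w ∈ ecaCyc T y) (Q : R[X]), w = ecaEv T y Q →
      ((ecaCycEquiv T T' y y' h ⟨w, hw⟩ : ecaCyc T' y') : M') = ecaEv T' y' Q := by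
    intro w hw Q hwQ
    subst hwQ
    exact ecaCycEquiv_apply T T' y y' h Q hw
  obtain ⟨w, hw⟩ := z
  have hw' := hw
  obtain ⟨P, hP⟩ := hw'
  have h1 : (T ^ j) w = ecaEv T y (X ^ j * P) := by
    rw [ecaEv_mul, map_pow, aeval_X, hP]
  have h2 : (T' ^ j) (ecaEv T' y' P) = ecaEv T' y' (X ^ j * P) := by
    rw [ecaEv_mul, map_pow, aeval_X]
  have e1 := h3 ((T ^ j) w) (ecaCyc_stable_pow T y j hw) _ h1
  have e2 := h3 w hw P hP.symm
  rw [e1, e2, h2]

lemma ecaEv_mul' (y : M) (P Q : R[X]) : ecaEv T y (P * Q) = aeval T Q (ecaEv T y P) := by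
  rw [mul_comm, ecaEv_mul]

lemma ecaEv_X_pow_sub_one (y : M) (d : ℕ) : ecaEv T y (X ^ d - 1) = (T ^ d) y - y := by
  rw [ecaEv_apply, map_sub, map_pow, aeval_X, map_one, LinearMap.sub_apply, Module.End.one_apply]

lemma ecaEv_C (y : M) (a : R) : ecaEv T y (C a) = a • y := by
  rw [ecaEv_apply, aeval_C, Module.algebraMap_end_apply]

/-- the annihilator of a vector fixed by `T ^ e`, `e` minimal -/
theorem eca_ker_ev (K : Type) [Field K] [Algebra R K] [IsFractionRing R K]
    (htfree : ∀ (a : R) (x : M), a ≠ 0 → a • x = 0 → x = 0) {e : ℕ} (he : 0 < e)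
    (hirr : Irreducible (cyclotomic e K))
    (hmin : ∀ d, 0 < d → d < e → ∀ z : M, (T ^ d) z = z → z = 0) {y : M} (hy : (T ^ e) y = y)
    (hy0 : y ≠ 0) (P : R[X]) : ecaEv T y P = 0 ↔ cyclotomic e R ∣ P := by
  classical
  -- `Φ_e(T) y = 0`
  have hΦ : ecaEv T y (cyclotomic e R) = 0 := by
    set Ψ : R[X] := ∏ d ∈ Nat.properDivisors e, cyclotomic d R with hΨ
    have hprod : cyclotomic e R * Ψ = X ^ e - 1 := by
      rw [← prod_cyclotomic_eq_X_pow_sub_one he R, ← Nat.insert_self_properDivisors he.ne',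
        Finset.prod_insert Nat.self_notMem_properDivisors]
    have h1 : aeval T Ψ (ecaEv T y (cyclotomic e R)) = 0 := by
      rw [← ecaEv_mul', hprod, ecaEv_X_pow_sub_one, hy, sub_self]
    have hinj : Function.Injective (aeval T Ψ) := by
      rw [hΨ]
      refine Finset.prod_induction _ (fun Q : R[X] => Function.Injective (aeval T Q))
        (fun f g hf hg => ?_) ?_ (fun d hd => ?_)
      · rw [map_mul]
        exact hf.comp hg
      · rw [map_one]
        exact fun x y h => h
      · rw [Nat.mem_properDivisors] at hd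
        have hd0 : 0 < d := Nat.pos_of_dvd_of_pos hd.1 he
        rw [← LinearMap.ker_eq_bot, eq_bot_iff]
        intro z hz
        rw [LinearMap.mem_ker] at hz
        obtain ⟨Q, hQ⟩ := cyclotomic.dvd_X_pow_sub_one d R
        have h2 : ecaEv T z (X ^ d - 1) = 0 := by
          rw [hQ, ecaEv_mul', ecaEv_apply, hz, map_zero]
        rw [ecaEv_X_pow_sub_one, sub_eq_zero] at h2
        rw [Submodule.mem_bot]
        exact hmin d hd0 hd.2 z h2
    exact hinj (by rw [h1, map_zero])
  constructor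
  · intro hP
    have hmonic : (cyclotomic e R).Monic := cyclotomic.monic e R
    set S := P %ₘ cyclotomic e R with hS
    have hdecomp := modByMonic_add_div P (cyclotomic e R)
    have hS0 : ecaEv T y S = 0 := by
      have : S = P - cyclotomic e R * (P /ₘ cyclotomic e R) := by
        rw [hS]
        exact eq_sub_of_add_eq hdecomp
      rw [this, map_sub, hP, ecaEv_mul', hΦ, map_zero, sub_zero]
    by_cases hSz : S = 0
    · rw [hS] at hSz
      exact (modByMonic_eq_zero_iff_dvd hmonic).1 hSz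
    exfalso
    have hdeg : S.degree < (cyclotomic e R).degree := degree_modByMonic_lt P hmonic
    have hinjK : Function.Injective (algebraMap R K) := IsFractionRing.injective R K
    -- coprimality over `K`
    have hSK0 : S.map (algebraMap R K) ≠ 0 := by
      rwa [Ne, Polynomial.map_eq_zero_iff hinjK]
    have hndvd : ¬ cyclotomic e K ∣ S.map (algebraMap R K) := by
      intro hdvd
      have h1 := degree_le_of_dvd hdvd hSK0
      rw [degree_map_eq_of_injective hinjK, ← map_cyclotomic e (algebraMap R K),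
        degree_map_eq_of_injective hinjK] at h1
      exact absurd hdeg (not_lt.2 h1)
    obtain ⟨a, b, hab⟩ := (hirr.coprime_iff_not_dvd).2 hndvd
    obtain ⟨b₁, hb₁, hA⟩ := IsLocalization.integerNormalization_spec (nonZeroDivisors R) a
    obtain ⟨b₂, hb₂, hB⟩ := IsLocalization.integerNormalization_spec (nonZeroDivisors R) b
    set A₀ := IsLocalization.integerNormalization (nonZeroDivisors R) a
    set B₀ := IsLocalization.integerNormalization (nonZeroDivisors R) b
    have hkey : C b₂ * A₀ * cyclotomic e R + C b₁ * B₀ * S = C (b₁ * b₂) := by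
      apply Polynomial.map_injective _ hinjK
      rw [Polynomial.map_add, Polynomial.map_mul, Polynomial.map_mul, Polynomial.map_mul,
        Polynomial.map_mul, hA, hB, map_cyclotomic, Polynomial.map_C, Polynomial.map_C,
        Polynomial.map_C, map_mul]
      have : (C (algebraMap R K b₁) * C (algebraMap R K b₂) : K[X]) =
          C (algebraMap R K b₁) * C (algebraMap R K b₂) * (a * cyclotomic e K +
            b * S.map (algebraMap R K)) := by rw [hab, mul_one]
      rw [C_mul, this, Algebra.smul_def, Algebra.smul_def]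
      simp only [Polynomial.algebraMap_apply]
      ring
    have hm : b₁ * b₂ ≠ 0 :=
      mul_ne_zero (nonZeroDivisors.ne_zero hb₁) (nonZeroDivisors.ne_zero hb₂)
    have h0 : ecaEv T y (C (b₁ * b₂)) = 0 := by
      rw [← hkey, map_add, ecaEv_mul, hΦ, map_zero, ecaEv_mul, hS0, map_zero, add_zero]
    rw [ecaEv_C] at h0
    exact hy0 (htfree _ _ hm h0)
  · rintro ⟨Q, rfl⟩
    rw [ecaEv_mul', hΦ, map_zero]

end Cyc

section RepLevel

variable {R : Type} [CommRing R] [IsDomain R] [IsNoetherianRing R] [CharZero R] {C : Type}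
  [Group C]

/-- invariants of the subgroup generated by `g ^ e` -/
lemma eca_mem_inv_zpowers (Y : Rep.{0} R C) (g : C) (e : ℕ) (y : Y.V) :
    y ∈ ecInv Y (Subgroup.zpowers (g ^ e)) ↔ ((Y.ρ g) ^ e) y = y := by
  constructor
  · intro h
    have := h ⟨g ^ e, Subgroup.mem_zpowers _⟩
    change Y.ρ (g ^ e) y = y at this
    rwa [map_pow] at this
  · intro h
    let H : Subgroup C :=
      { carrier := {c | Y.ρ c y = y}
        mul_mem' := fun {a b} ha hb => by
          change Y.ρ (a * b) y = y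
          rw [map_mul, Module.End.mul_apply, hb, ha]
        one_mem' := by
          change Y.ρ 1 y = y
          rw [map_one, Module.End.one_apply]
        inv_mem' := fun {a} ha => by
          change Y.ρ a⁻¹ y = y
          have h1 : Y.ρ a⁻¹ (Y.ρ a y) = y := by
            rw [← Module.End.mul_apply, ← map_mul, inv_mul_cancel, map_one, Module.End.one_apply]
          rwa [ha] at h1 }
    have hle : Subgroup.zpowers (g ^ e) ≤ H := by
      rw [Subgroup.zpowers_le]
      change Y.ρ (g ^ e) y = y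
      rwa [map_pow]
    intro d
    exact hle d.2

/-- a bijective morphism induces an isomorphism on invariants -/
lemma eca_finrank_inv_eq_of_bijective {G : Type} [Group G] {A B : Rep.{0} R G} (f : A ⟶ B)
    (hf : Function.Bijective f.hom) (D : Subgroup G) :
    Module.finrank R (ecInv A D) = Module.finrank R (ecInv B D) := by
  have hmem : ∀ x : ecInv A D, f.hom x.1 ∈ ecInv B D := by
    intro x d
    change B.ρ d (f.hom x.1) = f.hom x.1
    rw [← Rep.hom_comm_apply]
    exact congrArg f.hom (x.2 d)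
  let φ : ecInv A D →ₗ[R] ecInv B D :=
    { toFun := fun x => ⟨f.hom x.1, hmem x⟩
      map_add' := fun x y => Subtype.ext (map_add f.hom x.1 y.1)
      map_smul' := fun r x => Subtype.ext (map_smul f.hom r x.1) }
  refine LinearEquiv.finrank_eq (LinearEquiv.ofBijective φ ⟨?_, ?_⟩)
  · intro x y hxy
    apply Subtype.ext
    apply hf.1
    exact congrArg (fun z : ecInv B D => z.1) hxy
  · intro b
    obtain ⟨a, ha⟩ := hf.2 b.1
    refine ⟨⟨a, fun d => ?_⟩, Subtype.ext ha⟩
    apply hf.1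
    change f.hom (A.ρ d a) = f.hom a
    rw [Rep.hom_comm_apply, ha]
    exact b.2 d

variable [Finite C] (g : C) (hg : ∀ c : C, ∃ j : ℕ, c = g ^ j)

include hg in
/-- stability of the cyclic submodule under `C` -/
lemma ecaCyc_stable_rep (Y : Rep.{0} R C) (y : Y.V) (c : C) :
    ecaCyc (Y.ρ g) y ≤ (ecaCyc (Y.ρ g) y).comap (Y.ρ c) := by
  obtain ⟨j, rfl⟩ := hg c
  rw [map_pow]
  exact ecaCyc_stable_pow _ y j

/-- the morphism between cyclic sub-representations with the same annihilator -/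
def ecaCycHom (Y Y' : Rep.{0} R C) (y : Y.V) (y' : Y'.V)
    (h : ∀ P, ecaEv (Y.ρ g) y P = 0 ↔ ecaEv (Y'.ρ g) y' P = 0) :
    ecSub Y (ecaCyc (Y.ρ g) y) (ecaCyc_stable_rep g hg Y y) ⟶
      ecSub Y' (ecaCyc (Y'.ρ g) y') (ecaCyc_stable_rep g hg Y' y') :=
  Rep.ofHom ⟨(ecaCycEquiv (Y.ρ g) (Y'.ρ g) y y' h).toLinearMap, fun c => by
    ext z
    obtain ⟨j, rfl⟩ := hg c
    have := ecaCycEquiv_pow (Y.ρ g) (Y'.ρ g) y y' h j z
    change ((ecaCycEquiv (Y.ρ g) (Y'.ρ g) y y' h ⟨Y.ρ (g ^ j) z.1, _⟩ : ecaCyc (Y'.ρ g) y') : Y'.V) =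
      Y'.ρ (g ^ j) (ecaCycEquiv (Y.ρ g) (Y'.ρ g) y y' h z : ecaCyc (Y'.ρ g) y').1
    simp only [map_pow]
    exact this⟩

lemma ecaCycHom_bijective (Y Y' : Rep.{0} R C) (y : Y.V) (y' : Y'.V)
    (h : ∀ P, ecaEv (Y.ρ g) y P = 0 ↔ ecaEv (Y'.ρ g) y' P = 0) :
    Function.Bijective (ecaCycHom g hg Y Y' y y' h).hom :=
  (ecaCycEquiv (Y.ρ g) (Y'.ρ g) y y' h).bijective

end RepLevel

section Main

variable {R : Type} [CommRing R] [IsDomain R] [IsNoetherianRing R] [CharZero R]

lemma eca_subsingleton_of_finrank_eq_zero {M : Type} [AddCommGroup M] [Module R M]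
    [Module.Finite R M] (htfree : ∀ (a : R) (x : M), a ≠ 0 → a • x = 0 → x = 0)
    (h : Module.finrank R M = 0) : Subsingleton M := by
  rw [Module.finrank_eq_zero_iff_isTorsion] at h
  refine ⟨fun a b => ?_⟩
  have key : ∀ x : M, x = 0 := by
    intro x
    obtain ⟨c, hc⟩ := @h x
    exact htfree c.1 x (nonZeroDivisors.ne_zero c.2) hc
  rw [key a, key b]

lemma eca_finrank_ne_zero_of_mem {M : Type} [AddCommGroup M] [Module R M]
    [Module.Finite R M] (htfree : ∀ (a : R) (x : M), a ≠ 0 → a • x = 0 → x = 0)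
    (W : Submodule R M) {y : M} (hy : y ∈ W) (hy0 : y ≠ 0) : Module.finrank R W ≠ 0 := by
  intro h
  rw [Module.finrank_eq_zero_iff_isTorsion] at h
  obtain ⟨c, hc⟩ := @h ⟨y, hy⟩
  have : c.1 • y = 0 := congrArg Subtype.val hc
  exact hy0 (htfree c.1 y (nonZeroDivisors.ne_zero c.2) this)

variable {C : Type} [Group C]

lemma eca_finrank_inv_bot (Y : Rep.{0} R C) :
    Module.finrank R (ecInv Y ⊥) = Module.finrank R Y.V := by
  have : ecInv Y ⊥ = ⊤ := by
    rw [eq_top_iff]
    intro y _ d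
    have hd : (d : C) = 1 := Subgroup.mem_bot.1 d.2
    change Y.ρ (d : C) y = y
    rw [hd, map_one, Module.End.one_apply]
  rw [this, finrank_top]

lemma eca_exists_fixed_iff (W : Rep.{0} R C) [Module.Finite R W.V]
    (hfree : ∀ (a : R) (x : W.V), a ≠ 0 → a • x = 0 → x = 0) (g : C) (e : ℕ) :
    (∃ z : W.V, z ≠ 0 ∧ ((W.ρ g) ^ e) z = z) ↔
      Module.finrank R (ecInv W (Subgroup.zpowers (g ^ e))) ≠ 0 := by
  constructor
  · rintro ⟨z, hz0, hz⟩
    exact eca_finrank_ne_zero_of_mem hfree _ ((eca_mem_inv_zpowers W g e z).2 hz) hz0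
  · intro h
    have hne : ecInv W (Subgroup.zpowers (g ^ e)) ≠ ⊥ := by
      intro hbot
      rw [hbot, finrank_bot] at h
      exact h rfl
    obtain ⟨z, hz, hz0⟩ := Submodule.exists_mem_ne_zero_of_ne_bot hne
    exact ⟨z, hz0, (eca_mem_inv_zpowers W g e z).1 hz⟩

variable (K : Type) [Field K] [Algebra R K] [IsFractionRing R K] [Finite C]
  (p : ℕ) [hp : Fact p.Prime] (F : EcAddFun (ZMod p) C)

/-- the inductive step for torsion-free modules -/
theorem eca_main_step (htf : EcaTorsFin R) (hpR : (p : R) ≠ 0)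
    (hirr : ∀ e : ℕ, 0 < e → Irreducible (cyclotomic e K)) (g : C)
    (hg : ∀ c : C, ∃ j : ℕ, c = g ^ j) (r : ℕ)
    (ih : ∀ m < r, ∀ (Y Y' : Rep.{0} R C) [Module.Finite R Y.V] [Module.Finite R Y'.V],
      Module.finrank R Y.V = m →
      (∀ D : Subgroup C, Module.finrank R (ecInv Y D) = Module.finrank R (ecInv Y' D)) →
      ecH p F Y = ecH p F Y')
    (Z Z' : Rep.{0} R C) [Module.Finite R Z.V] [Module.Finite R Z'.V]
    (hZfree : ∀ (a : R) (x : Z.V), a ≠ 0 → a • x = 0 → x = 0)
    (hZ'free : ∀ (a : R) (x : Z'.V), a ≠ 0 → a • x = 0 → x = 0)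
    (hZr : Module.finrank R Z.V = r) (hZ'r : Module.finrank R Z'.V = r)
    (hZinv : ∀ D : Subgroup C, Module.finrank R (ecInv Z D) = Module.finrank R (ecInv Z' D)) :
    ecH p F Z = ecH p F Z' := by
  classical
  by_cases hr0 : r = 0
  · haveI : Subsingleton Z.V := eca_subsingleton_of_finrank_eq_zero hZfree (hZr.trans hr0)
    haveI : Subsingleton Z'.V := eca_subsingleton_of_finrank_eq_zero hZ'free (hZ'r.trans hr0)
    haveI : Finite Z.V := Finite.of_subsingleton
    haveI : Finite Z'.V := Finite.of_subsingleton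
    rw [ecH_eq_zero_of_finite p F Z, ecH_eq_zero_of_finite p F Z']
  -- a nonzero vector
  obtain ⟨z0, hz0⟩ : ∃ z : Z.V, z ≠ 0 := by
    by_contra hne
    push Not at hne
    haveI : Subsingleton Z.V := ⟨fun a b => by rw [hne a, hne b]⟩
    have := Module.finrank_zero_of_subsingleton (R := R) (M := Z.V)
    omega
  have hn : 0 < Nat.card C := Nat.card_pos
  have hpow : (Z.ρ g) ^ (Nat.card C) = 1 := by
    rw [← map_pow, pow_card_eq_one', map_one]
  have hP : ∃ e : ℕ, 0 < e ∧ ∃ z : Z.V, z ≠ 0 ∧ ((Z.ρ g) ^ e) z = z :=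
    ⟨Nat.card C, hn, z0, hz0, by rw [hpow, Module.End.one_apply]⟩
  obtain ⟨he, y, hy0, hy⟩ := Nat.find_spec hP
  set e := Nat.find hP with hedef
  have hmin : ∀ d, 0 < d → d < e → ∀ z : Z.V, ((Z.ρ g) ^ d) z = z → z = 0 := by
    intro d hd hde z hz
    by_contra hz0
    exact Nat.find_min hP hde ⟨hd, z, hz0, hz⟩
  have htrans : ∀ d : ℕ, (∃ z : Z.V, z ≠ 0 ∧ ((Z.ρ g) ^ d) z = z) ↔
      (∃ z' : Z'.V, z' ≠ 0 ∧ ((Z'.ρ g) ^ d) z' = z') := by
    intro d
    rw [eca_exists_fixed_iff Z hZfree g d, eca_exists_fixed_iff Z' hZ'free g d, hZinv]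
  obtain ⟨y', hy'0, hy'⟩ := (htrans e).1 ⟨y, hy0, hy⟩
  have hmin' : ∀ d, 0 < d → d < e → ∀ z' : Z'.V, ((Z'.ρ g) ^ d) z' = z' → z' = 0 := by
    intro d hd hde z' hz'
    by_contra hz'0
    obtain ⟨z, hz0', hz⟩ := (htrans d).2 ⟨z', hz'0, hz'⟩
    exact hz0' (hmin d hd hde z hz)
  have h : ∀ P, ecaEv (Z.ρ g) y P = 0 ↔ ecaEv (Z'.ρ g) y' P = 0 := fun P =>
    (eca_ker_ev (Z.ρ g) K hZfree he (hirr e he) hmin hy hy0 P).trans
      (eca_ker_ev (Z'.ρ g) K hZ'free he (hirr e he) hmin' hy' hy'0 P).symm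
  have hW := ecaCyc_stable_rep g hg Z y
  have hW' := ecaCyc_stable_rep g hg Z' y'
  have e1 := eca_ecH_sub_add_quot p F htf hpR Z (ecaCyc (Z.ρ g) y) hW
  have e2 := eca_ecH_sub_add_quot p F htf hpR Z' (ecaCyc (Z'.ρ g) y') hW'
  have e3 := eca_ecH_eq_of_bijective p F htf hpR (ecaCycHom g hg Z Z' y y' h)
    (ecaCycHom_bijective g hg Z Z' y y' h)
  -- ranks
  have r1 := Submodule.finrank_quotient_add_finrank (ecaCyc (Z.ρ g) y)
  have r2 := Submodule.finrank_quotient_add_finrank (ecaCyc (Z'.ρ g) y')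
  have r3 : Module.finrank R (ecaCyc (Z.ρ g) y) = Module.finrank R (ecaCyc (Z'.ρ g) y') :=
    LinearEquiv.finrank_eq (ecaCycEquiv (Z.ρ g) (Z'.ρ g) y y' h)
  have r4 : Module.finrank R (ecaCyc (Z.ρ g) y) ≠ 0 :=
    eca_finrank_ne_zero_of_mem hZfree _ (self_mem_ecaCyc _ y) hy0
  have hq : ∀ D : Subgroup C,
      Module.finrank R (ecInv (ecQuot Z (ecaCyc (Z.ρ g) y) hW) D) =
        Module.finrank R (ecInv (ecQuot Z' (ecaCyc (Z'.ρ g) y') hW') D) := by
    intro D
    have a1 := eca_finrank_inv_add Z (ecaCyc (Z.ρ g) y) hW D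
    have a2 := eca_finrank_inv_add Z' (ecaCyc (Z'.ρ g) y') hW' D
    have a3 := eca_finrank_inv_eq_of_bijective (ecaCycHom g hg Z Z' y y' h)
      (ecaCycHom_bijective g hg Z Z' y y' h) D
    have a4 := hZinv D
    omega
  have hlt : Module.finrank R (ecQuot Z (ecaCyc (Z.ρ g) y) hW).V < r := by
    change Module.finrank R (Z.V ⧸ ecaCyc (Z.ρ g) y) < r
    omega
  have e4 := ih _ hlt (ecQuot Z (ecaCyc (Z.ρ g) y) hW) (ecQuot Z' (ecaCyc (Z'.ρ g) y') hW')
    rfl hq
  rw [e1, e2, e3, e4]

/-- **the classification, general form** -/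
theorem eca_main (htf : EcaTorsFin R) (hpR : (p : R) ≠ 0)
    (hirr : ∀ e : ℕ, 0 < e → Irreducible (cyclotomic e K)) (g : C)
    (hg : ∀ c : C, ∃ j : ℕ, c = g ^ j) :
    ∀ (r : ℕ) (Y Y' : Rep.{0} R C) [Module.Finite R Y.V] [Module.Finite R Y'.V],
      Module.finrank R Y.V = r →
      (∀ D : Subgroup C, Module.finrank R (ecInv Y D) = Module.finrank R (ecInv Y' D)) →
      ecH p F Y = ecH p F Y' := by
  intro r
  induction r using Nat.strong_induction_on with
  | _ r ih =>
  intro Y Y' _ _ hr hinv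
  rw [← eca_ecH_ecaTF p F htf hpR Y, ← eca_ecH_ecaTF p F htf hpR Y']
  have hZinv : ∀ D : Subgroup C, Module.finrank R (ecInv (ecaTF Y) D) =
      Module.finrank R (ecInv (ecaTF Y') D) := by
    intro D
    rw [eca_finrank_inv_ecaTF, eca_finrank_inv_ecaTF, hinv D]
  have hZr : Module.finrank R (ecaTF Y).V = r := by
    rw [← eca_finrank_inv_bot (ecaTF Y), eca_finrank_inv_ecaTF, eca_finrank_inv_bot, hr]
  have hZ'r : Module.finrank R (ecaTF Y').V = r := by
    rw [← eca_finrank_inv_bot (ecaTF Y'), ← hZinv ⊥, eca_finrank_inv_bot, hZr]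
  exact eca_main_step K p F htf hpR hirr g hg r (fun m hm A B _ _ hA hAB => ih m hm A B hA hAB)
    (ecaTF Y) (ecaTF Y') (ecaTF_torsionFree Y) (ecaTF_torsionFree Y') hZr hZ'r hZinv

end Main

section IntCase

lemma ecaTorsFin_int : EcaTorsFin ℤ := by
  intro M _ _ _ h
  exact Module.finite_of_fg_torsion M h

/-- two `ℤ`-module structures on an additive group have the same rank -/
lemma eca_finrank_int_eq {M : Type} [AddCommGroup M] (m₁ m₂ : Module ℤ M) :
    @Module.finrank ℤ M _ _ m₁ = @Module.finrank ℤ M _ _ m₂ := by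
  have : m₁ = m₂ := Subsingleton.elim _ _
  rw [this]

lemma eca_finite_int_of {M : Type} [AddCommGroup M] (m₁ m₂ : Module ℤ M)
    (h : @Module.Finite ℤ M _ _ m₁) : @Module.Finite ℤ M _ _ m₂ := by
  have : m₁ = m₂ := Subsingleton.elim _ _
  rwa [← this]

/-- **Classification** (G4 leaf (A')): for a finite cyclic group `C`, two finitely generated
`ℤ[C]`-modules whose `D`-invariants have the same rank for all subgroups `D ≤ C` have the same
`ecH`. -/
theorem ecH_eq_of_finrank_invariants_eq {p : ℕ} [Fact p.Prime] {C : Type} [Group C] [Finite C]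
    [IsCyclic C] (F : EcAddFun (ZMod p) C) (Y Y' : Rep.{0} ℤ C) [hY : Module.Finite ℤ Y.V]
    [hY' : Module.Finite ℤ Y'.V]
    (h : ∀ D : Subgroup C, Module.finrank ℤ (ecInv Y D) = Module.finrank ℤ (ecInv Y' D)) :
    ecH p F Y = ecH p F Y' := by
  obtain ⟨g, hg⟩ := IsCyclic.exists_monoid_generator (α := C)
  have hg' : ∀ c : C, ∃ j : ℕ, c = g ^ j := by
    intro c
    obtain ⟨j, hj⟩ := (Submonoid.mem_powers_iff c g).1 (hg c)
    exact ⟨j, hj.symm⟩
  have hp0 : ((p : ℕ) : ℤ) ≠ 0 := by
    exact_mod_cast (Fact.out : p.Prime).ne_zero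
  haveI hfY : @Module.Finite ℤ Y.V _ _ Y.hV2 := eca_finite_int_of _ _ hY
  haveI hfY' : @Module.Finite ℤ Y'.V _ _ Y'.hV2 := eca_finite_int_of _ _ hY'
  refine eca_main ℚ p F ecaTorsFin_int hp0 (fun e he => cyclotomic.irreducible_rat he) g hg' _
    Y Y' rfl (fun D => ?_)
  rw [eca_finrank_int_eq _ (AddCommGroup.toIntModule _), h D]
  exact eca_finrank_int_eq _ _

end IntCase

end

end Fermat.Agent.TW
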