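/-
G4 (Euler characteristic), leaf (F), part 2: `|H⁰(B)| = |B_b^{G_b}|` for a tower module with Galois
descent over a tower with a bottom level; `|H⁰_S(A_M)| = |M^G|`, `|H⁰(D_q, A_M)| = |M^{D_q}|`.
-/
import Fermat.Agent.Lib.TW.Euler.Chi
import Fermat.Agent.Lib.CFT.Duality.D1One
import Fermat.Agent.Lib.CFT.Duality.LocInj

set_option autoImplicit false
set_option linter.unusedSectionVars false
set_option linter.unusedVariables false
set_option linter.style.haveILetI false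

open CategoryTheory CategoryTheory.Abelian

namespace Fermat.Agent.TW

open Fermat.Agent.CFT Fermat.Agent.CFT.Duality Fermat.Agent.CFT.Duality.TowerModule
open Fermat.Agent.CFT.Duality.PTData

noncomputable section

section HZero

variable {k : Type} [CommRing k] {T : Tower} (B : TowerModule k T) {b : T.ι} (hb : ∀ l, b ≤ l)

include hb in
lemma ec_hzeroOfInv_injective (hd : B.HasDescent) : Function.Injective (hzeroOfInv (b := b) B) := by
  rw [injective_iff_map_eq_zero]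
  intro x hx
  rw [hzeroOfInv_apply] at hx
  obtain ⟨l, hbl, hl⟩ := ExtLim.of_eq_zero (triv k T) B 0 hx
  obtain ⟨f', hf', hf'c⟩ := extTrans_triv_mk₀' B hbl (invAddHom (B.C b) x)
  rw [hf', Ext.mk₀_eq_zero_iff] at hl
  have h1 := hf'c 1
  have e1 : (invAddHom (B.C b) x).hom (1 : k) = x.1 := invAddHom_apply_one (B.C b) x
  have h2 : (B.φ hbl).hom x.1 = 0 := by
    refine (congrArg (B.φ hbl).hom e1).symm.trans (h1.symm.trans ?_)
    rw [hl]
    rfl
  apply Subtype.ext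
  apply hd.injective hbl
  exact h2.trans (map_zero _).symm

include hb in
/-- `|H⁰(B)| = |B_b^{G_b}|` for a module with Galois descent over a tower with a bottom level -/
theorem ec_card_hlim_zero (hd : B.HasDescent) :
    Nat.card (HLim B 0) = Nat.card {x : (B.C b).V // ∀ g, (B.C b).ρ g x = x} :=
  (Nat.card_congr (Equiv.ofBijective _
    ⟨ec_hzeroOfInv_injective B hb hd, hzeroOfInv_surjective B hb hd⟩)).symm

end HZero

variable {p : ℕ} [Fact p.Prime] {S : Finset Nat.Primes} {L₀ : Level} {h₀ : L₀.IsS S}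

lemma ec_π_base (g : L₀.G) : (levelTower L₀).π (le_refl (baseLevel L₀)) g = g :=
  (levelTower L₀).π_refl (baseLevel L₀) g

lemma ec_AS_ρ_bot (M : Rep.{0} (ZMod p) L₀.G) (g : L₀.G) (x : M.V) :
    ((AS S h₀ (ecAM L₀ M)).C (botS S L₀ h₀)).ρ g x = M.ρ g x := by
  change M.ρ ((levelTower L₀).π (le_refl (baseLevel L₀)) g) x = M.ρ g x
  rw [ec_π_base]

lemma ec_AqS_ρ_bot (q : Nat.Primes) (M : Rep.{0} (ZMod p) L₀.G) (g : decomp q L₀) (x : M.V) :
    ((AqS S h₀ q (ecAM L₀ M)).C (botLocS S q L₀ h₀)).ρ g x = M.ρ g.1 x := by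
  change M.ρ ((levelTower L₀).π (le_refl (baseLevel L₀)) g.1) x = M.ρ g.1 x
  rw [ec_π_base]

theorem ec_card_hlim_zero_AS (M : Rep.{0} (ZMod p) L₀.G) :
    Nat.card (HLim (AS S h₀ (ecAM L₀ M)) 0) = ecCardInv M ⊤ := by
  have h0 := ec_card_hlim_zero (AS S h₀ (ecAM L₀ M)) (b := botS S L₀ h₀) botS_le
    (hasDescent_of_isCartesian _)
  refine h0.trans ?_
  unfold ecCardInv
  have key : ∀ x : M.V, (∀ g : L₀.G, ((AS S h₀ (ecAM L₀ M)).C (botS S L₀ h₀)).ρ g x = x) ↔
      (∀ g ∈ (⊤ : Subgroup L₀.G), M.ρ g x = x) := fun x =>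
    ⟨fun h g _ => (ec_AS_ρ_bot M g x).symm.trans (h g),
      fun h g => (ec_AS_ρ_bot M g x).trans (h g (Subgroup.mem_top _))⟩
  exact Nat.card_congr (Equiv.subtypeEquivRight key)

theorem ec_card_hlim_zero_AqS (q : Nat.Primes) (M : Rep.{0} (ZMod p) L₀.G) :
    Nat.card (HLim (AqS S h₀ q (ecAM L₀ M)) 0) = ecCardInv M (decomp q L₀) := by
  have h0 := ec_card_hlim_zero (AqS S h₀ q (ecAM L₀ M)) (b := botLocS S q L₀ h₀) (botLocS_le q)
    (hasDescent_of_isCartesian _)
  refine h0.trans ?_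
  unfold ecCardInv
  have key : ∀ x : M.V,
      (∀ g : decomp q L₀, ((AqS S h₀ q (ecAM L₀ M)).C (botLocS S q L₀ h₀)).ρ g x = x) ↔
      (∀ g ∈ decomp q L₀, M.ρ g x = x) := fun x =>
    ⟨fun h g hg => (ec_AqS_ρ_bot q M ⟨g, hg⟩ x).symm.trans (h ⟨g, hg⟩),
      fun h g => (ec_AqS_ρ_bot q M g x).trans (h g.1 g.2)⟩
  exact Nat.card_congr (Equiv.subtypeEquivRight key)

end

end Fermat.Agent.TW
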