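/-
G4 (Euler characteristic), leaf (F): Galois descent for the semi-local multiplicative groups `J_q`
(coinduced, level by level, from the local multiplicative groups), finiteness of `J_q[p]`, `J_q / p`,
`C / p`, `C[p]`, `(⊕ J_q)[p]`, `(⊕ J_q) / p`, ... from the fields of `PTData`.
-/
import Fermat.Agent.Lib.TW.Euler.Chi
import Fermat.Agent.Lib.TW.Euler.TorCot
import Fermat.Agent.Lib.TW.Euler.Count
import Fermat.Agent.Lib.TW.Euler.CyclicClass
import Fermat.Agent.Lib.CFT.Duality.JShapiro
import Fermat.Agent.Lib.CFT.Duality.ClassGroup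

set_option autoImplicit false
set_option linter.unusedSectionVars false
set_option linter.unusedVariables false
set_option linter.style.haveILetI false

open CategoryTheory

namespace Fermat.Agent.TW

open Fermat.Agent.CFT Fermat.Agent.CFT.Duality Fermat.Agent.CFT.Duality.TowerModule

noncomputable section

section Abstract

variable {k : Type} [CommRing k] {T : Tower} (P : T.ι → Prop) (hne : ∃ i, P i)
  (hdir : ∀ i j, P i → P j → ∃ l, P l ∧ i ≤ l ∧ j ≤ l) (D : T.SubgroupFamily)
  (B : TowerModule k (T.filter P hne hdir))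
  (B' : TowerModule k ((T.subTower D).filter P hne hdir))
  (β : ∀ L : (T.filter P hne hdir).ι, Rep.res (D.D L.1).subtype (B.C L) ⟶ B'.C L)
  (hβ : ∀ {L L' : (T.filter P hne hdir).ι} (h : L ≤ L') (x : B.C L),
    (β L').hom ((B.φ h).hom x) = (B'.φ (i := L) (j := L') h).hom ((β L).hom x))
  (hinj : ∀ (L : (T.filter P hne hdir).ι) (y : B.C L),
      (∀ g : T.G L.1, (β L).hom ((B.C L).ρ g y) = 0) → y = 0)
  (hsurj : ∀ (L : (T.filter P hne hdir).ι) (f : T.G L.1 → B'.C L),
      (∀ (s : D.D L.1) (g : T.G L.1), f ((s : T.G L.1) * g) = (B'.C L).ρ s (f g)) →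
      ∃ y : B.C L, ∀ g : T.G L.1, (β L).hom ((B.C L).ρ g y) = f g)

/-- equivariance of the transition maps, elementwise -/
lemma ec_φ_ρ {T' : Tower} (X : TowerModule k T') {i j : T'.ι} (h : i ≤ j) (g : T'.G j) (x : X.C i) :
    (X.φ h).hom ((X.C i).ρ (T'.π h g) x) = (X.C j).ρ g ((X.φ h).hom x) :=
  Rep.hom_comm_apply (X.φ h) g x

lemma ec_ρ_mul {G : Type} [Monoid G] (X : Rep.{0} k G) (a b : G) (y : X.V) :
    X.ρ (a * b) y = X.ρ a (X.ρ b y) := by
  rw [map_mul]; rfl

include hβ hinj hsurj in
/-- Galois descent for a module which is coinduced, level by level, from a module with descent -/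
theorem ec_hasDescent_of_coind (hB' : B'.HasDescent) : B.HasDescent where
  injective {L L'} h := by
    rw [injective_iff_map_eq_zero]
    intro x hx
    refine hinj L x (fun g => ?_)
    apply hB'.injective (i := L) (j := L') h
    rw [map_zero, ← hβ h]
    obtain ⟨g', rfl⟩ := (T.filter P hne hdir).π_surjective h g
    rw [ec_φ_ρ B h g' x, hx, map_zero, map_zero]
  surjective {L L'} h y hy := by
    -- `ρ` of an element of the kernel times anything
    have hker : ∀ (g' k : (T.filter P hne hdir).G L'), (T.filter P hne hdir).π h k = 1 →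
        (B.C L').ρ (g' * k) y = (B.C L').ρ g' y := fun g' k hk =>
      (ec_ρ_mul (B.C L') g' k y).trans (congrArg _ (hy k hk))
    have hker' : ∀ (g' k : (T.filter P hne hdir).G L'), (T.filter P hne hdir).π h k = 1 →
        (B.C L').ρ (k * g') y = (B.C L').ρ g' y := by
      intro g' k hk
      have h1 : k * g' = g' * (g'⁻¹ * k * g') := by group
      refine (congrArg (fun a => (B.C L').ρ a y) h1).trans (hker g' _ ?_)
      rw [map_mul, map_mul, hk, mul_one, map_inv, inv_mul_cancel]
    -- step 1 + 2: descend `β (g' y)`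
    have hdesc : ∀ g' : (T.filter P hne hdir).G L', ∃ w : B'.C L,
        (B'.φ (i := L) (j := L') h).hom w = (β L').hom ((B.C L').ρ g' y) := by
      intro g'
      refine hB'.surjective (i := L) (j := L') h _ (fun k hk => ?_)
      have h1 := Rep.hom_comm_apply (β L') k ((B.C L').ρ g' y)
      refine h1.symm.trans (congrArg (β L').hom ?_)
      refine (ec_ρ_mul (B.C L') k.1 g' y).symm.trans (hker' g' k.1 ?_)
      exact congrArg Subtype.val hk
    choose w hw using hdesc
    have hsec : ∀ g : (T.filter P hne hdir).G L, ∃ g' : (T.filter P hne hdir).G L',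
        (T.filter P hne hdir).π h g' = g :=
      fun g => (T.filter P hne hdir).π_surjective h g
    choose s hs using hsec
    -- step 3
    have hstar : ∀ g' : (T.filter P hne hdir).G L', (B'.φ (i := L) (j := L') h).hom
        (w (s ((T.filter P hne hdir).π h g'))) = (β L').hom ((B.C L').ρ g' y) := by
      intro g'
      refine (hw _).trans (congrArg (β L').hom ?_)
      have h1 : s ((T.filter P hne hdir).π h g') =
          g' * (g'⁻¹ * s ((T.filter P hne hdir).π h g')) := by group
      refine (congrArg (fun a => (B.C L').ρ a y) h1).trans (hker g' _ ?_)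
      rw [map_mul, map_inv, hs, inv_mul_cancel]
    -- step 4
    have hequiv : ∀ (d : D.D L.1) (g : T.G L.1),
        w (s ((d : T.G L.1) * g)) = (B'.C L).ρ d (w (s g)) := by
      intro d g
      apply hB'.injective (i := L) (j := L') h
      obtain ⟨d', hd'⟩ := ((T.subTower D).filter P hne hdir).π_surjective (i := L) (j := L') h d
      set d'' : (T.filter P hne hdir).G L' := d'.1 with hd''def
      have hd'' : (T.filter P hne hdir).π h d'' = d.1 := congrArg Subtype.val hd'
      have h1 : (d : T.G L.1) * g = (T.filter P hne hdir).π h (d'' * s g) := by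
        rw [map_mul, hd'', hs]
        rfl
      have h3 := Rep.hom_comm_apply (β L') d' ((B.C L').ρ (s g) y)
      have h4 := ec_φ_ρ B' (i := L) (j := L') h d' (w (s g))
      rw [hd'] at h4
      refine ((congrArg (fun a => (B'.φ (i := L) (j := L') h).hom (w (s a))) h1).trans
        (hstar (d'' * s g))).trans ?_
      refine Eq.trans ?_ ((congrArg ((B'.C L').ρ d') (hw (s g))).symm.trans h4.symm)
      refine Eq.trans (congrArg (β L').hom ?_) h3
      exact ec_ρ_mul (B.C L') d'' (s g) y
    -- step 5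
    obtain ⟨x, hx⟩ := hsurj L (fun g => w (s g)) hequiv
    refine ⟨x, ?_⟩
    rw [← sub_eq_zero]
    refine hinj L' _ (fun g' => ?_)
    rw [map_sub, map_sub, sub_eq_zero]
    refine ((congrArg (β L').hom (ec_φ_ρ B h g' x).symm).trans (hβ h _)).trans ?_
    exact (congrArg (B'.φ (i := L) (j := L') h).hom (hx _)).trans (hstar g')

end Abstract


section CoindFinite

variable {R : Type} [CommRing R] {G : Type} [Group G] (p : ℕ) (S : Subgroup G)
  {Y : Rep.{0} R G} {X : Rep.{0} R S} (β : Rep.res S.subtype Y ⟶ X)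
  (hinj : ∀ y : Y, (∀ g : G, β.hom (Y.ρ g y) = 0) → y = 0)
  (hsurj : ∀ f : G → X, (∀ (s : S) (g : G), f ((s : G) * g) = X.ρ s (f g)) →
      ∃ y : Y, ∀ g : G, β.hom (Y.ρ g y) = f g)

include hinj in
/-- `Y[p]` is finite if `Y = coind X` with `X[p]` finite -/
theorem ec_finite_tor_of_coind [Finite G] [Finite (ecTor p X).V] : Finite (ecTor p Y).V := by
  have hex : ∀ (t : (ecTor p Y).V) (g : G), ∃ u : (ecTor p X).V,
      ecTorVal p X u = β.hom (Y.ρ g (ecTorVal p Y t)) := fun t g =>
    exists_ecTorVal_eq p X _ (by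
      rw [← map_nsmul, ← map_nsmul, ecTorVal_smul, map_zero, map_zero])
  choose Φ hΦ using hex
  refine Finite.of_injective Φ (fun t t' htt' => ?_)
  apply ecTorVal_injective p Y
  rw [← sub_eq_zero]
  refine hinj _ (fun g => ?_)
  rw [map_sub, map_sub, ← hΦ, ← hΦ, htt', sub_self]

include hinj hsurj in
/-- `Y / p` is finite if `Y = coind X` with `X / p` finite -/
theorem ec_finite_cot_of_coind [Finite G] [Finite (ecCot p X).V] : Finite (ecCot p Y).V := by
  classical
  let Q := Quotient (QuotientGroup.rightRel S)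
  -- the coset representative and the element of `S`
  let r : G → G := fun g => (Quotient.mk (QuotientGroup.rightRel S) g).out
  have hr : ∀ g, g * (r g)⁻¹ ∈ S := fun g =>
    QuotientGroup.rightRel_apply.1 (Quotient.mk_out (s := QuotientGroup.rightRel S) g)
  have hrs : ∀ (s : S) (g : G), r ((s : G) * g) = r g := by
    intro s g
    have h1 : Quotient.mk (QuotientGroup.rightRel S) ((s : G) * g) =
        Quotient.mk (QuotientGroup.rightRel S) g := by
      apply Quotient.sound
      change QuotientGroup.rightRel S _ _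
      rw [QuotientGroup.rightRel_apply]
      have : g * ((s : G) * g)⁻¹ = (s : G)⁻¹ := by group
      rw [this]
      exact S.inv_mem s.2
    change (Quotient.mk (QuotientGroup.rightRel S) ((s : G) * g)).out = _
    rw [h1]
  let θ : Y.V → (Q → (ecCot p X).V) := fun y c => ecCotMk p X (β.hom (Y.ρ c.out y))
  have hθ : ∀ y y' : Y.V, θ y = θ y' → ecCotMk p Y y = ecCotMk p Y y' := by
    intro y y' hyy'
    rw [← sub_eq_zero, ← map_sub, ecCotMk_eq_zero_iff]
    have h0 : ∀ c : Q, ∃ x : X.V, p • x = β.hom (Y.ρ c.out (y - y')) := by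
      intro c
      rw [← ecCotMk_eq_zero_iff, map_sub, map_sub, map_sub, sub_eq_zero]
      exact congrFun hyy' c
    choose x hx using h0
    obtain ⟨y'', hy''⟩ := hsurj
      (fun g => X.ρ ⟨g * (r g)⁻¹, hr g⟩ (x (Quotient.mk (QuotientGroup.rightRel S) g))) (by
        intro s g
        have h1 : Quotient.mk (QuotientGroup.rightRel S) ((s : G) * g) =
            Quotient.mk (QuotientGroup.rightRel S) g := by
          apply Quotient.sound
          change QuotientGroup.rightRel S _ _
          rw [QuotientGroup.rightRel_apply]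
          have : g * ((s : G) * g)⁻¹ = (s : G)⁻¹ := by group
          rw [this]
          exact S.inv_mem s.2
        have h2 : (⟨(s : G) * g * (r ((s : G) * g))⁻¹, hr _⟩ : S) = s * ⟨g * (r g)⁻¹, hr g⟩ := by
          apply Subtype.ext
          change (s : G) * g * (r ((s : G) * g))⁻¹ = (s : G) * (g * (r g)⁻¹)
          rw [hrs, mul_assoc]
        rw [h1, h2, map_mul]
        rfl)
    refine ⟨y'', ?_⟩
    rw [← sub_eq_zero]
    refine hinj _ (fun g => ?_)
    rw [map_sub, map_sub, sub_eq_zero, map_nsmul, map_nsmul, hy'', ← map_nsmul, hx]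
    have h3 := Rep.hom_comm_apply β ⟨g * (r g)⁻¹, hr g⟩ (Y.ρ (r g) (y - y'))
    refine h3.symm.trans (congrArg β.hom ?_)
    change Y.ρ (g * (r g)⁻¹) (Y.ρ (r g) (y - y')) = _
    rw [← Module.End.mul_apply, ← map_mul, inv_mul_cancel_right]
  haveI : Finite Q := Quotient.finite _
  haveI : Finite (Set.range θ) := Subtype.finite
  refine Finite.of_surjective (fun t : Set.range θ => ecCotMk p Y (Classical.choose t.2)) ?_
  intro c
  obtain ⟨y, rfl⟩ := ecCotMk_surjective p Y c
  refine ⟨⟨θ y, y, rfl⟩, ?_⟩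
  exact hθ _ _ (Classical.choose_spec (⟨y, rfl⟩ : ∃ y', θ y' = θ y))

end CoindFinite


/-- a quotient through which a map to a finite type "factors backwards" is finite -/
lemma ec_finite_of_factor {A C T : Type*} (π : A → C) (hπ : Function.Surjective π) (θ : A → T)
    [Finite T] (h : ∀ a a', θ a = θ a' → π a = π a') : Finite C := by
  haveI : Finite (Set.range θ) := Subtype.finite
  refine Finite.of_surjective (fun t : Set.range θ => π (Classical.choose t.2)) ?_
  intro c
  obtain ⟨a, rfl⟩ := hπ c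
  exact ⟨⟨θ a, a, rfl⟩, h _ _ (Classical.choose_spec (⟨a, rfl⟩ : ∃ a', θ a' = θ a))⟩

section Exact

variable {R : Type} [CommRing R] {G : Type} [Group G] (p : ℕ)
  {X' X X'' : Rep.{0} R G} (i : X' ⟶ X) (q : X ⟶ X'')
  (hi : Function.Injective i.hom) (hq : Function.Surjective q.hom)
  (hex : ∀ x : X.V, q.hom x = 0 ↔ ∃ x' : X'.V, i.hom x' = x)

include hi in
lemma ec_finite_tor_left [Finite (ecTor p X).V] : Finite (ecTor p X').V :=
  Finite.of_injective _ (ecTorMap_injective p i hi)

include hi hex in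
lemma ec_finite_tor_mid [Finite (ecTor p X').V] [Finite (ecTor p X'').V] :
    Finite (ecTor p X).V :=
  ec_finite_of_exact (ecTorMap p i).hom.toLinearMap.toAddMonoidHom
    (ecTorMap p q).hom.toLinearMap.toAddMonoidHom (fun y hy => (ecTorMap_exact p i q hi hex y).1 hy)

include hi hq hex in
lemma ec_finite_tor_right [Finite (ecTor p X).V] [Finite (ecCot p X').V] :
    Finite (ecTor p X'').V :=
  ec_finite_of_exact (ecTorMap p q).hom.toLinearMap.toAddMonoidHom
    (ecDelta p i q hi hq hex).hom.toLinearMap.toAddMonoidHom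
    (fun y hy => (ecDelta_exact_left p i q hi hq hex y).1 hy)

include hi hq hex in
lemma ec_finite_cot_left [Finite (ecTor p X'').V] [Finite (ecCot p X).V] :
    Finite (ecCot p X').V :=
  ec_finite_of_exact (ecDelta p i q hi hq hex).hom.toLinearMap.toAddMonoidHom
    (ecCotMap p i).hom.toLinearMap.toAddMonoidHom
    (fun y hy => (ecDelta_exact_right p i q hi hq hex y).1 hy)

include hq hex in
lemma ec_finite_cot_mid [Finite (ecCot p X').V] [Finite (ecCot p X'').V] :
    Finite (ecCot p X).V :=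
  ec_finite_of_exact (ecCotMap p i).hom.toLinearMap.toAddMonoidHom
    (ecCotMap p q).hom.toLinearMap.toAddMonoidHom
    (fun y hy => (ecCotMap_exact p i q hq hex y).1 hy)

include hq in
lemma ec_finite_cot_right [Finite (ecCot p X).V] : Finite (ecCot p X'').V :=
  Finite.of_surjective _ (ecCotMap_surjective p q hq)

end Exact

section Pi

variable {T : Tower} {ι : Type} [Finite ι] (p : ℕ) (B : ι → TowerModule ℤ T) (L : T.ι)

/-- `(∏ B_q)[p]` is finite if the `B_q[p]` are -/
theorem ec_finite_tor_piT (h : ∀ q, Finite (ecTor p ((B q).C L)).V) :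
    Finite (ecTor p ((piT B).C L)).V := by
  have hex : ∀ (t : (ecTor p ((piT B).C L)).V) (q : ι), ∃ u : (ecTor p ((B q).C L)).V,
      ecTorVal p ((B q).C L) u =
        (show ∀ q, ((B q).C L).V from ecTorVal p ((piT B).C L) t) q := fun t q =>
    exists_ecTorVal_eq p ((B q).C L) _ (by
      have h1 := congrFun (ecTorVal_smul p ((piT B).C L) t) q
      exact h1)
  choose Φ hΦ using hex
  refine Finite.of_injective Φ (fun t t' htt' => ?_)
  apply ecTorVal_injective p ((piT B).C L)
  funext q
  have h1 := hΦ t q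
  have h2 := hΦ t' q
  rw [htt'] at h1
  exact h1.symm.trans h2

/-- `(∏ B_q) / p` is finite if the `B_q / p` are -/
theorem ec_finite_cot_piT (h : ∀ q, Finite (ecCot p ((B q).C L)).V) :
    Finite (ecCot p ((piT B).C L)).V := by
  refine ec_finite_of_factor (ecCotMk p ((piT B).C L)) (ecCotMk_surjective p _)
    (fun (x : ((piT B).C L).V) (q : ι) =>
      ecCotMk p ((B q).C L) ((show ∀ q, ((B q).C L).V from x) q)) (fun x x' hxx' => ?_)
  rw [← sub_eq_zero, ← map_sub, ecCotMk_eq_zero_iff]
  have h0 : ∀ q, ∃ w : ((B q).C L).V,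
      p • w = (show ∀ q, ((B q).C L).V from x) q - (show ∀ q, ((B q).C L).V from x') q := by
    intro q
    rw [← ecCotMk_eq_zero_iff, map_sub, sub_eq_zero]
    exact congrFun hxx' q
  choose w hw using h0
  exact ⟨w, funext hw⟩

end Pi


variable {p : ℕ} [Fact p.Prime] {S : Finset Nat.Primes} {L₀ : Level} {h₀ : L₀.IsS S}
  (d : PTData p S L₀ h₀)

/-- `L_w^×[p] = μ_p` is finite -/
theorem ec_finite_tor_Lq (q : ↥S) (L : (towerLoc q.1 L₀).ι) :
    Finite (ecTor p ((d.Lq q).C L)).V := by
  haveI : Finite ((d.μ.resSub (decompFamily q.1 L₀)).C L) :=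
    Nat.finite_of_card_ne_zero (by
      have h1 : Nat.card ((d.μ.resSub (decompFamily q.1 L₀)).C L) = p := d.μ_card L
      rw [h1]
      exact (Fact.out : p.Prime).ne_zero)
  haveI : Finite (Set.range ((d.κloc q).f L).hom) := Finite.Set.finite_range _
  refine Finite.of_injective (fun t : (ecTor p ((d.Lq q).C L)).V =>
    (⟨ecTorVal p ((d.Lq q).C L) t, d.κloc_surjective q L _ (ecTorVal_smul p _ t)⟩ :
      Set.range ((d.κloc q).f L).hom)) (fun t t' htt' => ?_)
  have h1 : ecTorVal p ((d.Lq q).C L) t = ecTorVal p ((d.Lq q).C L) t' :=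
    congrArg (fun z : Set.range ((d.κloc q).f L).hom => z.1) htt'
  exact ecTorVal_injective p _ h1

/-- finiteness of `X / p` from the `finite_mod_p` field of a class formation -/
lemma ec_finite_cot_of_finite_mod_p {T : Tower} {C : TowerModule ℤ T} (cf : PClassFormation p T C)
    (L : T.ι) : Finite (ecCot p (C.C L)).V := by
  obtain ⟨F, hF⟩ := cf.finite_mod_p L ⊥
  refine Finite.of_surjective (fun f : F => ecCotMk p (C.C L) f.1) (fun c => ?_)
  obtain ⟨x, rfl⟩ := ecCotMk_surjective p (C.C L) c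
  obtain ⟨f, hf, e, -, he⟩ := hF x (fun u hu => by
    rw [Subgroup.mem_bot.1 hu, map_one]; rfl)
  refine ⟨⟨f, hf⟩, ?_⟩
  change ecCotMk p (C.C L) f = ecCotMk p (C.C L) x
  rw [he, map_add, left_eq_add, ecCotMk_eq_zero_iff]
  exact ⟨e, rfl⟩


/-- **Galois descent for the semi-local multiplicative groups** -/
theorem ec_J_hasDescent (q : ↥S) : (d.J q).HasDescent :=
  ec_hasDescent_of_coind (isSPred S L₀) (isSPred_nonempty h₀) (isSPred_directed S L₀)
    (decompFamily q.1 L₀) (d.J q) (d.LqS q) (d.pr q) (fun h x => d.pr_comm q h x)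
    (d.pr_injective q) (d.pr_surjective q) (d.cfLoc q).descent

theorem ec_finite_tor_J (q : ↥S) (L : (towerS S L₀ h₀).ι) :
    Finite (ecTor p ((d.J q).C L)).V := by
  refine @ec_finite_tor_of_coind _ _ _ _ p (decomp q.1 L.1.1) _ _ (d.pr q L)
    (d.pr_injective q L) _ ?_
  exact ec_finite_tor_Lq d q L.1

theorem ec_finite_cot_J (q : ↥S) (L : (towerS S L₀ h₀).ι) :
    Finite (ecCot p ((d.J q).C L)).V := by
  refine @ec_finite_cot_of_coind _ _ _ _ p (decomp q.1 L.1.1) _ _ (d.pr q L)
    (d.pr_injective q L) (d.pr_surjective q L) _ ?_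
  exact ec_finite_cot_of_finite_mod_p (d.cfLoc q) L

theorem ec_finite_cot_C (L : (towerS S L₀ h₀).ι) : Finite (ecCot p (d.C.C L)).V :=
  ec_finite_cot_of_finite_mod_p d.cf L

theorem ec_finite_tor_Jsum (L : (towerS S L₀ h₀).ι) : Finite (ecTor p (d.Jsum.C L)).V :=
  ec_finite_tor_piT p d.J L (fun q => ec_finite_tor_J d q L)

theorem ec_finite_cot_Jsum (L : (towerS S L₀ h₀).ι) : Finite (ecCot p (d.Jsum.C L)).V :=
  ec_finite_cot_piT p d.J L (fun q => ec_finite_cot_J d q L)

/-- the short exact sequence `0 → E → ⊕ J_q → (⊕ J_q) / E → 0`, in functions -/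
lemma ec_sesEJ_functions (L : (towerS S L₀ h₀).ι) :
    Function.Injective (d.sesEJ.f.f L).hom ∧ Function.Surjective (d.sesEJ.g.f L).hom ∧
      ∀ y : (d.Jsum.C L).V, (d.sesEJ.g.f L).hom y = 0 ↔ ∃ x : (d.E.C L).V, (d.sesEJ.f.f L).hom x = y := by
  obtain ⟨h1, h2, h3⟩ := shortExact_functions' (d.sesEJ.exact L)
  refine ⟨h1, h2, fun y => ⟨h3 y, ?_⟩⟩
  rintro ⟨x, rfl⟩
  exact congrArg (fun φ => φ.hom x) (d.sesEJ.zero L)

/-- the short exact sequence `0 → (⊕ J_q) / E → C → Cl → 0`, in functions -/
lemma ec_sesCl_functions (L : (towerS S L₀ h₀).ι) :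
    Function.Injective (d.sesCl.f.f L).hom ∧ Function.Surjective (d.sesCl.g.f L).hom ∧
      ∀ y : (d.C.C L).V, (d.sesCl.g.f L).hom y = 0 ↔ ∃ x : (d.JmodE.C L).V, (d.sesCl.f.f L).hom x = y := by
  obtain ⟨h1, h2, h3⟩ := shortExact_functions' (d.sesCl.exact L)
  refine ⟨h1, h2, fun y => ⟨h3 y, ?_⟩⟩
  rintro ⟨x, rfl⟩
  exact congrArg (fun φ => φ.hom x) (d.sesCl.zero L)

theorem ec_finite_tor_JmodE (L : (towerS S L₀ h₀).ι) (hE : Finite (ecCot p (d.E.C L)).V) :
    Finite (ecTor p (d.JmodE.C L)).V := by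
  obtain ⟨h1, h2, h3⟩ := ec_sesEJ_functions d L
  haveI := ec_finite_tor_Jsum d L
  exact ec_finite_tor_right p (d.sesEJ.f.f L) (d.sesEJ.g.f L) h1 h2 h3

theorem ec_finite_cot_JmodE (L : (towerS S L₀ h₀).ι) : Finite (ecCot p (d.JmodE.C L)).V := by
  obtain ⟨h1, h2, h3⟩ := ec_sesEJ_functions d L
  haveI := ec_finite_cot_Jsum d L
  exact ec_finite_cot_right p (d.sesEJ.g.f L) h2

theorem ec_finite_tor_C (L : (towerS S L₀ h₀).ι) (hE : Finite (ecCot p (d.E.C L)).V) :
    Finite (ecTor p (d.C.C L)).V := by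
  obtain ⟨h1, h2, h3⟩ := ec_sesCl_functions d L
  haveI := ec_finite_tor_JmodE d L hE
  haveI : Finite (d.Cl.C L).V := d.finite_Cl L
  haveI := ec_finite_tor p (d.Cl.C L)
  exact ec_finite_tor_mid p (d.sesCl.f.f L) (d.sesCl.g.f L) h1 h3

end

end Fermat.Agent.TW
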