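/-
G4 (Euler characteristic), Theta lemma: for a finite commutative group `U` of order prime to `p`,
a contravariant additive functor `F` on the integral representations of `U` and a finite
`p`-torsion representation `N`, `F(N) = Hom_U(N, F(Q))` where `Q = Map(U, F_p)` is the regular
representation.  Mathlib only.
-/
import Mathlib

set_option autoImplicit false
set_option linter.unusedSectionVars false
set_option linter.style.haveILetI false

open CategoryTheory

namespace Fermat.Agent.TW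

noncomputable section

theorem ec_hom_ext_apply {k G : Type} [CommRing k] [Monoid G] {M M' : Rep.{0} k G} (f g : M ⟶ M')
    (h : ∀ x : M.V, f.hom x = g.hom x) : f = g :=
  Rep.hom_ext (Representation.IntertwiningMap.ext (LinearMap.ext h))

/-- a morphism of representations from an equivariant linear map (generic in `k`, so that the
`ℤ`-module instances of the objects are used for `k = ℤ`) -/
def ecMkHom {k G : Type} [CommRing k] [Monoid G] (M M' : Rep.{0} k G) (f : M.V →ₗ[k] M'.V)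
    (hf : ∀ g x, f (M.ρ g x) = M'.ρ g (f x)) : M ⟶ M' :=
  Rep.ofHom ⟨f, fun g => LinearMap.ext (hf g)⟩

@[simp] lemma ecMkHom_apply {k G : Type} [CommRing k] [Monoid G] (M M' : Rep.{0} k G)
    (f : M.V →ₗ[k] M'.V) (hf : ∀ g x, f (M.ρ g x) = M'.ρ g (f x)) (x : M.V) :
    (ecMkHom M M' f hf).hom x = f x := rfl

theorem ec_sum_nsmul_hom_apply {k G : Type} [CommRing k] [Monoid G] {M M' : Rep.{0} k G}
    {ι : Type*} (s : Finset ι) (c : ι → ℕ) (φ : ι → (M ⟶ M')) (x : M.V) :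
    (∑ i ∈ s, c i • φ i).hom x = ∑ i ∈ s, c i • (φ i).hom x := by
  classical
  induction s using Finset.induction_on with
  | empty => rfl
  | insert a s ha ih =>
    rw [Finset.sum_insert ha, Finset.sum_insert ha, ← ih]
    rfl

/-- an additive map as a `ℤ`-linear map for arbitrary `ℤ`-module structures -/
def ecIntLin {V W : Type} [AddCommGroup V] [AddCommGroup W] [iV : Module ℤ V]
    [iW : Module ℤ W] (f : V →+ W) : V →ₗ[ℤ] W :=
  { toFun := f
    map_add' := map_add f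
    map_smul' := fun c x =>
      (congrArg f (int_smul_eq_zsmul iV c x)).trans
        ((map_zsmul f c x).trans (int_smul_eq_zsmul iW c (f x)).symm) }

@[simp] lemma ecIntLin_apply {V W : Type} [AddCommGroup V] [AddCommGroup W] [iV : Module ℤ V]
    [iW : Module ℤ W] (f : V →+ W) (x : V) : ecIntLin f x = f x := rfl

/-- a contravariant additive functor on the integral representations of `U`, unbundled -/
structure EcCoFun (U : Type) [Group U] where
  /-- the groups -/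
  X : Rep.{0} ℤ U → Type
  /-- the group structures -/
  [grp : ∀ M, AddCommGroup (X M)]
  /-- functoriality -/
  map : ∀ {M M' : Rep.{0} ℤ U}, (M ⟶ M') → X M' →+ X M
  map_id : ∀ (M : Rep.{0} ℤ U) (x : X M), map (𝟙 M) x = x
  map_comp : ∀ {M M' M'' : Rep.{0} ℤ U} (f : M ⟶ M') (g : M' ⟶ M'') (x : X M''),
    map (f ≫ g) x = map f (map g x)
  map_add : ∀ {M M' : Rep.{0} ℤ U} (f g : M ⟶ M') (x : X M'), map (f + g) x = map f x + map g x

attribute [instance] EcCoFun.grp

namespace EcCoFun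

variable {U : Type} [Group U] (F : EcCoFun U)

lemma map_zero {M M' : Rep.{0} ℤ U} (x : F.X M') : F.map (0 : M ⟶ M') x = 0 := by
  have h := F.map_add (0 : M ⟶ M') 0 x
  rw [add_zero] at h
  exact left_eq_add.1 h

lemma map_sum {ι : Type*} (s : Finset ι) {M M' : Rep.{0} ℤ U} (f : ι → (M ⟶ M')) (x : F.X M') :
    F.map (∑ i ∈ s, f i) x = ∑ i ∈ s, F.map (f i) x := by
  classical
  induction s using Finset.induction_on with
  | empty => simp [F.map_zero]
  | insert a s ha ih => rw [Finset.sum_insert ha, Finset.sum_insert ha, F.map_add, ih]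

lemma map_nsmul {M M' : Rep.{0} ℤ U} (n : ℕ) (f : M ⟶ M') (x : F.X M') :
    F.map (n • f) x = n • F.map f x := by
  induction n with
  | zero => simp [F.map_zero]
  | succ n ih => rw [succ_nsmul, succ_nsmul, F.map_add, ih]

/-- `F(N)` is killed by `p` if `N` is -/
lemma nsmul_eq_zero (p : ℕ) (N : Rep.{0} ℤ U) (hN : ∀ n : N.V, p • n = 0) (x : F.X N) :
    p • x = 0 := by
  have h0 : p • 𝟙 N = 0 := ec_hom_ext_apply _ _ hN
  have h := F.map_nsmul p (𝟙 N) x
  rw [h0, F.map_zero, F.map_id] at h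
  exact h.symm

end EcCoFun

/-! ### The regular representation `Q = Map(U, F_p)` -/

section Regular

variable (p : ℕ) (U : Type) [Group U]

/-- the right regular representation on the functions `U → F_p`, over `ℤ` -/
def ecQ : Rep.{0} ℤ U :=
  Rep.of (X := U → ZMod p)
    { toFun := fun u =>
        { toFun := fun f x => f (x * u)
          map_add' := fun _ _ => rfl
          map_smul' := fun _ _ => rfl }
      map_one' := by ext f x; simp
      map_mul' := fun u v => by ext f x; simp [mul_assoc] }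

variable {p U}

lemma ecQ_ρ_apply (u : U) (f : U → ZMod p) (x : U) : (ecQ p U).ρ u f x = f (x * u) := rfl

end Regular

/-! ### Representations of commutative groups -/

section Comm

variable {U : Type} [CommGroup U]

/-- the action of an element of a commutative group, as an endomorphism -/
def ecRhoHom {k : Type} [CommRing k] (M : Rep.{0} k U) (u : U) : M ⟶ M :=
  Rep.ofHom ⟨M.ρ u, fun g => by
    ext x
    change M.ρ u (M.ρ g x) = M.ρ g (M.ρ u x)
    rw [← Module.End.mul_apply, ← Module.End.mul_apply, ← map_mul, ← map_mul, mul_comm]⟩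

@[simp] lemma ecRhoHom_apply {k : Type} [CommRing k] (M : Rep.{0} k U) (u : U) (x : M.V) :
    (ecRhoHom M u).hom x = M.ρ u x := rfl

lemma ecRhoHom_comm {k : Type} [CommRing k] {M M' : Rep.{0} k U} (f : M ⟶ M') (u : U) :
    ecRhoHom M u ≫ f = f ≫ ecRhoHom M' u :=
  ec_hom_ext_apply _ _ (fun x => Rep.hom_comm_apply f u x)

end Comm

/-! ### The maps `ρ_n : Q → N` and `σ_λ : N → Q` -/

section Theta

variable {p : ℕ} {U : Type} [CommGroup U] [Fintype U]
  (N : Rep.{0} ℤ U) (hN : ∀ n : N.V, p • n = 0)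

/-- the additive map `f ↦ Σ_x f(x) x⁻¹ n` -/
def ecRhoNFun (n : N.V) : (U → ZMod p) →+ N.V :=
  letI : Module (ZMod p) N.V := AddCommGroup.zmodModule hN
  { toFun := fun f => ∑ x : U, f x • N.ρ x⁻¹ n
    map_zero' := by simp
    map_add' := fun f g => by simp [add_smul, Finset.sum_add_distrib] }

lemma ecRhoNFun_apply (n : N.V) (f : U → ZMod p) :
    letI : Module (ZMod p) N.V := AddCommGroup.zmodModule hN
    ecRhoNFun N hN n f = ∑ x : U, f x • N.ρ x⁻¹ n := rfl

/-- `ρ_n : Q → N`, `f ↦ Σ_x f(x) x⁻¹ n` -/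
def ecRhoN (n : N.V) : ecQ p U ⟶ N :=
  ecMkHom (ecQ p U) N (ecIntLin (iV := (ecQ p U).hV2) (iW := N.hV2) (ecRhoNFun N hN n))
    (fun u (f : U → ZMod p) => by
      letI : Module (ZMod p) N.V := AddCommGroup.zmodModule hN
      change ∑ x : U, f (x * u) • N.ρ x⁻¹ n = N.ρ u (∑ x : U, f x • N.ρ x⁻¹ n)
      rw [map_sum]
      refine Fintype.sum_equiv (Equiv.mulRight u) _ _ (fun x => ?_)
      change f (x * u) • N.ρ x⁻¹ n = N.ρ u (f (x * u) • N.ρ (x * u)⁻¹ n)
      have h1 : ∀ (c : ZMod p) (y : N.V), N.ρ u (c • y) = c • N.ρ u y := fun c y =>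
        ZMod.map_smul (N.ρ u).toAddMonoidHom c y
      have h2 : u * (x * u)⁻¹ = x⁻¹ := by rw [mul_inv_rev, mul_inv_cancel_left]
      have h3 : N.ρ u (N.ρ (x * u)⁻¹ n) = N.ρ (u * (x * u)⁻¹) n := by
        rw [map_mul]
        rfl
      rw [h1, h3, h2])

lemma ecRhoN_apply (n : N.V) (f : U → ZMod p) :
    letI : Module (ZMod p) N.V := AddCommGroup.zmodModule hN
    (ecRhoN N hN n).hom f = ∑ x : U, f x • N.ρ x⁻¹ n := rfl

/-- `σ_λ : N → Q`, `n ↦ (x ↦ λ(x n))` -/
def ecSigmaL (l : N.V →+ ZMod p) : N ⟶ ecQ p U :=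
  ecMkHom N (ecQ p U) (ecIntLin (iV := N.hV2) (iW := (ecQ p U).hV2)
    { toFun := fun n x => l (N.ρ x n)
      map_zero' := by
        funext x
        change l (N.ρ x 0) = 0
        rw [map_zero, map_zero]
      map_add' := fun n n' => by
        funext x
        change l (N.ρ x (n + n')) = l (N.ρ x n) + l (N.ρ x n')
        rw [map_add, map_add] })
    (fun u n => by
      funext x
      change l (N.ρ x (N.ρ u n)) = l (N.ρ (x * u) n)
      rw [map_mul]
      rfl)

lemma ecSigmaL_apply (l : N.V →+ ZMod p) (n : N.V) (x : U) :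
    (ecSigmaL N l).hom n x = l (N.ρ x n) := rfl

/-! ### Identities between these maps -/

lemma ecRhoN_add (n n' : N.V) : ecRhoN N hN (n + n') = ecRhoN N hN n + ecRhoN N hN n' := by
  letI : Module (ZMod p) N.V := AddCommGroup.zmodModule hN
  refine ec_hom_ext_apply _ _ (fun (f : U → ZMod p) => ?_)
  change ∑ x : U, f x • N.ρ x⁻¹ (n + n') =
    (∑ x : U, f x • N.ρ x⁻¹ n) + ∑ x : U, f x • N.ρ x⁻¹ n'
  rw [← Finset.sum_add_distrib]
  refine Finset.sum_congr rfl (fun x _ => ?_)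
  rw [map_add, smul_add]

lemma ecRhoN_smul (u : U) (n : N.V) :
    ecRhoN N hN (N.ρ u n) = ecRhoHom (ecQ p U) u ≫ ecRhoN N hN n := by
  letI : Module (ZMod p) N.V := AddCommGroup.zmodModule hN
  refine ec_hom_ext_apply _ _ (fun (f : U → ZMod p) => ?_)
  have h := Rep.hom_comm_apply (ecRhoN N hN n) u f
  change (ecRhoN N hN (N.ρ u n)).hom f = (ecRhoN N hN n).hom ((ecQ p U).ρ u f)
  rw [h]
  change ∑ x : U, f x • N.ρ x⁻¹ (N.ρ u n) = N.ρ u (∑ x : U, f x • N.ρ x⁻¹ n)
  rw [map_sum]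
  refine Finset.sum_congr rfl (fun x _ => ?_)
  have h1 : ∀ (c : ZMod p) (y : N.V), N.ρ u (c • y) = c • N.ρ u y := fun c y =>
    ZMod.map_smul (N.ρ u).toAddMonoidHom c y
  have h3 : N.ρ u (N.ρ x⁻¹ n) = N.ρ x⁻¹ (N.ρ u n) := by
    change (N.ρ u * N.ρ x⁻¹) n = (N.ρ x⁻¹ * N.ρ u) n
    rw [← map_mul, ← map_mul, mul_comm]
  rw [h1, h3]

/-- evaluation of an element of `Q` -/
def ecQEval (p : ℕ) {U : Type} [CommGroup U] (x : U) : (ecQ p U).V →+ ZMod p :=
  Pi.evalAddMonoidHom (fun _ : U => ZMod p) x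

lemma ec_sum_rhoHom_Q_apply (c : U → ℕ) (f : (ecQ p U).V) (x : U) :
    ((∑ u : U, c u • ecRhoHom (ecQ p U) u).hom f : U → ZMod p) x =
      ∑ u : U, (c u : ZMod p) * (f : U → ZMod p) (x * u) := by
  rw [ec_sum_nsmul_hom_apply]
  change ecQEval p x (∑ u : U, c u • ((ecQ p U).ρ u f)) = _
  rw [map_sum]
  refine Finset.sum_congr rfl (fun u _ => ?_)
  rw [map_nsmul, nsmul_eq_mul]
  rfl

/-- `σ_λ ∘ ρ_n = Σ_u λ(u⁻¹ n) ρ_Q(u)` -/
lemma ecRhoN_comp_ecSigmaL [NeZero p] (n : N.V) (l : N.V →+ ZMod p) :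
    ecRhoN N hN n ≫ ecSigmaL N l =
      ∑ u : U, (l (N.ρ u⁻¹ n)).val • ecRhoHom (ecQ p U) u := by
  letI : Module (ZMod p) N.V := AddCommGroup.zmodModule hN
  refine ec_hom_ext_apply _ _ (fun (f : (ecQ p U).V) => ?_)
  funext x
  rw [ec_sum_rhoHom_Q_apply]
  change l (N.ρ x (∑ y : U, (f : U → ZMod p) y • N.ρ y⁻¹ n)) = _
  rw [map_sum, map_sum]
  refine (Fintype.sum_equiv (Equiv.mulLeft x) _ _ (fun u => ?_)).symm
  change ((l (N.ρ u⁻¹ n)).val : ZMod p) * (f : U → ZMod p) (x * u) =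
    l (N.ρ x ((f : U → ZMod p) (x * u) • N.ρ (x * u)⁻¹ n))
  have h1 : ∀ (c : ZMod p) (y : N.V), N.ρ x (c • y) = c • N.ρ x y := fun c y =>
    ZMod.map_smul (N.ρ x).toAddMonoidHom c y
  have h3 : N.ρ x (N.ρ (x * u)⁻¹ n) = N.ρ u⁻¹ n := by
    change (N.ρ x * N.ρ (x * u)⁻¹) n = _
    rw [← map_mul, mul_inv_rev, mul_comm u⁻¹, mul_inv_cancel_left]
  rw [h1, ZMod.map_smul l, h3, smul_eq_mul, ZMod.natCast_zmod_val, mul_comm]

lemma ec_zmod_smul_eq_val_nsmul {n : ℕ} [NeZero n] {M : Type*} [AddCommGroup M]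
    [Module (ZMod n) M] (c : ZMod n) (y : M) : c • y = c.val • y := by
  conv_lhs => rw [← ZMod.natCast_zmod_val c]
  exact Nat.cast_smul_eq_nsmul _ _ _

/-- `Σ_k ρ_{b_k} ∘ σ_{λ_k} = |U|` for a dual basis `(b_k, λ_k)` -/
lemma ec_sum_sigmaL_comp_rhoN [NeZero p] {ι : Type} [Fintype ι] (b : ι → N.V)
    (co : ι → N.V →+ ZMod p) (hb : ∀ n : N.V, ∑ k, (co k n).val • b k = n) :
    ∑ k, ecSigmaL N (co k) ≫ ecRhoN N hN (b k) = Fintype.card U • 𝟙 N := by
  letI : Module (ZMod p) N.V := AddCommGroup.zmodModule hN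
  refine ec_hom_ext_apply _ _ (fun n => ?_)
  have h0 : ∀ (s : Finset ι) (φ : ι → (N ⟶ N)) (x : N.V),
      (∑ i ∈ s, φ i).hom x = ∑ i ∈ s, (φ i).hom x := by
    intro s φ x
    have := ec_sum_nsmul_hom_apply s (fun _ => 1) φ x
    simpa using this
  rw [h0]
  have h1 : ∀ k, (ecSigmaL N (co k) ≫ ecRhoN N hN (b k)).hom n =
      ∑ x : U, N.ρ x⁻¹ ((co k (N.ρ x n)).val • b k) := by
    intro k
    change ∑ x : U, (co k (N.ρ x n)) • N.ρ x⁻¹ (b k) = _
    refine Finset.sum_congr rfl (fun x _ => ?_)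
    rw [ec_zmod_smul_eq_val_nsmul, map_nsmul]
  simp only [h1]
  rw [Finset.sum_comm]
  have h2 : ∀ x : U, ∑ k, N.ρ x⁻¹ ((co k (N.ρ x n)).val • b k) = n := by
    intro x
    rw [← map_sum, hb]
    change (N.ρ x⁻¹ * N.ρ x) n = n
    rw [← map_mul, inv_mul_cancel, map_one]
    rfl
  simp only [h2]
  rw [Finset.sum_const, Finset.card_univ]
  rfl

lemma ecRhoN_zero : ecRhoN N hN 0 = 0 := by
  have h := ecRhoN_add N hN 0 0
  rw [add_zero] at h
  exact left_eq_add.1 h

end Theta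

section ThetaMap

variable {p : ℕ} {U : Type} [CommGroup U] [Fintype U] (F : EcCoFun U)
  (N : Rep.{0} ℤ U) (hN : ∀ n : N.V, p • n = 0)

variable (p) in
/-- the `U`-equivariant homomorphisms `N → F(Q)` -/
def ecEquivHoms : AddSubgroup (N.V →+ F.X (ecQ p U)) where
  carrier := {φ | ∀ u n, φ (N.ρ u n) = F.map (ecRhoHom (ecQ p U) u) (φ n)}
  zero_mem' := fun u n => by simp
  add_mem' := fun {φ ψ} hφ hψ u n => by
    rw [AddMonoidHom.add_apply, AddMonoidHom.add_apply, hφ, hψ, map_add]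
  neg_mem' := fun {φ} hφ u n => by
    rw [AddMonoidHom.neg_apply, AddMonoidHom.neg_apply, hφ, map_neg]

lemma mem_ecEquivHoms (φ : N.V →+ F.X (ecQ p U)) :
    φ ∈ ecEquivHoms p F N ↔ ∀ u n, φ (N.ρ u n) = F.map (ecRhoHom (ecQ p U) u) (φ n) := Iff.rfl

/-- `Θ : F(N) → Hom_U(N, F(Q))`, `ξ ↦ (n ↦ F(ρ_n) ξ)` -/
def ecTheta : F.X N →+ ecEquivHoms p F N where
  toFun ξ := ⟨{ toFun := fun n => F.map (ecRhoN N hN n) ξ
                map_zero' := by rw [ecRhoN_zero, F.map_zero]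
                map_add' := fun n n' => by rw [ecRhoN_add, F.map_add] },
    fun u n => by
      change F.map (ecRhoN N hN (N.ρ u n)) ξ = F.map (ecRhoHom (ecQ p U) u) (F.map (ecRhoN N hN n) ξ)
      rw [ecRhoN_smul, F.map_comp]⟩
  map_zero' := by
    apply Subtype.ext
    apply AddMonoidHom.ext
    intro n
    change F.map (ecRhoN N hN n) 0 = 0
    rw [map_zero]
  map_add' := fun ξ ξ' => by
    apply Subtype.ext
    apply AddMonoidHom.ext
    intro n
    change F.map (ecRhoN N hN n) (ξ + ξ') = F.map (ecRhoN N hN n) ξ + F.map (ecRhoN N hN n) ξ'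
    rw [map_add]

lemma ecTheta_apply (ξ : F.X N) (n : N.V) :
    (ecTheta F N hN ξ : N.V →+ F.X (ecQ p U)) n = F.map (ecRhoN N hN n) ξ := rfl

/-- `|U| ξ = Σ_k F(σ_k) (Θ ξ (b_k))` -/
lemma ec_card_nsmul_eq_sum [NeZero p] {ι : Type} [Fintype ι] (b : ι → N.V)
    (co : ι → N.V →+ ZMod p) (hb : ∀ n : N.V, ∑ k, (co k n).val • b k = n) (ξ : F.X N) :
    Fintype.card U • ξ =
      ∑ k, F.map (ecSigmaL N (co k)) ((ecTheta F N hN ξ : N.V →+ F.X (ecQ p U)) (b k)) := by
  have h := congrArg (fun f => F.map f ξ) (ec_sum_sigmaL_comp_rhoN N hN b co hb)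
  rw [F.map_sum, F.map_nsmul, F.map_id] at h
  rw [← h]
  refine Finset.sum_congr rfl (fun k _ => ?_)
  rw [F.map_comp]
  rfl

/-- `Θ (Σ_k F(σ_k) (φ (b_k))) = |U| φ` -/
lemma ecTheta_sum_eq [NeZero p] {ι : Type} [Fintype ι] (b : ι → N.V)
    (co : ι → N.V →+ ZMod p) (hb : ∀ n : N.V, ∑ k, (co k n).val • b k = n)
    (φ : ecEquivHoms p F N) :
    ecTheta F N hN (∑ k, F.map (ecSigmaL N (co k)) ((φ : N.V →+ F.X (ecQ p U)) (b k))) =
      Fintype.card U • φ := by
  apply Subtype.ext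
  apply AddMonoidHom.ext
  intro n
  rw [ecTheta_apply, map_sum]
  have h1 : ∀ k, F.map (ecRhoN N hN n) (F.map (ecSigmaL N (co k))
      ((φ : N.V →+ F.X (ecQ p U)) (b k))) =
      ∑ u : U, (φ : N.V →+ F.X (ecQ p U)) (N.ρ u ((co k (N.ρ u⁻¹ n)).val • b k)) := by
    intro k
    rw [← F.map_comp, ecRhoN_comp_ecSigmaL, F.map_sum]
    refine Finset.sum_congr rfl (fun u _ => ?_)
    rw [F.map_nsmul, map_nsmul, map_nsmul, φ.2 u (b k)]
  simp only [h1]
  rw [Finset.sum_comm]
  have h2 : ∀ u : U, ∑ k, (φ : N.V →+ F.X (ecQ p U)) (N.ρ u ((co k (N.ρ u⁻¹ n)).val • b k)) =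
      (φ : N.V →+ F.X (ecQ p U)) n := by
    intro u
    rw [← map_sum, ← map_sum, hb]
    congr 1
    change (N.ρ u * N.ρ u⁻¹) n = n
    rw [← map_mul, mul_inv_cancel, map_one]
    rfl
  simp only [h2]
  rw [Finset.sum_const, Finset.card_univ]
  rfl

include hN in
lemma ec_exists_dual_basis [Fact p.Prime] [Finite N.V] :
    ∃ (ι : Type) (_ : Fintype ι) (b : ι → N.V) (co : ι → N.V →+ ZMod p),
      ∀ n : N.V, ∑ k, (co k n).val • b k = n := by
  obtain ⟨inst⟩ : Nonempty (Module (ZMod p) N.V) := ⟨AddCommGroup.zmodModule hN⟩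
  let B := Module.Basis.ofVectorSpace (ZMod p) N.V
  haveI : Finite (Module.Basis.ofVectorSpaceIndex (ZMod p) N.V) := Subtype.finite
  letI : Fintype (Module.Basis.ofVectorSpaceIndex (ZMod p) N.V) := Fintype.ofFinite _
  refine ⟨Module.Basis.ofVectorSpaceIndex (ZMod p) N.V, inferInstance, ⇑B,
    fun k => (B.coord k).toAddMonoidHom, fun n => ?_⟩
  have h := B.sum_repr n
  conv_rhs => rw [← h]
  refine Finset.sum_congr rfl (fun k _ => ?_)
  rw [← ec_zmod_smul_eq_val_nsmul]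
  rfl

theorem ecTheta_bijective [Fact p.Prime] [Finite N.V] (hU : (Fintype.card U).Coprime p) :
    Function.Bijective (ecTheta F N hN) := by
  haveI : NeZero p := ⟨(Fact.out : p.Prime).ne_zero⟩
  obtain ⟨ι, _, b, co, hb⟩ := ec_exists_dual_basis N hN
  constructor
  · refine (injective_iff_map_eq_zero _).2 (fun ξ hξ => ?_)
    have h1 : Fintype.card U • ξ = 0 := by
      rw [ec_card_nsmul_eq_sum F N hN b co hb ξ, hξ]
      simp
    have h2 : p • ξ = 0 := F.nsmul_eq_zero p N hN ξ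
    have h3 : addOrderOf ξ ∣ Nat.gcd (Fintype.card U) p :=
      Nat.dvd_gcd (addOrderOf_dvd_iff_nsmul_eq_zero.2 h1) (addOrderOf_dvd_iff_nsmul_eq_zero.2 h2)
    rw [hU.gcd_eq_one, Nat.dvd_one] at h3
    exact AddMonoid.addOrderOf_eq_one_iff.1 h3
  · intro φ
    obtain ⟨m, -, hm⟩ := Nat.exists_mul_mod_eq_one_of_coprime hU (Fact.out : p.Prime).one_lt
    refine ⟨m • ∑ k, F.map (ecSigmaL N (co k)) ((φ : N.V →+ F.X (ecQ p U)) (b k)), ?_⟩
    rw [map_nsmul, ecTheta_sum_eq F N hN b co hb φ, ← mul_nsmul]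
    have h1 : Fintype.card U * m = p * (Fintype.card U * m / p) + 1 := by
      have := Nat.div_add_mod (Fintype.card U * m) p
      rw [hm] at this
      exact this.symm
    rw [h1, add_nsmul, one_nsmul, mul_nsmul]
    have h2 : p • φ = 0 := by
      apply Subtype.ext
      apply AddMonoidHom.ext
      intro n
      change p • (φ : N.V →+ F.X (ecQ p U)) n = 0
      refine F.nsmul_eq_zero p (ecQ p U) (fun f => ?_) _
      funext x
      change p • (f : U → ZMod p) x = 0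
      rw [nsmul_eq_mul, ZMod.natCast_self, zero_mul]
    rw [h2, smul_zero, zero_add]

include hN in
/-- **Θ-lemma**, counting form: if `F(Q) ≅ Z` equivariantly, then `|F(N)| = |Hom_U(N, Z)|`. -/
theorem ec_card_eq_card_equivariant [Fact p.Prime] [Finite N.V]
    (hU : (Fintype.card U).Coprime p) {Z : Type} [AddCommGroup Z] (act : U → Z →+ Z)
    (e : F.X (ecQ p U) ≃+ Z)
    (he : ∀ u x, e (F.map (ecRhoHom (ecQ p U) u) x) = act u (e x)) :
    Nat.card (F.X N) = Nat.card {φ : N.V →+ Z // ∀ u n, φ (N.ρ u n) = act u (φ n)} := by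
  refine (Nat.card_congr (Equiv.ofBijective _ (ecTheta_bijective F N hN hU))).trans ?_
  refine Nat.card_congr
    { toFun := fun φ => ⟨e.toAddMonoidHom.comp φ.1, fun u n => ?_⟩
      invFun := fun ψ => ⟨e.symm.toAddMonoidHom.comp ψ.1, fun u n => ?_⟩
      left_inv := fun φ => ?_
      right_inv := fun ψ => ?_ }
  · change e ((φ : N.V →+ F.X (ecQ p U)) (N.ρ u n)) = act u (e ((φ : N.V →+ F.X (ecQ p U)) n))
    rw [φ.2 u n, he]
  · change e.symm (ψ.1 (N.ρ u n)) = F.map (ecRhoHom (ecQ p U) u) (e.symm (ψ.1 n))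
    apply e.injective
    rw [he, e.apply_symm_apply, e.apply_symm_apply, ψ.2 u n]
  · apply Subtype.ext
    apply AddMonoidHom.ext
    intro n
    exact e.symm_apply_apply _
  · apply Subtype.ext
    apply AddMonoidHom.ext
    intro n
    exact e.apply_symm_apply _

end ThetaMap



end

end Fermat.Agent.TW
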