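/-
G4 (Euler characteristic): the integral regular representation `Q_ℤ = Map(U, ℤ)`, its reduction
`Q_ℤ → Q = Map(U, F_p)`, the Bockstein sequence `0 → Q_ℤ → Q_ℤ → Q → 0`, and the morphisms out of
`Q_ℤ` (freeness on the delta function at `1`).
-/
import Fermat.Agent.Lib.TW.Euler.Theta
import Fermat.Agent.Lib.CFT.Coh.AugRep

set_option autoImplicit false
set_option linter.unusedSectionVars false
set_option linter.style.haveILetI false

open CategoryTheory

namespace Fermat.Agent.TW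

noncomputable section

section QZ

variable (U : Type) [Group U]

/-- the right regular representation on the functions `U → ℤ` -/
def ecQZ : Rep.{0} ℤ U :=
  Rep.of (X := U → ℤ)
    { toFun := fun u =>
        { toFun := fun f x => f (x * u)
          map_add' := fun _ _ => rfl
          map_smul' := fun _ _ => rfl }
      map_one' := by ext f x; simp
      map_mul' := fun u v => by ext f x; simp [mul_assoc] }

variable {U}

lemma ecQZ_ρ_apply (u : U) (f : U → ℤ) (x : U) : (ecQZ U).ρ u f x = f (x * u) := rfl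

variable (U)

open scoped Classical in
/-- the delta function at `1` -/
def ecQZOne : (ecQZ U).V := fun x => if x = 1 then 1 else 0

/-- evaluation of an element of `Q_ℤ` -/
def ecQZEval (x : U) : (ecQZ U).V →+ ℤ := Pi.evalAddMonoidHom (fun _ : U => ℤ) x

variable {U}

lemma ecQZEval_apply (x : U) (f : U → ℤ) : ecQZEval U x f = f x := rfl

open scoped Classical in
lemma ecQZEval_ρ_one (x y : U) : ecQZEval U y ((ecQZ U).ρ x⁻¹ (ecQZOne U)) = if y = x then 1 else 0 := by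
  change (if y * x⁻¹ = 1 then (1 : ℤ) else 0) = _
  simp only [mul_inv_eq_one]

open scoped Classical in
/-- `f = Σ_x f(x) x⁻¹ δ_1` -/
lemma ecQZ_eq_sum [Fintype U] (f : (ecQZ U).V) :
    f = ∑ x : U, ecQZEval U x f • (ecQZ U).ρ x⁻¹ (ecQZOne U) := by
  funext y
  change ecQZEval U y f = ecQZEval U y (∑ x : U, ecQZEval U x f • (ecQZ U).ρ x⁻¹ (ecQZOne U))
  rw [map_sum]
  simp only [map_zsmul, ecQZEval_ρ_one]
  rw [Finset.sum_eq_single y]
  · simp
  · intro x _ hx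
    rw [if_neg (Ne.symm hx), smul_zero]
  · intro h
    exact absurd (Finset.mem_univ y) h

/-- morphisms out of `Q_ℤ` (inflated along a surjection) are determined by the image of `δ_1` -/
theorem ec_QZ_hom_ext [Fintype U] {G : Type} [Group G] (π : G →* U) (hπ : Function.Surjective π)
    {Z : Rep.{0} ℤ G} (ψ ψ' : Rep.res π (ecQZ U) ⟶ Z)
    (h : ψ.hom (ecQZOne U) = ψ'.hom (ecQZOne U)) : ψ = ψ' := by
  refine ec_hom_ext_apply _ _ (fun (f : (ecQZ U).V) => ?_)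
  have key : ∀ χ : Rep.res π (ecQZ U) ⟶ Z, ∀ x : U,
      χ.hom ((ecQZ U).ρ x⁻¹ (ecQZOne U)) = Z.ρ (Classical.choose (hπ x⁻¹)) (χ.hom (ecQZOne U)) := by
    intro χ x
    have h1 := Rep.hom_comm_apply χ (Classical.choose (hπ x⁻¹)) (ecQZOne U)
    rw [← h1]
    change _ = χ.hom ((ecQZ U).ρ (π (Classical.choose (hπ x⁻¹))) (ecQZOne U))
    rw [Classical.choose_spec (hπ x⁻¹)]
  conv_lhs => rw [ecQZ_eq_sum f]
  conv_rhs => rw [ecQZ_eq_sum f]
  rw [map_sum, map_sum]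
  refine Finset.sum_congr rfl (fun x _ => ?_)
  rw [map_zsmul, map_zsmul, key ψ x, key ψ' x, h]

end QZ

section RhoZ

variable {U : Type} [Group U] [Fintype U]

/-- the additive map `f ↦ Σ_x f(x) x⁻¹ z` -/
def ecRhoZFun (Z : Rep.{0} ℤ U) (z : Z.V) : (U → ℤ) →+ Z.V where
  toFun := fun f => ∑ x : U, f x • Z.ρ x⁻¹ z
  map_zero' := by simp
  map_add' := fun f g => by simp [add_smul, Finset.sum_add_distrib]

/-- the morphism `Q_ℤ → Z`, `f ↦ Σ_x f(x) x⁻¹ z`, where `Q_ℤ` is inflated along a homomorphism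
`π : U → U` which is the identity -/
def ecRhoZ (π : U →* U) (hπ : ∀ g, π g = g) (Z : Rep.{0} ℤ U) (z : Z.V) :
    Rep.res π (ecQZ U) ⟶ Z :=
  ecMkHom (Rep.res π (ecQZ U)) Z
    (ecIntLin (iV := (Rep.res π (ecQZ U)).hV2) (iW := Z.hV2) (ecRhoZFun Z z))
    (fun u (f : U → ℤ) => by
      change ∑ x : U, f (x * π u) • Z.ρ x⁻¹ z = Z.ρ u (∑ x : U, f x • Z.ρ x⁻¹ z)
      rw [map_sum, hπ]
      refine Fintype.sum_equiv (Equiv.mulRight u) _ _ (fun x => ?_)
      change f (x * u) • Z.ρ x⁻¹ z = Z.ρ u (f (x * u) • Z.ρ (x * u)⁻¹ z)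
      have h2 : u * (x * u)⁻¹ = x⁻¹ := by rw [mul_inv_rev, mul_inv_cancel_left]
      have h3 : Z.ρ u (Z.ρ (x * u)⁻¹ z) = Z.ρ (u * (x * u)⁻¹) z := by
        rw [map_mul]
        rfl
      rw [map_zsmul, h3, h2])

lemma ecRhoZ_apply (π : U →* U) (hπ : ∀ g, π g = g) (Z : Rep.{0} ℤ U) (z : Z.V) (f : U → ℤ) :
    (ecRhoZ π hπ Z z).hom f = ∑ x : U, f x • Z.ρ x⁻¹ z := rfl

open scoped Classical in
lemma ecRhoZ_one (π : U →* U) (hπ : ∀ g, π g = g) (Z : Rep.{0} ℤ U) (z : Z.V) :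
    (ecRhoZ π hπ Z z).hom (ecQZOne U) = z := by
  change ∑ x : U, (ecQZOne U : U → ℤ) x • Z.ρ x⁻¹ z = z
  rw [Finset.sum_eq_single 1]
  · change (if (1 : U) = 1 then (1 : ℤ) else 0) • Z.ρ 1⁻¹ z = z
    rw [if_pos rfl, one_smul, inv_one, map_one]
    rfl
  · intro x _ hx
    change (if x = 1 then (1 : ℤ) else 0) • Z.ρ x⁻¹ z = 0
    rw [if_neg hx, zero_smul]
  · intro h
    exact absurd (Finset.mem_univ _) h

lemma ecRhoZ_add (π : U →* U) (hπ : ∀ g, π g = g) (Z : Rep.{0} ℤ U) (z z' : Z.V) :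
    ecRhoZ π hπ Z (z + z') = ecRhoZ π hπ Z z + ecRhoZ π hπ Z z' := by
  refine ec_QZ_hom_ext π (fun x => ⟨x, hπ x⟩) _ _ ?_
  change _ = (ecRhoZ π hπ Z z).hom (ecQZOne U) + (ecRhoZ π hπ Z z').hom (ecQZOne U)
  rw [ecRhoZ_one, ecRhoZ_one, ecRhoZ_one]

end RhoZ

section Red

variable (p : ℕ) (U : Type) [Group U]

/-- reduction modulo `p`, `Q_ℤ → Q` -/
def ecQZRed : ecQZ U ⟶ ecQ p U :=
  ecMkHom (ecQZ U) (ecQ p U) (ecIntLin (iV := (ecQZ U).hV2) (iW := (ecQ p U).hV2)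
    { toFun := fun f x => ((f x : ℤ) : ZMod p)
      map_zero' := by
        funext x
        change (((0 : ℤ) : ℤ) : ZMod p) = 0
        simp
      map_add' := fun f g => by
        funext x
        change (((f x + g x : ℤ)) : ZMod p) = (f x : ZMod p) + (g x : ZMod p)
        push_cast
        rfl })
    (fun u f => rfl)

lemma ecQZRed_apply (f : U → ℤ) (x : U) : (ecQZRed p U).hom f x = ((f x : ℤ) : ZMod p) := rfl

lemma ecQZ_nsmul_comp_red : (p • 𝟙 (ecQZ U)) ≫ ecQZRed p U = 0 := by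
  refine ec_hom_ext_apply _ _ (fun (f : U → ℤ) => ?_)
  funext x
  change (((p • f) x : ℤ) : ZMod p) = 0
  rw [Pi.smul_apply, nsmul_eq_mul]
  push_cast
  rw [ZMod.natCast_self, zero_mul]

/-- the Bockstein sequence `0 → Q_ℤ → Q_ℤ → Q → 0` -/
theorem ecQZ_shortExact [NeZero p] :
    (ShortComplex.mk (p • 𝟙 (ecQZ U)) (ecQZRed p U) (ecQZ_nsmul_comp_red p U)).ShortExact := by
  refine Fermat.Agent.CFT.Coh.shortExact_of_functions ?_ ?_ ?_
  · intro (f : U → ℤ) (g : U → ℤ) hfg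
    change p • f = p • g at hfg
    funext x
    have h := congrFun hfg x
    rw [Pi.smul_apply, Pi.smul_apply, nsmul_eq_mul, nsmul_eq_mul] at h
    exact mul_left_cancel₀ (by exact_mod_cast NeZero.ne p) h
  · intro (f : U → ZMod p)
    refine ⟨fun x => ((f x).val : ℤ), ?_⟩
    funext x
    change (((f x).val : ℤ) : ZMod p) = f x
    simp
  · intro (f : U → ℤ) hf
    have h : ∀ x, (p : ℤ) ∣ f x := fun x => by
      have := congrFun hf x
      exact (ZMod.intCast_zmod_eq_zero_iff_dvd _ _).1 this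
    refine ⟨fun x => f x / p, ?_⟩
    funext x
    change p • (f x / (p : ℤ)) = f x
    rw [nsmul_eq_mul]
    exact Int.mul_ediv_cancel' (h x)

end Red

section CommAct

variable (p : ℕ) {U : Type} [CommGroup U]

lemma ecRhoHom_comp_ecQZRed (u : U) :
    ecRhoHom (ecQZ U) u ≫ ecQZRed p U = ecQZRed p U ≫ ecRhoHom (ecQ p U) u :=
  ec_hom_ext_apply _ _ (fun _ => rfl)

lemma ecRhoHom_comp_nsmul (u : U) :
    ecRhoHom (ecQZ U) u ≫ (p • 𝟙 (ecQZ U)) = (p • 𝟙 (ecQZ U)) ≫ ecRhoHom (ecQZ U) u :=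
  ec_hom_ext_apply _ _ (fun _ => rfl)

lemma ecRhoZ_smul [Fintype U] (π : U →* U) (hπ : ∀ g, π g = g) (Z : Rep.{0} ℤ U) (z : Z.V)
    (u : U) :
    (Rep.resFunctor π).map (ecRhoHom (ecQZ U) u) ≫ ecRhoZ π hπ Z z =
      ecRhoZ π hπ Z (Z.ρ u z) := by
  refine ec_QZ_hom_ext π (fun x => ⟨x, hπ x⟩) _ _ ?_
  rw [ecRhoZ_one]
  change (ecRhoZ π hπ Z z).hom ((ecQZ U).ρ u (ecQZOne U)) = _
  have h := Rep.hom_comm_apply (ecRhoZ π hπ Z z) u (ecQZOne U)
  rw [ecRhoZ_one] at h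
  rw [← h]
  change _ = (ecRhoZ π hπ Z z).hom ((ecQZ U).ρ (π u) (ecQZOne U))
  rw [hπ]

end CommAct

end

end Fermat.Agent.TW
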