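/-
G4 (Euler characteristic), equivariant Kummer sequence, part 1: over a tower `T` with a bottom level
`b` and a tower module `B` with Galois descent, the functor `M ↦ ExtLim (inflFrom b hb M) B r` on
the integral representations of `U = T.G b`; the identification `Ext⁰(Q_ℤ, B) = B_b` for the regular
representation `Q_ℤ = Map(U, ℤ)` (equivariantly), and `Ext¹(Q_ℤ, B)[p] = 0` (Shapiro + Hilbert 90).
-/
import Fermat.Agent.Lib.TW.Euler.Regular
import Fermat.Agent.Lib.TW.Euler.TorCot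
import Fermat.Agent.Lib.TW.Euler.ExtE

set_option autoImplicit false
set_option linter.unusedSectionVars false
set_option linter.unusedVariables false
set_option linter.style.haveILetI false

open CategoryTheory CategoryTheory.Abelian

namespace Fermat.Agent.TW

open Fermat.Agent.CFT Fermat.Agent.CFT.Duality Fermat.Agent.CFT.Duality.TowerModule

noncomputable section

section Lifts

variable (p : ℕ) {R : Type} [CommRing R] {G : Type} [Group G] (X : Rep.{0} R G)

/-- an additive map into `X` with `p`-torsion values, as a map into `X[p]` -/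
def ecTorLift {W : Type} [AddCommGroup W] (f : W →+ X.V) (hf : ∀ w, p • f w = 0) :
    W →+ (ecTor p X).V :=
  f.codRestrict (LinearMap.ker (ecPMul p X))
    (fun w => LinearMap.mem_ker.2 (by rw [ecPMul_apply]; exact hf w))

lemma ecTorVal_ecTorLift {W : Type} [AddCommGroup W] (f : W →+ X.V) (hf : ∀ w, p • f w = 0)
    (w : W) : ecTorVal p X (ecTorLift p X f hf w) = f w := rfl

/-- an additive map out of `X` killing `p X`, as a map out of `X / p X` -/
def ecCotLift {W : Type} [AddCommGroup W] (f : X.V →+ W) (hf : ∀ x, f (p • x) = 0) :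
    (ecCot p X).V →+ W :=
  QuotientAddGroup.lift (LinearMap.range (ecPMul p X)).toAddSubgroup f
    (by
      rintro _ ⟨x, rfl⟩
      rw [AddMonoidHom.mem_ker, ecPMul_apply]
      exact hf x)

lemma ecCotLift_ecCotMk {W : Type} [AddCommGroup W] (f : X.V →+ W) (hf : ∀ x, f (p • x) = 0)
    (x : X.V) : ecCotLift p X f hf (ecCotMk p X x) = f x := rfl

end Lifts


/-- naturality of the connecting map in the first variable -/
theorem ec_compLeft_δ_natural {k : Type} [CommRing k] {T : Tower}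
    {B₁ B₂ B₃ B₁' B₂' B₃' : TowerModule k T} [B₁.IsCartesian] [B₂.IsCartesian] [B₃.IsCartesian]
    [B₁'.IsCartesian] [B₂'.IsCartesian] [B₃'.IsCartesian]
    (S : ShortExact B₁ B₂ B₃) (S' : ShortExact B₁' B₂' B₃')
    (a₁ : B₁.Hom B₁') (a₂ : B₂.Hom B₂') (a₃ : B₃.Hom B₃')
    (h₁₂ : ∀ j, a₁.f j ≫ S'.f.f j = S.f.f j ≫ a₂.f j)
    (h₂₃ : ∀ j, a₂.f j ≫ S'.g.f j = S.g.f j ≫ a₃.f j)
    (Y : TowerModule k T) {n₀ n₁ : ℕ} (h : 1 + n₀ = n₁) (x : ExtLim B₁' Y n₀) :
    ExtLim.compLeft Y S.δ n₀ n₁ h (ExtLim.mapLeft Y a₁ n₀ x) =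
      ExtLim.mapLeft Y a₃ n₁ (ExtLim.compLeft Y S'.δ n₀ n₁ h x) := by
  induction x using ExtLim.induction_on with
  | h j ξ =>
    rw [ExtLim.mapLeft_of, ExtLim.compLeft_of, ExtLim.compLeft_of, ExtLim.mapLeft_of]
    congr 1
    have hnat := ShortComplex.ShortExact.extClass_naturality (S.exact j) (S'.exact j)
      (ShortComplex.Hom.mk (a₁.f j) (a₂.f j) (a₃.f j) (h₁₂ j) (h₂₃ j))
    change (S.exact j).extClass.comp ((Ext.mk₀ (a₁.f j)).comp ξ (zero_add n₀)) h =
      (Ext.mk₀ (a₃.f j)).comp ((S'.exact j).extClass.comp ξ h) (zero_add n₁)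
    rw [← Ext.comp_assoc _ _ _ (add_zero 1) (zero_add n₀) (by omega)]
    change ((S.exact j).extClass.comp (Ext.mk₀ (a₁.f j)) (add_zero 1)).comp ξ h = _
    rw [hnat, Ext.comp_assoc _ _ _ (zero_add 1) h (by omega)]


section Fun

variable {T : Tower} (b : T.ι) (hb : ∀ i, b ≤ i) (B : TowerModule ℤ T)

lemma ec_extTrans_mk₀ {k : Type} [CommRing k] (A B : TowerModule k T) [A.IsCartesian] {i j : T.ι}
    (h : i ≤ j) (a : A.C i ⟶ B.C i) :
    extTrans A B 0 h (Ext.mk₀ a) =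
      Ext.mk₀ (inv (A.φ h) ≫ (Rep.resFunctor (T.π h)).map a ≫ B.φ h) := by
  unfold extTrans
  rw [extPull_apply, Ext.mapExactFunctor_mk₀, Ext.mk₀_comp_mk₀, Ext.mk₀_comp_mk₀]

/-- the contravariant functor `M ↦ ExtLim (inflFrom b hb M) B r` -/
def ecExtFun (r : ℕ) : EcCoFun (T.G b) where
  X M := ExtLim (inflFrom b hb M) B r
  map f := ExtLim.mapLeft B (inflFromHom b hb f) r
  map_id M x := by
    have h : inflFromHom b hb (𝟙 M) = Hom.id (inflFrom b hb M) := Hom.ext' (fun l => rfl)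
    rw [h, ExtLim.mapLeft_id]
  map_comp f g x := by
    have h : inflFromHom b hb (f ≫ g) = (inflFromHom b hb f).comp (inflFromHom b hb g) :=
      Hom.ext' (fun l => rfl)
    rw [h, ExtLim.mapLeft_comp]
  map_add f g x := by
    induction x using ExtLim.induction_on with
    | h j ξ =>
      rw [ExtLim.mapLeft_of, ExtLim.mapLeft_of, ExtLim.mapLeft_of, ← map_add]
      congr 1
      have h : (inflFromHom b hb (f + g)).f j =
          (inflFromHom b hb f).f j + (inflFromHom b hb g).f j :=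
        Functor.map_add (F := Rep.resFunctor (T.π (hb j)))
      rw [h, Ext.mk₀_add, Ext.add_comp]

lemma ecExtFun_map (r : ℕ) {M M' : Rep.{0} ℤ (T.G b)} (f : M ⟶ M')
    (x : ExtLim (inflFrom b hb M') B r) :
    (ecExtFun b hb B r).map f x = ExtLim.mapLeft B (inflFromHom b hb f) r x := rfl

lemma ec_mapLeft_inflFromHom_comp (r : ℕ) {M M' M'' : Rep.{0} ℤ (T.G b)} (f : M ⟶ M')
    (g : M' ⟶ M'') (x : ExtLim (inflFrom b hb M'') B r) :
    ExtLim.mapLeft B (inflFromHom b hb (f ≫ g)) r x =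
      ExtLim.mapLeft B (inflFromHom b hb f) r (ExtLim.mapLeft B (inflFromHom b hb g) r x) :=
  (ecExtFun b hb B r).map_comp f g x

lemma ec_mapLeft_inflFromHom_nsmul_id (r : ℕ) (n : ℕ) (M : Rep.{0} ℤ (T.G b))
    (x : ExtLim (inflFrom b hb M) B r) :
    ExtLim.mapLeft B (inflFromHom b hb (n • 𝟙 M)) r x = n • x := by
  have h := (ecExtFun b hb B r).map_nsmul n (𝟙 M) x
  have h2 := (ecExtFun b hb B r).map_id M x
  exact h.trans (congrArg (fun y => n • y) h2)

lemma ec_extLim_inflFrom_killed (r : ℕ) (n : ℕ) (M : Rep.{0} ℤ (T.G b))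
    (hM : ∀ m : M.V, n • m = 0) (x : ExtLim (inflFrom b hb M) B r) : n • x = 0 :=
  (ecExtFun b hb B r).nsmul_eq_zero n M hM x

end Fun

/-- a commutative group structure from a proof of commutativity -/
abbrev ecCommGroup {U : Type} [inst : Group U] (hc : ∀ x y : U, x * y = y * x) : CommGroup U :=
  { inst with mul_comm := hc }

section Psi

variable {T : Tower} (b : T.ι) (hb : ∀ i, b ≤ i) (B : TowerModule ℤ T) [Fintype (T.G b)]

/-- the morphism `Q_ℤ → B_b`, `f ↦ Σ_x f(x) x⁻¹ z`, at the bottom level -/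
def ecRhoZB (z : (B.C b).V) : (inflFrom b hb (ecQZ (T.G b))).C b ⟶ B.C b :=
  ecRhoZ (T.π (hb b)) (T.π_refl b) (B.C b) z

lemma ecRhoZB_one (z : (B.C b).V) :
    (ecRhoZB b hb B z).hom (ecQZOne (T.G b) : ((inflFrom b hb (ecQZ (T.G b))).C b).V) = z :=
  ecRhoZ_one _ _ _ _

lemma ecRhoZB_add (z z' : (B.C b).V) :
    ecRhoZB b hb B (z + z') = ecRhoZB b hb B z + ecRhoZB b hb B z' :=
  ecRhoZ_add _ _ _ _ _

lemma ecRhoZB_zero : ecRhoZB b hb B 0 = 0 := by
  have h := ecRhoZB_add b hb B 0 0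
  rw [add_zero] at h
  exact left_eq_add.1 h

/-- `Ψ : B_b → Ext⁰(Q_ℤ, B)`, `z ↦ (f ↦ Σ_x f(x) x⁻¹ z)` -/
def ecPsi : (B.C b).V →+ ExtLim (inflFrom b hb (ecQZ (T.G b))) B 0 where
  toFun z := ExtLim.of (inflFrom b hb (ecQZ (T.G b))) B 0 b (Ext.mk₀ (ecRhoZB b hb B z))
  map_zero' := by rw [ecRhoZB_zero, Ext.mk₀_zero, map_zero]
  map_add' z z' := by rw [ecRhoZB_add, Ext.mk₀_add, map_add]

lemma ecPsi_apply (z : (B.C b).V) :
    ecPsi b hb B z = ExtLim.of (inflFrom b hb (ecQZ (T.G b))) B 0 b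
      (Ext.mk₀ (ecRhoZB b hb B z)) := rfl

lemma ec_inflFrom_inv_φ_apply (M : Rep.{0} ℤ (T.G b)) {i j : T.ι} (h : i ≤ j)
    (x : ((inflFrom b hb M).C j).V) :
    (inv ((inflFrom b hb M).φ h)).hom x = x := by
  apply (inflFrom b hb M).φ_injective h
  rw [(inflFrom b hb M).φ_inv_φ h]
  rfl

/-- the delta function at level `i` -/
def ecOneAt (i : T.ι) : ((inflFrom b hb (ecQZ (T.G b))).C i).V := ecQZOne (T.G b)

lemma ec_trans_rhoZB_one {l : T.ι} (hbl : b ≤ l) (z : (B.C b).V) :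
    (inv ((inflFrom b hb (ecQZ (T.G b))).φ hbl) ≫
      (Rep.resFunctor (T.π hbl)).map (ecRhoZB b hb B z) ≫ B.φ hbl).hom (ecOneAt b hb l) =
      (B.φ hbl).hom z := by
  change (B.φ hbl).hom ((ecRhoZB b hb B z).hom
    ((inv ((inflFrom b hb (ecQZ (T.G b))).φ hbl)).hom (ecOneAt b hb l))) = _
  rw [ec_inflFrom_inv_φ_apply]
  exact congrArg _ (ecRhoZB_one b hb B z)

theorem ecPsi_injective (hB : B.HasDescent) : Function.Injective (ecPsi b hb B) := by
  rw [injective_iff_map_eq_zero]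
  intro z hz
  rw [ecPsi_apply] at hz
  obtain ⟨l, hbl, hl⟩ := ExtLim.of_eq_zero (inflFrom b hb (ecQZ (T.G b))) B 0 hz
  rw [ec_extTrans_mk₀, Ext.mk₀_eq_zero_iff] at hl
  have h1 := ec_trans_rhoZB_one b hb B hbl z
  rw [hl] at h1
  exact hB.injective hbl (h1.symm.trans (map_zero _).symm)

theorem ecPsi_surjective (hB : B.HasDescent) : Function.Surjective (ecPsi b hb B) := by
  intro x
  induction x using ExtLim.induction_on with
  | h i ξ =>
    obtain ⟨ψ, rfl⟩ := (Ext.mk₀_bijective _ _).2 ξ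
    have hfix : ∀ g : T.G i, T.π (hb i) g = 1 →
        (B.C i).ρ g (ψ.hom (ecOneAt b hb i)) = ψ.hom (ecOneAt b hb i) := by
      intro g hg
      rw [← Rep.hom_comm_apply ψ g (ecOneAt b hb i)]
      congr 1
      change (ecQZ (T.G b)).ρ (T.π (hb i) g) (ecQZOne (T.G b)) = _
      rw [hg, map_one]
      rfl
    obtain ⟨z, hz⟩ := hB.surjective (hb i) _ hfix
    refine ⟨z, ?_⟩
    rw [ecPsi_apply, ← ExtLim.of_trans _ B 0 (hb i), ec_extTrans_mk₀]
    congr 2
    refine ec_QZ_hom_ext (T.π (hb i)) (T.π_surjective (hb i)) _ _ ?_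
    exact (ec_trans_rhoZB_one b hb B (hb i) z).trans hz

/-- `Ψ` is equivariant -/
theorem ecPsi_smul (hc : ∀ x y : T.G b, x * y = y * x) (u : T.G b) (z : (B.C b).V) :
    ExtLim.mapLeft B (inflFromHom b hb
      (@ecRhoHom (T.G b) (ecCommGroup hc) ℤ _ (ecQZ (T.G b)) u)) 0
      (ecPsi b hb B z) = ecPsi b hb B ((B.C b).ρ u z) := by
  letI : CommGroup (T.G b) := ecCommGroup hc
  rw [ecPsi_apply, ExtLim.mapLeft_of, ecPsi_apply, Ext.mk₀_comp_mk₀]
  congr 2
  exact ecRhoZ_smul (T.π (hb b)) (T.π_refl b) (B.C b) z u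

end Psi


section Shapiro

variable {T : Tower} (b : T.ι) (hb : ∀ i, b ≤ i) (B : TowerModule ℤ T)

/-- `f ↦ f ∘ π`, as an additive map `Q_ℤ → coind_{U_i}^{G_i} ℤ` -/
def ecToCoindFun (i : T.ι) :
    (T.G b → ℤ) →+ (((triv ℤ (T.sub b ⊥)).coindUp b hb ⊥).C i).V where
  toFun f := ⟨fun g => f (T.π (hb i) g), fun u g => by
    change f (T.π (hb i) (u.1 * g)) = f (T.π (hb i) g)
    have hu : T.π (hb i) u.1 = 1 := u.2
    rw [map_mul, hu, one_mul]⟩
  map_zero' := rfl
  map_add' _ _ := rfl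

/-- `Q_ℤ ≅ coind ℤ` as tower modules -/
def ecToCoind : (inflFrom b hb (ecQZ (T.G b))).Hom ((triv ℤ (T.sub b ⊥)).coindUp b hb ⊥) where
  f i := ecMkHom ((inflFrom b hb (ecQZ (T.G b))).C i) (((triv ℤ (T.sub b ⊥)).coindUp b hb ⊥).C i)
    (ecIntLin (iV := ((inflFrom b hb (ecQZ (T.G b))).C i).hV2)
      (iW := (((triv ℤ (T.sub b ⊥)).coindUp b hb ⊥).C i).hV2) (ecToCoindFun b hb i))
    (fun g' f => by
      apply Subtype.ext
      funext g
      change (f : T.G b → ℤ) (T.π (hb i) g * T.π (hb i) g') = (f : T.G b → ℤ) (T.π (hb i) (g * g'))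
      rw [map_mul])
  comm {i j} h := by
    refine ec_hom_ext_apply _ _ (fun f => ?_)
    apply Subtype.ext
    funext g
    change (f : T.G b → ℤ) (T.π (hb j) g) = (f : T.G b → ℤ) (T.π (hb i) (T.π h g))
    rw [T.π_comp]

lemma ecToCoind_apply (i : T.ι) (f : T.G b → ℤ) (g : T.G i) :
    (((ecToCoind b hb).f i).hom f).1 g = f (T.π (hb i) g) := rfl

lemma ecToCoind_bijective (i : T.ι) : Function.Bijective ((ecToCoind b hb).f i).hom := by
  constructor
  · intro (f : T.G b → ℤ) (f' : T.G b → ℤ) hff'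
    funext x
    obtain ⟨g, rfl⟩ := T.π_surjective (hb i) x
    have := congrArg (fun F => F.1 g) hff'
    exact this
  · intro F
    refine ⟨fun x => F.1 (Classical.choose (T.π_surjective (hb i) x)), ?_⟩
    apply Subtype.ext
    funext g
    change F.1 (Classical.choose (T.π_surjective (hb i) (T.π (hb i) g))) = F.1 g
    have hs := Classical.choose_spec (T.π_surjective (hb i) (T.π (hb i) g))
    set g' := Classical.choose (T.π_surjective (hb i) (T.π (hb i) g)) with hg'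
    have hmem : g' * g⁻¹ ∈ T.pre (hb i) ⊥ := by
      change T.π (hb i) (g' * g⁻¹) ∈ (⊥ : Subgroup (T.G b))
      rw [map_mul, hs, map_inv, mul_inv_cancel]
      exact Subgroup.one_mem _
    have h1 := F.2 ⟨g' * g⁻¹, hmem⟩ g
    change F.1 (g' * g⁻¹ * g) = F.1 g at h1
    rwa [inv_mul_cancel_right] at h1

instance ecToCoind_isIso (i : T.ι) : IsIso ((ecToCoind b hb).f i) :=
  rep_isIso_of_bij _ (ecToCoind_bijective b hb i)

/-- `Ext¹(Q_ℤ, B)` has no `p`-torsion if `B` satisfies Hilbert 90 -/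
theorem ec_extLim_QZ_one_noPTorsion (p : ℕ)
    (h90 : ∀ (j : T.ι) (W : Subgroup (T.G j)) (x : groupCohomology (B.atSub j W) 1),
      p • x = 0 → x = 0)
    (x : ExtLim (inflFrom b hb (ecQZ (T.G b))) B 1) (hx : p • x = 0) : x = 0 := by
  let e := ExtLim.congrLeft (Hom.toIso (ecToCoind b hb)) B 1
  let e' := shapiroLLim b hb ⊥ (triv ℤ (T.sub b ⊥)) B 1
  have hy : p • e' (e.symm x) = 0 := by rw [← map_nsmul, ← map_nsmul, hx, map_zero, map_zero]
  obtain ⟨j, -, x', hx'1, hx'2⟩ :=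
    exists_hlimOf_nsmul_eq_zero (B.sub b ⊥) 1 p (e' (e.symm x)) hy ⟨b, le_refl b⟩
  have hx'0 : x' = 0 := h90 j.1 (T.pre j.2 ⊥) x' hx'2
  rw [hx'0, map_zero] at hx'1
  have h1 : e.symm x = 0 := e'.injective (hx'1.symm.trans (map_zero e').symm)
  exact e.symm.injective (h1.trans (map_zero e.symm).symm)

end Shapiro

end

end Fermat.Agent.TW
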