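/-
G4 (Euler characteristic), equivariant Kummer sequence, part 2: the Bockstein sequence
`0 → Q_ℤ → Q_ℤ → Q → 0`, the equivariant identifications `Ext⁰(Q, B) = B_b[p]`, `Ext¹(Q, B) = B_b / p`,
and the counts `|Ext^r(N, B)| = |Hom_U(N, B_b[p])|` resp. `|Hom_U(N, B_b / p)|` (`r = 0, 1`) for finite
`p`-torsion modules `N` over a commutative bottom group `U` of order prime to `p`.
-/
import Fermat.Agent.Lib.TW.Euler.EKS

set_option autoImplicit false
set_option linter.unusedSectionVars false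
set_option linter.unusedVariables false
set_option linter.style.haveILetI false

open CategoryTheory CategoryTheory.Abelian

namespace Fermat.Agent.TW

open Fermat.Agent.CFT Fermat.Agent.CFT.Duality Fermat.Agent.CFT.Duality.TowerModule

noncomputable section

section Bock

variable (p : ℕ) [Fact p.Prime] {T : Tower} (b : T.ι) (hb : ∀ i, b ≤ i) (B : TowerModule ℤ T)
  [Fintype (T.G b)]

/-- the Bockstein sequence `0 → Q_ℤ → Q_ℤ → Q → 0` of tower modules -/
def ecBock : ShortExact (inflFrom b hb (ecQZ (T.G b))) (inflFrom b hb (ecQZ (T.G b)))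
    (inflFrom b hb (ecQ p (T.G b))) :=
  haveI : NeZero p := ⟨(Fact.out : p.Prime).ne_zero⟩
  inflFromShortExact b hb (p • 𝟙 (ecQZ (T.G b))) (ecQZRed p (T.G b))
    (ecQZ_nsmul_comp_red p (T.G b)) (ecQZ_shortExact p (T.G b))

lemma ecBock_f : (ecBock p b hb).f = inflFromHom b hb (p • 𝟙 (ecQZ (T.G b))) := rfl

lemma ecBock_g : (ecBock p b hb).g = inflFromHom b hb (ecQZRed p (T.G b)) := rfl

lemma ec_mapLeft_bock_f (r : ℕ) (x : ExtLim (inflFrom b hb (ecQZ (T.G b))) B r) :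
    ExtLim.mapLeft B (ecBock p b hb).f r x = p • x := by
  exact ec_mapLeft_inflFromHom_nsmul_id b hb B r p _ x

lemma ec_mapLeft_bock_g_injective :
    Function.Injective (ExtLim.mapLeft B (ecBock p b hb).g 0) := by
  refine ec_mapLeft_zero_injective B _ (fun j => ?_)
  intro (f : T.G b → ZMod p)
  refine ⟨(fun x => ((f x).val : ℤ) : T.G b → ℤ), ?_⟩
  funext x
  change (((f x).val : ℤ) : ZMod p) = f x
  simp

/-- `Q` is killed by `p` -/
lemma ecQ_killed (U : Type) [Group U] (f : (ecQ p U).V) : p • f = 0 := by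
  funext x
  change p • (f : U → ZMod p) x = 0
  rw [nsmul_eq_mul, ZMod.natCast_self, zero_mul]

lemma ec_extLim_Q_killed (r : ℕ) (x : ExtLim (inflFrom b hb (ecQ p (T.G b))) B r) : p • x = 0 :=
  ec_extLim_inflFrom_killed b hb B r p _ (ecQ_killed p (T.G b)) x

/-- `Ψ` as an isomorphism -/
def ecPsiEquiv (hB : B.HasDescent) :
    (B.C b).V ≃+ ExtLim (inflFrom b hb (ecQZ (T.G b))) B 0 :=
  AddEquiv.ofBijective (ecPsi b hb B) ⟨ecPsi_injective b hb B hB, ecPsi_surjective b hb B hB⟩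

lemma ecPsiEquiv_apply (hB : B.HasDescent) (z : (B.C b).V) :
    ecPsiEquiv b hb B hB z = ecPsi b hb B z := rfl

/-! #### Degree `0` -/

/-- `Ext⁰(Q, B) → B_b` -/
def ecTau (hB : B.HasDescent) : ExtLim (inflFrom b hb (ecQ p (T.G b))) B 0 →+ (B.C b).V :=
  (ecPsiEquiv b hb B hB).symm.toAddMonoidHom.comp (ExtLim.mapLeft B (ecBock p b hb).g 0)

lemma ecPsi_ecTau (hB : B.HasDescent) (x : ExtLim (inflFrom b hb (ecQ p (T.G b))) B 0) :
    ecPsi b hb B (ecTau p b hb B hB x) = ExtLim.mapLeft B (ecBock p b hb).g 0 x :=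
  (ecPsiEquiv b hb B hB).apply_symm_apply _

lemma ecTau_killed (hB : B.HasDescent) (x : ExtLim (inflFrom b hb (ecQ p (T.G b))) B 0) :
    p • ecTau p b hb B hB x = 0 := by
  rw [← map_nsmul, ec_extLim_Q_killed, map_zero]

lemma ecTau_injective (hB : B.HasDescent) : Function.Injective (ecTau p b hb B hB) := by
  intro x y hxy
  apply ec_mapLeft_bock_g_injective p b hb B
  rw [← ecPsi_ecTau p b hb B hB, ← ecPsi_ecTau p b hb B hB, hxy]

lemma exists_ecTau_eq (hB : B.HasDescent) (z : (B.C b).V) (hz : p • z = 0) :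
    ∃ x, ecTau p b hb B hB x = z := by
  have h1 : ExtLim.mapLeft B (ecBock p b hb).f 0 (ecPsi b hb B z) = 0 := by
    rw [ec_mapLeft_bock_f, ← map_nsmul, hz, map_zero]
  obtain ⟨x, hx⟩ := (ecBock p b hb).contravariant_exact₂ B 0 _ h1
  refine ⟨x, ?_⟩
  apply ecPsi_injective b hb B hB
  rw [ecPsi_ecTau, hx]

/-- `Ext⁰(Q, B) ≃ B_b[p]` -/
def ecE0 (hB : B.HasDescent) :
    ExtLim (inflFrom b hb (ecQ p (T.G b))) B 0 ≃+ (ecTor p (B.C b)).V :=
  AddEquiv.ofBijective (ecTorLift p (B.C b) (ecTau p b hb B hB) (ecTau_killed p b hb B hB))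
    ⟨fun x y hxy => ecTau_injective p b hb B hB (by
        have := congrArg (ecTorVal p (B.C b)) hxy
        rwa [ecTorVal_ecTorLift, ecTorVal_ecTorLift] at this),
      fun t => by
        obtain ⟨x, hx⟩ := exists_ecTau_eq p b hb B hB (ecTorVal p (B.C b) t)
          (ecTorVal_smul p (B.C b) t)
        refine ⟨x, ecTorVal_injective p (B.C b) ?_⟩
        rw [ecTorVal_ecTorLift, hx]⟩

lemma ecTorVal_ecE0 (hB : B.HasDescent) (x : ExtLim (inflFrom b hb (ecQ p (T.G b))) B 0) :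
    ecTorVal p (B.C b) (ecE0 p b hb B hB x) = ecTau p b hb B hB x := rfl

/-! #### Degree `1` -/

/-- `B_b → Ext¹(Q, B)`, `z ↦ δ(Ψ z)` -/
def ecSig : (B.C b).V →+ ExtLim (inflFrom b hb (ecQ p (T.G b))) B 1 :=
  (ExtLim.compLeft B (ecBock p b hb).δ 0 1 rfl).comp (ecPsi b hb B)

lemma ecSig_apply (z : (B.C b).V) :
    ecSig p b hb B z = ExtLim.compLeft B (ecBock p b hb).δ 0 1 rfl (ecPsi b hb B z) := rfl

lemma ecSig_nsmul (z : (B.C b).V) : ecSig p b hb B (p • z) = 0 := by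
  rw [ecSig_apply, map_nsmul, ← ec_mapLeft_bock_f p b hb B 0]
  exact (ecBock p b hb).compLeft_δ_mapLeft_f B (n₀ := 0) (n₁ := 1) rfl _

variable (h90 : ∀ (j : T.ι) (W : Subgroup (T.G j)) (x : groupCohomology (B.atSub j W) 1),
      p • x = 0 → x = 0)

include h90 in
lemma ecSig_surjective (hB : B.HasDescent) : Function.Surjective (ecSig p b hb B) := by
  intro x
  have h1 : ExtLim.mapLeft B (ecBock p b hb).g 1 x = 0 := by
    apply ec_extLim_QZ_one_noPTorsion b hb B p h90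
    rw [← map_nsmul, ec_extLim_Q_killed, map_zero]
  obtain ⟨y, hy⟩ := (ecBock p b hb).contravariant_exact₃ B (n₀ := 0) (n₁ := 1) rfl x h1
  obtain ⟨z, rfl⟩ := ecPsi_surjective b hb B hB y
  exact ⟨z, hy⟩

lemma ecSig_eq_zero (hB : B.HasDescent) (z : (B.C b).V) (hz : ecSig p b hb B z = 0) :
    ∃ y : (B.C b).V, p • y = z := by
  obtain ⟨x, hx⟩ := (ecBock p b hb).contravariant_exact₁ B (n₀ := 0) (n₁ := 1) rfl (ecPsi b hb B z) hz
  obtain ⟨y, rfl⟩ := ecPsi_surjective b hb B hB x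
  refine ⟨y, ecPsi_injective b hb B hB ?_⟩
  rw [map_nsmul, ← hx, ec_mapLeft_bock_f]

/-- `Ext¹(Q, B) ≃ B_b / p` -/
def ecE1 (hB : B.HasDescent) :
    ExtLim (inflFrom b hb (ecQ p (T.G b))) B 1 ≃+ (ecCot p (B.C b)).V :=
  (AddEquiv.ofBijective (ecCotLift p (B.C b) (ecSig p b hb B) (ecSig_nsmul p b hb B))
    ⟨by
      rw [injective_iff_map_eq_zero]
      intro c hc
      obtain ⟨z, rfl⟩ := ecCotMk_surjective p (B.C b) c
      rw [ecCotLift_ecCotMk] at hc
      exact (ecCotMk_eq_zero_iff p (B.C b) z).2 (ecSig_eq_zero p b hb B hB z hc),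
    fun x => by
      obtain ⟨z, hz⟩ := ecSig_surjective p b hb B h90 hB x
      exact ⟨ecCotMk p (B.C b) z, hz⟩⟩).symm

lemma ecE1_symm_ecCotMk (hB : B.HasDescent) (z : (B.C b).V) :
    (ecE1 p b hb B h90 hB).symm (ecCotMk p (B.C b) z) = ecSig p b hb B z := rfl

/-! #### Equivariance -/

variable (hc : ∀ x y : T.G b, x * y = y * x)

/-- the action of `u` on `M`, for the commutative group structure given by `hc` -/
abbrev ecRhoU (M : Rep.{0} ℤ (T.G b)) (u : T.G b) : M ⟶ M :=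
  @ecRhoHom (T.G b) (ecCommGroup hc) ℤ _ M u

lemma ec_map_red_map_rho (u : T.G b) (x : ExtLim (inflFrom b hb (ecQ p (T.G b))) B 0) :
    ExtLim.mapLeft B (ecBock p b hb).g 0
      (ExtLim.mapLeft B (inflFromHom b hb (ecRhoU b hc (ecQ p (T.G b)) u)) 0 x) =
    ExtLim.mapLeft B (inflFromHom b hb (ecRhoU b hc (ecQZ (T.G b)) u)) 0
      (ExtLim.mapLeft B (ecBock p b hb).g 0 x) := by
  letI : CommGroup (T.G b) := ecCommGroup hc
  rw [ecBock_g, ← ec_mapLeft_inflFromHom_comp, ← ec_mapLeft_inflFromHom_comp]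
  congr 3

theorem ecE0_smul (hB : B.HasDescent) (u : T.G b)
    (x : ExtLim (inflFrom b hb (ecQ p (T.G b))) B 0) :
    ecE0 p b hb B hB
      (ExtLim.mapLeft B (inflFromHom b hb (ecRhoU b hc (ecQ p (T.G b)) u)) 0 x) =
      (ecTor p (B.C b)).ρ u (ecE0 p b hb B hB x) := by
  apply ecTorVal_injective p (B.C b)
  rw [ecTorVal_ρ, ecTorVal_ecE0, ecTorVal_ecE0]
  apply ecPsi_injective b hb B hB
  rw [ecPsi_ecTau, ec_map_red_map_rho p b hb B hc, ← ecPsi_ecTau p b hb B hB, ecPsi_smul b hb B hc]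

lemma ecSig_smul (u : T.G b) (z : (B.C b).V) :
    ExtLim.mapLeft B (inflFromHom b hb (ecRhoU b hc (ecQ p (T.G b)) u)) 1
      (ecSig p b hb B z) = ecSig p b hb B ((B.C b).ρ u z) := by
  letI : CommGroup (T.G b) := ecCommGroup hc
  rw [ecSig_apply, ecSig_apply, ← ecPsi_smul b hb B hc]
  refine (ec_compLeft_δ_natural (ecBock p b hb) (ecBock p b hb)
    (inflFromHom b hb (ecRhoHom (ecQZ (T.G b)) u)) (inflFromHom b hb (ecRhoHom (ecQZ (T.G b)) u))
    (inflFromHom b hb (ecRhoHom (ecQ p (T.G b)) u)) (fun j => ?_) (fun j => ?_) B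
    (n₀ := 0) (n₁ := 1) rfl (ecPsi b hb B z)).symm
  · change (Rep.resFunctor (T.π (hb j))).map (ecRhoHom (ecQZ (T.G b)) u) ≫
      (Rep.resFunctor (T.π (hb j))).map (p • 𝟙 (ecQZ (T.G b))) =
      (Rep.resFunctor (T.π (hb j))).map (p • 𝟙 (ecQZ (T.G b))) ≫
      (Rep.resFunctor (T.π (hb j))).map (ecRhoHom (ecQZ (T.G b)) u)
    rw [← Functor.map_comp, ← Functor.map_comp, ecRhoHom_comp_nsmul]
  · change (Rep.resFunctor (T.π (hb j))).map (ecRhoHom (ecQZ (T.G b)) u) ≫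
      (Rep.resFunctor (T.π (hb j))).map (ecQZRed p (T.G b)) =
      (Rep.resFunctor (T.π (hb j))).map (ecQZRed p (T.G b)) ≫
      (Rep.resFunctor (T.π (hb j))).map (ecRhoHom (ecQ p (T.G b)) u)
    rw [← Functor.map_comp, ← Functor.map_comp, ecRhoHom_comp_ecQZRed]

theorem ecE1_smul (hB : B.HasDescent) (u : T.G b)
    (x : ExtLim (inflFrom b hb (ecQ p (T.G b))) B 1) :
    ecE1 p b hb B h90 hB
      (ExtLim.mapLeft B (inflFromHom b hb (ecRhoU b hc (ecQ p (T.G b)) u)) 1 x) =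
      (ecCot p (B.C b)).ρ u (ecE1 p b hb B h90 hB x) := by
  obtain ⟨c, rfl⟩ := (ecE1 p b hb B h90 hB).symm.surjective x
  obtain ⟨z, rfl⟩ := ecCotMk_surjective p (B.C b) c
  rw [ecE1_symm_ecCotMk, ecSig_smul p b hb B hc, ← ecE1_symm_ecCotMk p b hb B h90 hB,
    AddEquiv.apply_symm_apply, ← ecE1_symm_ecCotMk p b hb B h90 hB, AddEquiv.apply_symm_apply,
    ecCotMk_ρ]

/-! #### The counts -/

include hc in
/-- **equivariant Kummer sequence, degree `0`**:
`|Ext⁰(N, B)| = |Hom_U(N, B_b[p])|` for a finite `p`-torsion `U`-module `N`, `U = T.G b`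
commutative of order prime to `p`. -/
theorem ec_card_extLim_inflFrom_zero (hcop : (Fintype.card (T.G b)).Coprime p)
    (hB : B.HasDescent) (N : Rep.{0} ℤ (T.G b)) (hN : ∀ n : N.V, p • n = 0) [Finite N.V] :
    Nat.card (ExtLim (inflFrom b hb N) B 0) =
      Nat.card {φ : N.V →+ (ecTor p (B.C b)).V //
        ∀ u n, φ (N.ρ u n) = (ecTor p (B.C b)).ρ u (φ n)} :=
  @ec_card_eq_card_equivariant p (T.G b) (ecCommGroup hc) _ (ecExtFun b hb B 0) N hN _ _ hcop
    (ecTor p (B.C b)).V _ (fun u => ((ecTor p (B.C b)).ρ u).toAddMonoidHom)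
    (ecE0 p b hb B hB) (fun u x => ecE0_smul p b hb B hc hB u x)

include hc h90 in
/-- **equivariant Kummer sequence, degree `1`**:
`|Ext¹(N, B)| = |Hom_U(N, B_b / p)|`. -/
theorem ec_card_extLim_inflFrom_one (hcop : (Fintype.card (T.G b)).Coprime p)
    (hB : B.HasDescent) (N : Rep.{0} ℤ (T.G b)) (hN : ∀ n : N.V, p • n = 0) [Finite N.V] :
    Nat.card (ExtLim (inflFrom b hb N) B 1) =
      Nat.card {φ : N.V →+ (ecCot p (B.C b)).V //
        ∀ u n, φ (N.ρ u n) = (ecCot p (B.C b)).ρ u (φ n)} :=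
  @ec_card_eq_card_equivariant p (T.G b) (ecCommGroup hc) _ (ecExtFun b hb B 1) N hN _ _ hcop
    (ecCot p (B.C b)).V _ (fun u => ((ecCot p (B.C b)).ρ u).toAddMonoidHom)
    (ecE1 p b hb B h90 hB) (fun u x => ecE1_smul p b hb B h90 hc hB u x)

end Bock

end

end Fermat.Agent.TW
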