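/-
G4 (Euler characteristic): finite products of tower modules: Galois descent and Hilbert 90.
-/
import Fermat.Agent.Lib.TW.Euler.EKSCount

set_option autoImplicit false
set_option linter.unusedSectionVars false
set_option linter.unusedVariables false
set_option linter.style.haveILetI false

open CategoryTheory CategoryTheory.Abelian

namespace Fermat.Agent.TW

open Fermat.Agent.CFT Fermat.Agent.CFT.Duality Fermat.Agent.CFT.Duality.TowerModule

noncomputable section

/-- `Hⁿ(G, -)` is additive on morphisms -/
theorem ec_groupCohomology_map_add {k G : Type} [CommRing k] [Group G] {A B : Rep.{0} k G}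
    (φ ψ : A ⟶ B) (n : ℕ) :
    groupCohomology.map (MonoidHom.id G) (φ + ψ) n =
      groupCohomology.map (MonoidHom.id G) φ n + groupCohomology.map (MonoidHom.id G) ψ n := by
  have h : groupCohomology.cochainsMap (MonoidHom.id G) (φ + ψ) =
      groupCohomology.cochainsMap (MonoidHom.id G) φ +
        groupCohomology.cochainsMap (MonoidHom.id G) ψ :=
    (groupCohomology.cochainsFunctor k G).map_add (f := φ) (g := ψ)
  unfold groupCohomology.map
  rw [h]
  exact HomologicalComplex.homologyMap_add _ _ n

theorem ec_groupCohomology_map_sum {k G : Type} [CommRing k] [Group G] {A B : Rep.{0} k G}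
    {ι : Type} (s : Finset ι) (φ : ι → (A ⟶ B)) (n : ℕ) :
    groupCohomology.map (MonoidHom.id G) (∑ i ∈ s, φ i) n =
      ∑ i ∈ s, groupCohomology.map (MonoidHom.id G) (φ i) n := by
  classical
  induction s using Finset.induction_on with
  | empty =>
    simp only [Finset.sum_empty]
    exact (groupCohomology.functor k G n).map_zero A B
  | insert a s ha ih => rw [Finset.sum_insert ha, Finset.sum_insert ha, ec_groupCohomology_map_add, ih]

section Pi

variable {T : Tower} {ι : Type} [Fintype ι] [DecidableEq ι] (B : ι → TowerModule ℤ T)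

/-- a finite product of modules with descent has descent -/
theorem ec_piT_hasDescent (h : ∀ q, (B q).HasDescent) : (piT B).HasDescent where
  injective {i j} hij := fun x y hxy => funext fun q => (h q).injective hij (congrFun hxy q)
  surjective {i j} hij y hy := by
    choose x hx using fun q => (h q).surjective hij
      ((show ∀ q, ((B q).C j).V from y) q) (fun g hg => congrFun (hy g hg) q)
    exact ⟨x, funext hx⟩

/-- Hilbert 90 for a finite product -/
theorem ec_piT_h90 (p : ℕ)
    (h : ∀ (q : ι) (j : T.ι) (W : Subgroup (T.G j))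
      (x : groupCohomology ((B q).atSub j W) 1), p • x = 0 → x = 0)
    (j : T.ι) (W : Subgroup (T.G j)) (x : groupCohomology ((piT B).atSub j W) 1)
    (hx : p • x = 0) : x = 0 := by
  let prj : ∀ q, (piT B).atSub j W ⟶ (B q).atSub j W := fun q =>
    (Rep.resFunctor W.subtype).map ((piProj B q).f j)
  let inc : ∀ q, (B q).atSub j W ⟶ (piT B).atSub j W := fun q =>
    (Rep.resFunctor W.subtype).map ((piIncl B q).f j)
  have hsum : ∑ q, prj q ≫ inc q = 𝟙 ((piT B).atSub j W) := by
    refine ec_hom_ext_apply _ _ (fun y => ?_)
    have h0 := ec_sum_nsmul_hom_apply (Finset.univ : Finset ι) (fun _ => 1)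
      (fun q => prj q ≫ inc q) y
    simp only [one_smul] at h0
    rw [h0]
    funext q'
    change (∑ q, (Pi.single q ((show ∀ q, ((B q).C j).V from y) q) : ∀ q, ((B q).C j).V)) q' =
      (show ∀ q, ((B q).C j).V from y) q'
    rw [Finset.sum_apply, Finset.sum_eq_single q']
    · simp
    · intro q _ hq
      exact Pi.single_eq_of_ne (Ne.symm hq) _
    · intro hq
      exact absurd (Finset.mem_univ _) hq
  have h1 : ∀ q, (groupCohomology.map (MonoidHom.id W) (prj q) 1).hom x = 0 := fun q => by
    apply h q j W
    rw [← map_nsmul, hx, map_zero]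
  have h2 := congrArg (fun f => f.hom x) (ec_groupCohomology_map_sum Finset.univ
    (fun q => prj q ≫ inc q) 1)
  rw [hsum, groupCohomology.map_id] at h2
  have h3 : x = ∑ q, (groupCohomology.map (MonoidHom.id W) (prj q ≫ inc q) 1).hom x := by
    refine Eq.trans ?_ (h2.trans ?_)
    · rfl
    · simp
  rw [h3]
  refine Finset.sum_eq_zero (fun q _ => ?_)
  rw [groupCohomology.map_id_comp]
  change (groupCohomology.map (MonoidHom.id W) (inc q) 1).hom
    ((groupCohomology.map (MonoidHom.id W) (prj q) 1).hom x) = 0
  rw [h1 q, map_zero]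

end Pi

end

end Fermat.Agent.TW
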