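/-
G4 (Euler characteristic), the base case: for `M = coind_V^G N` with `V ≤ Gal(L₀/ℚ)` commutative of
order prime to `p` and `N` a finite `F_p[V]`-module, `χ(M) = 0`, PROVIDED the Herbrand type computation
`h_F(E(L₀)|_V) = log |M^{c=1}| + Σ_q log |M^{D_q}| - log |M^G|` for `F = log |Hom_V(N, -)|` (leaf (R)).

Proof: the nine term sequence of `0 → E → ⊕ J_q → C (→ Cl → 0)` (`ec_nine_EJC`), the equivariant Kummer
sequence (`ec_card_extLim_coind_zero/one`) for `B = C` and `B = ⊕ J_q`, the additivity of `h_F`, and the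
values of `e₂(C)`, `e₂(⊕ J_q)`.
-/
import Fermat.Agent.Lib.TW.Euler.BaseShapiro
import Fermat.Agent.Lib.TW.Euler.JDescent
import Fermat.Agent.Lib.TW.Euler.HZero
import Fermat.Agent.Lib.TW.Euler.PiJ
import Fermat.Agent.Lib.TW.Euler.CyclicClass

set_option autoImplicit false
set_option linter.unusedSectionVars false
set_option linter.unusedVariables false
set_option linter.style.haveILetI false

open CategoryTheory CategoryTheory.Abelian

namespace Fermat.Agent.TW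

open Fermat.Agent.CFT Fermat.Agent.CFT.Duality Fermat.Agent.CFT.Duality.TowerModule
open Fermat.Agent.CFT.Duality.PTData

noncomputable section

section Res

variable {R : Type} [CommRing R] {G H : Type} [Group G] [Group H] (p : ℕ) (f : H →* G)

lemma ec_finite_tor_res (X : Rep.{0} R G) [h : Finite (ecTor p X).V] :
    Finite (ecTor p (Rep.res f X)).V := h

lemma ec_finite_cot_res (X : Rep.{0} R G) [h : Finite (ecCot p X).V] :
    Finite (ecCot p (Rep.res f X)).V := h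

variable [Fact p.Prime] (F : EcAddFun (ZMod p) H)

/-- additivity of `h_F` on the restriction of a short exact sequence -/
theorem ecH_res_add {X' X X'' : Rep.{0} R G} (i : X' ⟶ X) (q : X ⟶ X'')
    (hi : Function.Injective i.hom) (hq : Function.Surjective q.hom)
    (hex : ∀ x : X.V, q.hom x = 0 ↔ ∃ x' : X'.V, i.hom x' = x)
    [Finite (ecTor p X').V] [Finite (ecTor p X).V] [Finite (ecTor p X'').V]
    [Finite (ecCot p X').V] [Finite (ecCot p X).V] [Finite (ecCot p X'').V] :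
    ecH p F (Rep.res f X) = ecH p F (Rep.res f X') + ecH p F (Rep.res f X'') := by
  haveI := ec_finite_tor_res p f X'
  haveI := ec_finite_tor_res p f X
  haveI := ec_finite_tor_res p f X''
  haveI := ec_finite_cot_res p f X'
  haveI := ec_finite_cot_res p f X
  haveI := ec_finite_cot_res p f X''
  exact ecH_add p F ((Rep.resFunctor f).map i) ((Rep.resFunctor f).map q) hi hq hex

lemma ecH_res_eq_zero_of_finite (X : Rep.{0} R G) [h : Finite X.V] :
    ecH p F (Rep.res f X) = 0 := by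
  haveI : Finite (Rep.res f X).V := h
  exact ecH_eq_zero_of_finite p F _

end Res

section CardInv

variable {k G : Type} [CommRing k] [Group G] (M : Rep.{0} k G)

lemma ecCardInv_pos [Finite M.V] (D : Subgroup G) : 0 < ecCardInv M D := by
  unfold ecCardInv
  haveI : Nonempty {x : M.V // ∀ g ∈ D, M.ρ g x = x} := ⟨⟨0, fun g _ => map_zero _⟩⟩
  exact Nat.card_pos

lemma ecCardInv_zpowers (c : G) :
    ecCardInv M (Subgroup.zpowers c) = Nat.card {x : M.V // M.ρ c x = x} := by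
  unfold ecCardInv
  refine Nat.card_congr (Equiv.subtypeEquivRight (fun x => ⟨fun h => h c (Subgroup.mem_zpowers c),
    fun h => ?_⟩))
  let Hx : Subgroup G :=
    { carrier := {g | M.ρ g x = x}
      one_mem' := by
        change M.ρ 1 x = x
        rw [map_one]; rfl
      mul_mem' := by
        intro a b ha hb
        change M.ρ (a * b) x = x
        rw [map_mul]
        change M.ρ a (M.ρ b x) = x
        rw [hb, ha]
      inv_mem' := by
        intro a ha
        change M.ρ a⁻¹ x = x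
        have h1 : M.ρ a⁻¹ (M.ρ a x) = x := by
          rw [← Module.End.mul_apply, ← map_mul, inv_mul_cancel, map_one]; rfl
        rwa [ha] at h1 }
  have hle : Subgroup.zpowers c ≤ Hx := (Subgroup.zpowers_le).2 h
  exact fun g hg => hle hg

end CardInv

section Base

variable {p : ℕ} [Fact p.Prime] {S : Finset Nat.Primes} {L₀ : Level} {h₀ : L₀.IsS S}
  (d : PTData p S L₀ h₀)
  (U : Subgroup ((towerS S L₀ h₀).G (botS S L₀ h₀)))
  (N : Rep.{0} (ZMod p) (ecV S h₀ U)) [Finite N.V]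
  (hcyc : ∀ x y : ecV S h₀ U, x * y = y * x) (hV : ¬ p ∣ Nat.card (ecV S h₀ U))
  (F : EcAddFun (ZMod p) (ecV S h₀ U))
  (hF : ∀ Z : Rep.{0} (ZMod p) (ecV S h₀ U), F.f Z = Real.log (Nat.card (N ⟶ Z)))

instance ec_finite_ecMN : Finite (ecMN S h₀ U N).V := by
  change Finite (Representation.coindV (ecV S h₀ U).subtype N.ρ)
  haveI : Finite L₀.G := inferInstance
  exact Subtype.finite

lemma ec_finite_ecAM (j : (levelTower L₀).ι) : Finite ((ecAM L₀ (ecMN S h₀ U N)).C j) :=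
  ec_finite_ecMN U N

lemma ec_killed_ecAM (M : Rep.{0} (ZMod p) L₀.G) (j : (levelTower L₀).ι)
    (x : (ecAM L₀ M).C j) : p • x = 0 := by
  change p • (show M.V from x) = 0
  have h : (p : ZMod p) • (show M.V from x) = 0 := by rw [ZMod.natCast_self, zero_smul]
  rwa [Nat.cast_smul_eq_nsmul] at h

include hcyc hV hF in
/-- `log e₁(B) - log e₀(B) = h_F(B_bot|_V)` for `B` with descent and Hilbert 90 -/
theorem ec_log_sub_eq_ecH (B : TowerModule ℤ (towerS S L₀ h₀)) (hB : B.HasDescent)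
    (h90 : ∀ (j : (towerS S L₀ h₀).ι) (W : Subgroup ((towerS S L₀ h₀).G j))
      (x : groupCohomology (B.atSub j W) 1), p • x = 0 → x = 0) :
    Real.log (Nat.card (ExtLim (AS S h₀ (ecAM L₀ (ecMN S h₀ U N))) B 1)) -
      Real.log (Nat.card (ExtLim (AS S h₀ (ecAM L₀ (ecMN S h₀ U N))) B 0)) =
      ecH p F (Rep.res (ecV S h₀ U).subtype (B.C (botS S L₀ h₀))) := by
  rw [ec_card_extLim_coind_one S h₀ U N hcyc hV B hB h90,
    ec_card_extLim_coind_zero S h₀ U N hcyc hV B hB]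
  unfold ecH
  rw [hF, hF]

lemma ec_finite_hom {U' : Type} [Group U'] (N' Z : Rep.{0} (ZMod p) U') [Finite N'.V] [Finite Z.V] :
    Finite (N' ⟶ Z) :=
  Finite.of_injective (fun h : N' ⟶ Z => (fun x : N'.V => h.hom x))
    (fun h h' hh' => ec_hom_ext_apply _ _ (fun x => congrFun hh' x))

lemma ec_card_hom_ne_zero {U' : Type} [Group U'] (N' Z : Rep.{0} (ZMod p) U') [Finite N'.V]
    [Finite Z.V] : Nat.card (N' ⟶ Z) ≠ 0 := by
  haveI := ec_finite_hom N' Z
  exact Nat.card_pos.ne'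

/-- logarithm of a nine term identity -/
lemma ec_log_nine (a b c e f g h i j : ℕ) (ha : a ≠ 0) (hb : b ≠ 0) (hc : c ≠ 0) (he : e ≠ 0)
    (hf : f ≠ 0) (hg : g ≠ 0) (hh : h ≠ 0) (hi : i ≠ 0) (hj : j ≠ 0)
    (H : a * b * c * e * f = g * h * i * j) :
    Real.log a + Real.log b + Real.log c + Real.log e + Real.log f =
      Real.log g + Real.log h + Real.log i + Real.log j := by
  have ha' : (a : ℝ) ≠ 0 := Nat.cast_ne_zero.2 ha
  have hb' : (b : ℝ) ≠ 0 := Nat.cast_ne_zero.2 hb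
  have hc' : (c : ℝ) ≠ 0 := Nat.cast_ne_zero.2 hc
  have he' : (e : ℝ) ≠ 0 := Nat.cast_ne_zero.2 he
  have hf' : (f : ℝ) ≠ 0 := Nat.cast_ne_zero.2 hf
  have hg' : (g : ℝ) ≠ 0 := Nat.cast_ne_zero.2 hg
  have hh' : (h : ℝ) ≠ 0 := Nat.cast_ne_zero.2 hh
  have hi' : (i : ℝ) ≠ 0 := Nat.cast_ne_zero.2 hi
  have hj' : (j : ℝ) ≠ 0 := Nat.cast_ne_zero.2 hj
  have H' : (a : ℝ) * b * c * e * f = g * h * i * j := by exact_mod_cast H
  have := congrArg Real.log H'
  rw [Real.log_mul (by positivity) hf', Real.log_mul (by positivity) he',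
    Real.log_mul (by positivity) hc', Real.log_mul ha' hb',
    Real.log_mul (by positivity) hj', Real.log_mul (by positivity) hi',
    Real.log_mul hg' hh'] at this
  exact this

include hcyc hV hF in
/-- **the base case of the Euler characteristic formula**, from the Herbrand type computation (R) -/
theorem ec_base_case_aux (hE : EulerInput d) (q₀ : ↥S)
    (hR : ecH p F (Rep.res (ecV S h₀ U).subtype (d.E.C (botS S L₀ h₀))) =
      Real.log (ecCardInv (ecMN S h₀ U N) (Subgroup.zpowers (ecCbar L₀))) +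
        ∑ q : ↥S, Real.log (ecCardInv (ecMN S h₀ U N) (decomp q.1 L₀)) -
        Real.log (ecCardInv (ecMN S h₀ U N) ⊤)) :
    ecChi d (ecMN S h₀ U N) = 0 := by
  have hfin : ∀ j, Finite ((ecAM L₀ (ecMN S h₀ U N)).C j) := ec_finite_ecAM U N
  have hA : ∀ j (x : (ecAM L₀ (ecMN S h₀ U N)).C j), p • x = 0 :=
    ec_killed_ecAM (ecMN S h₀ U N)
  -- finiteness of Tor / Cot at the bottom level
  have hp0 : ((p : ℕ) : ℤ) ≠ 0 := by exact_mod_cast (Fact.out : p.Prime).ne_zero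
  haveI hfgE : @Module.Finite ℤ (d.E.C (botS S L₀ h₀)).V _ _ (d.E.C (botS S L₀ h₀)).hV2 :=
    eca_finite_int_of _ _ hE.fg
  haveI hTE : Finite (ecTor p (d.E.C (botS S L₀ h₀))).V := eca_finite_tor p ecaTorsFin_int hp0 _
  haveI hCE : Finite (ecCot p (d.E.C (botS S L₀ h₀))).V := eca_finite_cot p ecaTorsFin_int hp0 _
  haveI hTJ := ec_finite_tor_Jsum d (botS S L₀ h₀)
  haveI hCJ := ec_finite_cot_Jsum d (botS S L₀ h₀)
  haveI hTQ := ec_finite_tor_JmodE d (botS S L₀ h₀) hCE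
  haveI hCQ := ec_finite_cot_JmodE d (botS S L₀ h₀)
  haveI hTC := ec_finite_tor_C d (botS S L₀ h₀) hCE
  haveI hCC := ec_finite_cot_C d (botS S L₀ h₀)
  haveI hCl : Finite (d.Cl.C (botS S L₀ h₀)).V := d.finite_Cl _
  haveI hTCl := ec_finite_tor p (d.Cl.C (botS S L₀ h₀))
  haveI hCCl := ec_finite_cot p (d.Cl.C (botS S L₀ h₀))
  -- (e) additivity of `h_F`
  obtain ⟨i1, i2, i3⟩ := ec_sesEJ_functions d (botS S L₀ h₀)
  obtain ⟨j1, j2, j3⟩ := ec_sesCl_functions d (botS S L₀ h₀)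
  have hadd1 := ecH_res_add p (ecV S h₀ U).subtype F (d.sesEJ.f.f _) (d.sesEJ.g.f _) i1 i2 i3
  have hadd2 := ecH_res_add p (ecV S h₀ U).subtype F (d.sesCl.f.f _) (d.sesCl.g.f _) j1 j2 j3
  have hcl0 := ecH_res_eq_zero_of_finite p (ecV S h₀ U).subtype F (d.Cl.C (botS S L₀ h₀))
  -- the equivariant Kummer sequence
  have hJdesc : d.Jsum.HasDescent := ec_piT_hasDescent d.J (fun q => ec_J_hasDescent d q)
  have hJ90 := ec_piT_h90 d.J p hE.h90
  have hJ := ec_log_sub_eq_ecH U N hcyc hV F hF d.Jsum hJdesc hJ90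
  have hC := ec_log_sub_eq_ecH U N hcyc hV F hF d.C d.cf.descent d.cf.h1
  -- nonvanishing of the cardinalities `e₀, e₁` of `C` and `⊕ J_q`
  haveI r1 := ec_finite_tor_res p (ecV S h₀ U).subtype (d.C.C (botS S L₀ h₀))
  haveI r2 := ec_finite_cot_res p (ecV S h₀ U).subtype (d.C.C (botS S L₀ h₀))
  haveI r3 := ec_finite_tor_res p (ecV S h₀ U).subtype (d.Jsum.C (botS S L₀ h₀))
  haveI r4 := ec_finite_cot_res p (ecV S h₀ U).subtype (d.Jsum.C (botS S L₀ h₀))
  have n0C : Nat.card (ExtLim (AS S h₀ (ecAM L₀ (ecMN S h₀ U N))) d.C 0) ≠ 0 := by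
    rw [ec_card_extLim_coind_zero S h₀ U N hcyc hV d.C d.cf.descent]
    exact ec_card_hom_ne_zero _ _
  have n1C : Nat.card (ExtLim (AS S h₀ (ecAM L₀ (ecMN S h₀ U N))) d.C 1) ≠ 0 := by
    rw [ec_card_extLim_coind_one S h₀ U N hcyc hV d.C d.cf.descent d.cf.h1]
    exact ec_card_hom_ne_zero _ _
  have n0J : Nat.card (ExtLim (AS S h₀ (ecAM L₀ (ecMN S h₀ U N))) d.Jsum 0) ≠ 0 := by
    rw [ec_card_extLim_coind_zero S h₀ U N hcyc hV d.Jsum hJdesc]
    exact ec_card_hom_ne_zero _ _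
  have n1J : Nat.card (ExtLim (AS S h₀ (ecAM L₀ (ecMN S h₀ U N))) d.Jsum 1) ≠ 0 := by
    rw [ec_card_extLim_coind_one S h₀ U N hcyc hV d.Jsum hJdesc hJ90]
    exact ec_card_hom_ne_zero _ _
  -- degree `2`
  obtain ⟨f2C, c2C⟩ := ec_card_extLim_C_two d (ecAM L₀ (ecMN S h₀ U N)) hfin hA
  obtain ⟨f2J, c2J⟩ := ec_card_extLim_Jsum_two d (ecAM L₀ (ecMN S h₀ U N)) hfin hA
  obtain ⟨f2E, -⟩ := ec_card_extLim_E_two d (ecAM L₀ (ecMN S h₀ U N)) hfin hA q₀
  rw [ec_card_hlim_zero_AS] at c2C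
  have c2J' : Nat.card (ExtLim (AS S h₀ (ecAM L₀ (ecMN S h₀ U N))) d.Jsum 2) =
      ∏ q : ↥S, ecCardInv (ecMN S h₀ U N) (decomp q.1 L₀) :=
    c2J.trans (Finset.prod_congr rfl (fun q _ => ec_card_hlim_zero_AqS q.1 _))
  have n2C : Nat.card (ExtLim (AS S h₀ (ecAM L₀ (ecMN S h₀ U N))) d.C 2) ≠ 0 := Nat.card_pos.ne'
  have n2J : Nat.card (ExtLim (AS S h₀ (ecAM L₀ (ecMN S h₀ U N))) d.Jsum 2) ≠ 0 :=
    Nat.card_pos.ne'
  have n2E : Nat.card (ExtLim (AS S h₀ (ecAM L₀ (ecMN S h₀ U N))) d.E 2) ≠ 0 := Nat.card_pos.ne'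
  -- `e₀(E) ≠ 0`
  have n0E : Nat.card (ExtLim (AS S h₀ (ecAM L₀ (ecMN S h₀ U N))) d.E 0) ≠ 0 := by
    haveI : Finite (ExtLim (AS S h₀ (ecAM L₀ (ecMN S h₀ U N))) d.Jsum 0) :=
      Nat.finite_of_card_ne_zero n0J
    haveI : Finite (ExtLim (AS S h₀ (ecAM L₀ (ecMN S h₀ U N))) d.E 0) :=
      Finite.of_injective _ (ec_mapRight_zero_injective (AS S h₀ (ecAM L₀ (ecMN S h₀ U N)))
        d.eJsum d.eJsum_injective)
    exact Nat.card_pos.ne'
  -- the nine term sequence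
  have hnine := ec_nine_EJC d (ecAM L₀ (ecMN S h₀ U N)) hfin hA q₀
  have n1E : Nat.card (ExtLim (AS S h₀ (ecAM L₀ (ecMN S h₀ U N))) d.E 1) ≠ 0 := by
    intro h0
    rw [h0, mul_zero, zero_mul, zero_mul] at hnine
    exact (mul_ne_zero (mul_ne_zero (mul_ne_zero (mul_ne_zero n0E n0C) n1J) n2E) n2C) hnine
  have hlog := ec_log_nine _ _ _ _ _ _ _ _ _ n0E n0C n1J n2E n2C n0J n1E n1C n2J hnine
  -- the degree `2` terms in logarithms
  have l2J : Real.log (Nat.card (ExtLim (AS S h₀ (ecAM L₀ (ecMN S h₀ U N))) d.Jsum 2)) =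
      ∑ q : ↥S, Real.log (ecCardInv (ecMN S h₀ U N) (decomp q.1 L₀)) := by
    rw [c2J', Nat.cast_prod, Real.log_prod]
    intro q _
    exact Nat.cast_ne_zero.2 (ecCardInv_pos _ _).ne'
  rw [c2C] at hlog
  rw [l2J] at hlog
  rw [hcl0, add_zero] at hadd2
  unfold ecChi ecE
  rw [← ecCardInv_zpowers]
  linarith

end Base

end

end Fermat.Agent.TW
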