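/-
G4 (Euler characteristic): **the base case** `χ(coind_U^G N) = 0` for `U ≤ Gal(L₀/ℚ)` cyclic of order
prime to `p` (`BaseCase.lean` + leaf (R) `HomFun/Main.lean`).
-/
import Fermat.Agent.Lib.TW.Euler.BaseCase
import Fermat.Agent.Lib.TW.Euler.HomFun.Main

set_option autoImplicit false
set_option linter.unusedSectionVars false
set_option linter.unusedVariables false
set_option linter.style.haveILetI false

open CategoryTheory CategoryTheory.Abelian

namespace Fermat.Agent.TW

open Fermat.Agent.CFT Fermat.Agent.CFT.Duality Fermat.Agent.CFT.Duality.TowerModule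
open Fermat.Agent.CFT.Duality.PTData

noncomputable section

variable {p : ℕ} [Fact p.Prime] {S : Finset Nat.Primes} {L₀ : Level} {h₀ : L₀.IsS S}

/-- the decomposition groups of the places of `ℚ` in `S ∪ {∞}` -/
def ecPlaceGroups (S : Finset Nat.Primes) (L₀ : Level) : Option ↥S → Subgroup L₀.G
  | none => Subgroup.zpowers (ecCbar L₀)
  | some q => decomp q.1 L₀

/-- **The base case of the global Euler characteristic formula**: `χ(coind_U^G N) = 0` for `U` cyclic
of order prime to `p`. -/
theorem ec_base_case (d : PTData p S L₀ h₀) (hE : EulerInput d) (q₀ : ↥S) (U : Subgroup L₀.G)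
    (hU : IsCyclic U) (hpU : ¬ p ∣ Nat.card U) (N : Rep.{0} (ZMod p) U) (hN : Finite N.V) :
    ecChi d (Rep.coind U.subtype N) = 0 := by
  let P : Subgroup L₀.G → Prop := fun W => IsCyclic W → ¬ p ∣ Nat.card W →
    ∀ (N : Rep.{0} (ZMod p) W), Finite N.V → ecChi d (Rep.coind W.subtype N) = 0
  have hP : P (ecV S h₀ U) := by
    intro hW hpW N hN
    haveI : Finite N.V := hN
    haveI : IsCyclic (ecV S h₀ U) := hW
    have hcyc : ∀ x y : ecV S h₀ U, x * y = y * x := fun x y =>
      (IsCyclic.commGroup (α := ecV S h₀ U)).mul_comm x y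
    haveI hfg : Module.Finite ℤ (d.E.C (botS S L₀ h₀)).V := hE.fg
    have hR := ecH_homFun_res_eq (ecV S h₀ U) hpW N (ecPlaceGroups S L₀) (d.E.C (botS S L₀ h₀))
      (fun W => (hE.rank W).trans
        (Fintype.sum_option (fun i => ecNumPlaces W (ecPlaceGroups S L₀ i))).symm)
    rw [Fintype.sum_option] at hR
    exact ec_base_case_aux d U N hcyc hpW (ecHomFun hpW N) (ecHomFun_f hpW N) hE q₀ hR
  exact (congrArg P (ecV_eq S h₀ U)).mp hP hU hpU N hN

end

end Fermat.Agent.TW
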